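import Fermat.Agent.CFT.Euler.Reduce

/-!
Modules killed by a prime over a finite group of order prime to it: exactness of fixed elements,
self duality of their dimensions, and the invariant of a permutation lattice.
-/

set_option autoImplicit false

noncomputable section

open scoped Classical

namespace FermatAgent.CFT.Euler

open Coh

variable {p : ℕ} [hp : Fact p.Prime] {P : Type} [Group P] [Fintype P]
  {M : Type} [AddCommGroup M] [DistribMulAction P M]

variable (p) in
/-- The averaging projection. -/
def avgP (m : M) : M := ((Fintype.card P : ZMod p)⁻¹).val • ∑ g : P, g • m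

lemma smul_avgP (g : P) (m : M) : g • avgP (P := P) p m = avgP (P := P) p m := by
  unfold avgP
  rw [Global.smul_nsmul', Finset.smul_sum]
  refine congrArg _ (Fintype.sum_equiv (Equiv.mulLeft g) _ _ fun k => ?_)
  rw [Equiv.coe_mulLeft, mul_smul]

lemma avgP_of_fixed (hP : ¬ p ∣ Fintype.card P) (hM : ∀ m : M, p • m = 0) {m : M}
    (hm : ∀ g : P, g • m = m) : avgP (P := P) p m = m := by
  have : NeZero p := ⟨hp.out.ne_zero⟩
  unfold avgP
  rw [Finset.sum_congr rfl fun g _ => hm g, Finset.sum_const, Finset.card_univ, ← mul_smul]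
  let : Module (ZMod p) M := AddCommGroup.zmodModule hM
  rw [← Nat.cast_smul_eq_nsmul (ZMod p), Nat.cast_mul, ZMod.natCast_zmod_val, inv_mul_cancel₀,
    one_smul]
  rwa [Ne, ZMod.natCast_eq_zero_iff]

lemma map_avgP {N : Type} [AddCommGroup N] [DistribMulAction P N] (f : M →+ N)
    (hf : ∀ (g : P) m, f (g • m) = g • f m) (m : M) :
    f (avgP (P := P) p m) = avgP (P := P) p (f m) := by
  unfold avgP
  rw [map_nsmul, map_sum]
  exact congrArg _ (Finset.sum_congr rfl fun g _ => hf g m)

lemma h0Map_surjective_of_coprime (hP : ¬ p ∣ Fintype.card P) {N : Type} [AddCommGroup N]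
    [DistribMulAction P N] (f : M →+ N) (hf : ∀ (g : P) m, f (g • m) = g • f m)
    (hs : Function.Surjective f) (hN : ∀ n : N, p • n = 0) : Function.Surjective (h0Map f hf) := by
  intro n
  obtain ⟨m, hm⟩ := hs n.1
  exact ⟨⟨avgP (P := P) p m, fun g => smul_avgP g m⟩, Subtype.ext (by
    show f (avgP (P := P) p m) = n.1
    rw [map_avgP f hf, hm, avgP_of_fixed hP hN n.2])⟩

lemma exists_addSection {B C : Type} [AddCommGroup B] [Module (ZMod p) B] [AddCommGroup C]
    [Module (ZMod p) C] (f : B →+ C) (hs : Function.Surjective f) :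
    ∃ r : C →+ B, ∀ c, f (r c) = c := by
  obtain ⟨r, hr⟩ := (f.toZModLinearMap p).exists_rightInverse_of_surjective
    (LinearMap.range_eq_top.mpr hs)
  exact ⟨r.toAddMonoidHom, fun c => LinearMap.congr_fun hr c⟩

section PostComp

variable (A : Type) [AddCommGroup A] [DistribMulAction P A]

/-- Composition with a map of the target. -/
def postComp {B C : Type} [AddCommGroup B] [DistribMulAction P B] [AddCommGroup C]
    [DistribMulAction P C] (f : B →+ C) :
    HomTw (MonoidHom.id P) A B →+ HomTw (MonoidHom.id P) A C :=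
  AddMonoidHom.mk' (fun φ => HomTw.mk _ A C (f.comp (HomTw.hom _ A B φ))) fun _ _ =>
    AddMonoidHom.ext fun _ => map_add f _ _

omit [Fintype P] in
lemma postComp_smul {B C : Type} [AddCommGroup B] [DistribMulAction P B] [AddCommGroup C]
    [DistribMulAction P C] (f : B →+ C) (hf : ∀ (g : P) b, f (g • b) = g • f b) (g : P)
    (φ : HomTw (MonoidHom.id P) A B) : postComp A f (g • φ) = g • postComp A f φ :=
  AddMonoidHom.ext fun _ => hf g _

omit [Fintype P] [DistribMulAction P A] in
lemma postComp_surjective {B C : Type} [AddCommGroup B] [DistribMulAction P B] [AddCommGroup C]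
    [DistribMulAction P C] (f : B →+ C) (hs : Function.Surjective f) (hB : ∀ b : B, p • b = 0)
    (hC : ∀ c : C, p • c = 0) : Function.Surjective (postComp (P := P) A f) := fun φ => by
  obtain ⟨r, hr⟩ := @exists_addSection p hp B C _ (AddCommGroup.zmodModule hB) _
    (AddCommGroup.zmodModule hC) f hs
  exact ⟨HomTw.mk _ A B (r.comp (HomTw.hom _ A C φ)), AddMonoidHom.ext fun a => hr _⟩

/-- The dimension of equivariant maps, as an invariant of the target. -/
def invHom [Finite A] (hP : ¬ p ∣ Fintype.card P) (_hA : ∀ a : A, p • a = 0) : AddInv p P where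
  val V _ _ := ldim p (h0Sub P (HomTw (MonoidHom.id P) A V))
  add U V W _ _ _ _ _ _ _ hV E := by
    have : Finite U := Finite.of_injective _ E.inj
    have : Finite W := Finite.of_surjective _ E.surj
    have hW : ∀ w : W, p • w = 0 := fun w => by
      obtain ⟨v, rfl⟩ := E.surj w
      rw [← map_nsmul, hV, map_zero]
    have hWk : ∀ φ : HomTw (MonoidHom.id P) A W, p • φ = 0 := fun φ =>
      AddMonoidHom.ext fun a => hW _
    let i' := h0Map (postComp A E.i) (postComp_smul A E.i E.i_smul)
    let q' := h0Map (postComp A E.q) (postComp_smul A E.q E.q_smul)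
    have hq : Function.Surjective (postComp A E.q) :=
      postComp_surjective (P := P) A E.q E.surj hV hW
    have h := ldim_short p i' q' (fun φ ψ h => Subtype.ext (AddMonoidHom.ext fun a => E.inj
        (DFunLike.congr_fun (F := A →+ V) (congrArg Subtype.val h) a)))
      (h0Map_surjective_of_coprime hP _ _ hq hWk) (by
        ext φ
        constructor
        · rintro ⟨ψ, rfl⟩
          exact Subtype.ext (AddMonoidHom.ext fun a => E.q_i _)
        · intro hφ
          have h0 : ∀ a, E.q (HomTw.hom _ A V φ.1 a) = 0 := fun a =>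
            DFunLike.congr_fun (F := A →+ W) (congrArg Subtype.val hφ) a
          let ψ : HomTw (MonoidHom.id P) A U := HomTw.mk _ A U (AddMonoidHom.mk'
            (fun a => E.pre (HomTw.hom _ A V φ.1 a)) fun a b => E.inj (by
              rw [map_add E.i, E.i_pre (h0 _), E.i_pre (h0 _), E.i_pre (h0 _), map_add]))
          have hψ : postComp A E.i ψ = φ.1 := AddMonoidHom.ext fun a => E.i_pre (h0 a)
          refine ⟨⟨ψ, fun g => ?_⟩, Subtype.ext hψ⟩
          refine AddMonoidHom.ext fun a => E.inj ?_
          exact (DFunLike.congr_fun (F := A →+ V)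
            ((postComp_smul A E.i E.i_smul g ψ).trans (by rw [hψ, φ.2 g])) a).trans
            (DFunLike.congr_fun (F := A →+ V) hψ a).symm)
    exact_mod_cast h

end PostComp

section Duality

omit [Fintype P] in
lemma dual_one_smul (g : P) (f : Dual (1 : P →* (ZMod p)ˣ) M) (m : M) :
    Dual.hom _ M (g • f) m = Dual.hom _ M f (g⁻¹ • m) := by
  show (((1 : P →* (ZMod p)ˣ) g : (ZMod p)ˣ) : ZMod p) * _ = _
  rw [MonoidHom.one_apply, Units.val_one, one_mul]
  rfl

/-- The fixed elements of the dual have the same dimension. -/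
theorem ldim_fixed_dual [Finite M] (hP : ¬ p ∣ Fintype.card P) (hM : ∀ m : M, p • m = 0) :
    ldim p (h0Sub P (Dual (1 : P →* (ZMod p)ˣ) M)) = ldim p (h0Sub P M) := by
  let R : h0Sub P (Dual (1 : P →* (ZMod p)ˣ) M) → (h0Sub P M →+ ZMod p) := fun f =>
    (Dual.hom _ M f.1).comp (h0Sub P M).subtype
  have hfix : ∀ (f : h0Sub P (Dual (1 : P →* (ZMod p)ˣ) M)) (g : P) (m : M),
      Dual.hom _ M f.1 (g • m) = Dual.hom _ M f.1 m := fun f g m => by
    conv_lhs => rw [← f.2 g]
    rw [dual_one_smul, inv_smul_smul]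
  have havg : ∀ (f : h0Sub P (Dual (1 : P →* (ZMod p)ˣ) M)) (m : M),
      Dual.hom _ M f.1 (avgP (P := P) p m) = Dual.hom _ M f.1 m := fun f m => by
    have : NeZero p := ⟨hp.out.ne_zero⟩
    rw [avgP, map_nsmul, map_sum, Finset.sum_congr rfl fun g _ => hfix f g m, Finset.sum_const,
      Finset.card_univ, ← mul_smul, nsmul_eq_mul, Nat.cast_mul, ZMod.natCast_zmod_val,
      inv_mul_cancel₀ (by rwa [Ne, ZMod.natCast_eq_zero_iff]), one_mul]
  have hR : Function.Bijective R := by
    constructor
    · intro f f' h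
      refine Subtype.ext (AddMonoidHom.ext fun m => ?_)
      show Dual.hom _ M f.1 m = Dual.hom _ M f'.1 m
      rw [← havg f, ← havg f']
      exact DFunLike.congr_fun h ⟨avgP (P := P) p m, fun g => smul_avgP g m⟩
    · intro φ
      let a : M →+ h0Sub P M := AddMonoidHom.mk'
        (fun m => ⟨avgP (P := P) p m, fun g => smul_avgP g m⟩)
        fun m m' => Subtype.ext (by
          show avgP (P := P) p (m + m') = avgP (P := P) p m + avgP (P := P) p m'
          simp only [avgP, smul_add, Finset.sum_add_distrib])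
      refine ⟨⟨Dual.mk (1 : P →* (ZMod p)ˣ) M (φ.comp a), fun g => AddMonoidHom.ext fun m => ?_⟩,
        AddMonoidHom.ext fun m => ?_⟩
      · show Dual.hom _ M (g • Dual.mk (1 : P →* (ZMod p)ˣ) M (φ.comp a)) m = φ (a m)
        rw [dual_one_smul]
        refine congrArg φ (Subtype.ext ?_)
        show avgP (P := P) p (g⁻¹ • m) = avgP (P := P) p m
        unfold avgP
        refine congrArg _ (Fintype.sum_equiv (Equiv.mulRight g⁻¹) _ _ fun k => ?_)
        rw [Equiv.coe_mulRight, mul_smul]
      · show φ (a m.1) = φ m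
        exact congrArg φ (Subtype.ext (avgP_of_fixed hP hM m.2))
  rw [ldim, Nat.card_congr (Equiv.ofBijective R hR),
    card_homZMod fun x : h0Sub P M => Subtype.ext (hM x.1)]
  rfl

end Duality

section Perm

variable (Z : Type) [MulAction P Z]

/-- Functions on a set with values in a module. -/
def FunMod (Z M : Type) : Type := Z → M

instance : AddCommGroup (FunMod Z M) := inferInstanceAs (AddCommGroup (Z → M))
instance [Finite Z] [Finite M] : Finite (FunMod Z M) := (inferInstance : Finite (Z → M))

instance : DistribMulAction P (FunMod Z M) where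
  smul g φ := fun z => g • (φ : Z → M) (g⁻¹ • z)
  one_smul φ := funext fun z => by
    show (1 : P) • (φ : Z → M) ((1 : P)⁻¹ • z) = (φ : Z → M) z
    rw [inv_one, one_smul, one_smul]
  mul_smul g h φ := funext fun z => by
    show (g * h) • (φ : Z → M) ((g * h)⁻¹ • z) = g • h • (φ : Z → M) (h⁻¹ • g⁻¹ • z)
    rw [mul_inv_rev, mul_smul, mul_smul]
  smul_zero g := funext fun z => smul_zero g
  smul_add g φ ψ := funext fun z => smul_add g _ _

variable [Finite Z] [Finite M]

/-- The invariant of a permutation lattice: equivariant functions. -/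
theorem invHom_permLat (hP : ¬ p ∣ Fintype.card P) (hM : ∀ m : M, p • m = 0) :
    (invHom (p := p) M hP hM).latVal (PermLat Z) = ldim p (h0Sub P (FunMod Z M)) := by
  let : Fintype Z := Fintype.ofFinite Z
  have hF : ∀ φ : FunMod Z M, p • φ = 0 := fun φ => funext fun z => hM _
  show ((ldim p (h0Sub P (HomTw (MonoidHom.id P) M (Modp p (PermLat Z)))) : ℕ) : ℤ) = _
  rw [← ldim_fixed_dual hP hF]
  congr 1
  -- the coordinates of the reduced lattice
  have : NeZero p := ⟨hp.out.ne_zero⟩
  let red : Modp p (PermLat Z) →+ (Z → ZMod p) :=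
    QuotientAddGroup.lift _ ((Int.castAddHom (ZMod p)).compLeft Z) fun v hv => by
      obtain ⟨w, rfl⟩ := hv
      funext z
      show (((p • (w z : ℤ)) : ℤ) : ZMod p) = 0
      rw [nsmul_eq_mul, Int.cast_mul, Int.cast_natCast, ZMod.natCast_self, zero_mul]
  have hred : Function.Bijective red := by
    refine ⟨(injective_iff_map_eq_zero red).mpr fun a ha => ?_, fun f => ?_⟩
    · obtain ⟨v, rfl⟩ := toModp_surjective p _ a
      have h : ∀ z, (p : ℤ) ∣ (v : Z → ℤ) z := fun z =>
        (ZMod.intCast_zmod_eq_zero_iff_dvd _ p).mp (congrFun ha z)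
      choose w hw using h
      refine (QuotientAddGroup.eq_zero_iff _).mpr ⟨w, funext fun z => ?_⟩
      show p • (w z : ℤ) = _
      rw [nsmul_eq_mul, hw z]
    · exact ⟨toModp p (PermLat Z) (fun z => ((f z).val : ℤ)), funext fun z => by
        show (((f z).val : ℤ) : ZMod p) = f z
        rw [Int.cast_natCast, ZMod.natCast_zmod_val]⟩
  have hsm : ∀ (g : P) a z, red (g • a) z = red a (g⁻¹ • z) := fun g a z => by
    obtain ⟨v, rfl⟩ := toModp_surjective p _ a
    rw [smul_toModp]
    rfl
  -- the transposition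
  let T : HomTw (MonoidHom.id P) M (Modp p (PermLat Z)) →+ Dual (1 : P →* (ZMod p)ˣ) (FunMod Z M) :=
    AddMonoidHom.mk' (fun φ => Dual.mk _ _ (AddMonoidHom.mk'
      (fun ψ => ∑ z, red (HomTw.hom _ _ _ φ ((ψ : Z → M) z)) z) fun ψ ψ' => by
        rw [← Finset.sum_add_distrib]
        exact Finset.sum_congr rfl fun z _ =>
          congrFun (map_add (red.comp (HomTw.hom _ _ _ φ)) _ _) z))
      fun φ φ' => AddMonoidHom.ext fun ψ => by
        show ∑ z, red (HomTw.hom _ _ _ (φ + φ') ((ψ : Z → M) z)) z = _
        simp only [map_add, AddMonoidHom.add_apply, Pi.add_apply, Finset.sum_add_distrib]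
        rfl
  have hT : Function.Bijective T := by
    constructor
    · refine (injective_iff_map_eq_zero T).mpr fun φ hφ => AddMonoidHom.ext fun m => hred.1 ?_
      refine funext fun z => ?_
      show red (HomTw.hom _ _ _ φ m) z = red 0 z
      have h := DFunLike.congr_fun (F := FunMod Z M →+ ZMod p) hφ (Pi.single z m : Z → M)
      rw [map_zero]
      refine Eq.trans ?_ h
      show _ = ∑ y, red (HomTw.hom _ _ _ φ ((Pi.single z m : Z → M) y)) y
      rw [Finset.sum_eq_single z]
      · rw [Pi.single_eq_same]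
      · intro y _ hy; rw [Pi.single_eq_of_ne hy, map_zero, map_zero]; rfl
      · simp
    · intro F
      let e := Equiv.ofBijective red hred
      let coord : M →+ (Z → ZMod p) := AddMonoidHom.mk'
        (fun m z => Dual.hom _ _ F (Pi.single z m : Z → M)) fun m m' => funext fun z => by
          show Dual.hom _ _ F (Pi.single z (m + m') : Z → M) = _
          rw [Pi.single_add]
          exact map_add (Dual.hom _ _ F) _ _
      refine ⟨HomTw.mk _ M _ ((AddEquiv.ofBijective red hred).symm.toAddMonoidHom.comp coord),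
        AddMonoidHom.ext fun ψ => ?_⟩
      show ∑ z, red ((AddEquiv.ofBijective red hred).symm (coord ((ψ : Z → M) z))) z = _
      refine (Finset.sum_congr rfl fun z _ =>
        congrFun ((AddEquiv.ofBijective red hred).apply_symm_apply
          (coord ((ψ : Z → M) z))) z).trans ?_
      show ∑ z, Dual.hom _ _ F (Pi.single z ((ψ : Z → M) z) : Z → M) = _
      refine Eq.trans (map_sum (Dual.hom _ _ F) _ _).symm (congrArg _ ?_)
      exact Finset.univ_sum_single (ψ : Z → M)
  have hTs : ∀ (g : P) φ, T (g • φ) = g • T φ := fun g φ => AddMonoidHom.ext fun ψ => by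
    refine Eq.trans ?_ (dual_one_smul g (T φ) ψ).symm
    show ∑ z, red (g • HomTw.hom _ _ _ φ (g⁻¹ • (ψ : Z → M) z)) z =
      ∑ z, red (HomTw.hom _ _ _ φ (g⁻¹ • (ψ : Z → M) (g⁻¹⁻¹ • z))) z
    refine Fintype.sum_equiv (MulAction.toPerm g⁻¹) _ _ fun z => ?_
    rw [hsm, MulAction.toPerm_apply, inv_inv, smul_inv_smul]
  refine ldim_congr p (Equiv.ofBijective (h0Map T hTs) ⟨fun a b h => Subtype.ext (hT.1
    (congrArg Subtype.val h)), fun b => ?_⟩)
  obtain ⟨a, ha⟩ := hT.2 b.1
  exact ⟨⟨a, fun g => hT.1 (by rw [hTs, ha, b.2 g])⟩, Subtype.ext ha⟩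

end Perm

end FermatAgent.CFT.Euler
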