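import Mathlib

/-!
The trivial permutation character is a rational combination of permutation characters on cosets
of cyclic subgroups.
-/

set_option autoImplicit false

noncomputable section

open scoped Classical

namespace FermatAgent.CFT.Euler

variable {P : Type} [Group P] [Fintype P]

/-- The number of cosets of a subgroup fixed by an element. -/
def fixCount (D : Subgroup P) (g : P) : ℕ :=
  (Finset.univ.filter fun x : P ⧸ D => g • x = x).card

omit [Fintype P] in
lemma smul_coset_eq_iff (D : Subgroup P) (g k : P) :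
    g • (k : P ⧸ D) = k ↔ k⁻¹ * g * k ∈ D := by
  rw [MulAction.Quotient.smul_coe, smul_eq_mul, eq_comm, QuotientGroup.eq, mul_assoc]

lemma fixCount_congr (D : Subgroup P) {g h : P} (e : Subgroup.zpowers g = Subgroup.zpowers h) :
    fixCount D g = fixCount D h := by
  have key : ∀ (a b : P), Subgroup.zpowers a = Subgroup.zpowers b → ∀ x : P ⧸ D,
      a • x = x → b • x = x := by
    intro a b hab x hx
    have : Subgroup.zpowers a ≤ MulAction.stabilizer P x := Subgroup.zpowers_le.mpr hx
    exact this (hab ▸ Subgroup.mem_zpowers b)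
  unfold fixCount
  congr 1
  ext x
  simp only [Finset.mem_filter, Finset.mem_univ, true_and]
  exact ⟨key g h e x, key h g e.symm x⟩

lemma fixCount_conj (D : Subgroup P) (g k : P) : fixCount D (k * g * k⁻¹) = fixCount D g := by
  unfold fixCount
  refine Finset.card_equiv (MulAction.toPerm k⁻¹) fun x => ?_
  simp only [Finset.mem_filter, Finset.mem_univ, true_and, MulAction.toPerm_apply]
  rw [mul_smul, mul_smul]
  constructor
  · intro h
    conv_rhs => rw [← h, inv_smul_smul]
  · intro h
    rw [h, smul_inv_smul]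

lemma exists_conj_of_fixCount_ne_zero {g h : P} (he : fixCount (Subgroup.zpowers g) h ≠ 0) :
    ∃ k, k⁻¹ * h * k ∈ Subgroup.zpowers g := by
  obtain ⟨x, hx⟩ := Finset.card_ne_zero.mp he
  obtain ⟨k, rfl⟩ := QuotientGroup.mk_surjective x
  exact ⟨k, (smul_coset_eq_iff _ _ _).mp (Finset.mem_filter.mp hx).2⟩

omit [Fintype P] in
lemma orderOf_conj_inv (h k : P) : orderOf (k⁻¹ * h * k) = orderOf h := by
  have := orderOf_injective (MulAut.conj k⁻¹).toMonoidHom (MulAut.conj k⁻¹).injective h
  simpa using this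

lemma orderOf_le_of_fixCount_ne_zero {g h : P} (he : fixCount (Subgroup.zpowers g) h ≠ 0) :
    orderOf h ≤ orderOf g := by
  obtain ⟨k, hk⟩ := exists_conj_of_fixCount_ne_zero he
  rw [← orderOf_conj_inv h k]
  exact Nat.le_of_dvd (orderOf_pos g) (orderOf_dvd_of_mem_zpowers hk)

/-- Functions invariant under conjugation and generators of cyclic subgroups. -/
def IsClassFun (φ : P → ℚ) : Prop :=
  (∀ g k, φ (k * g * k⁻¹) = φ g) ∧ ∀ g h, Subgroup.zpowers g = Subgroup.zpowers h → φ g = φ h

theorem exists_span_fixCount (m : ℕ) (φ : P → ℚ) (hφ : IsClassFun φ)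
    (hm : ∀ g, m ≤ orderOf g → φ g = 0) :
    ∃ a : P → ℚ, ∀ h, φ h = ∑ g, a g * fixCount (Subgroup.zpowers g) h := by
  induction m generalizing φ with
  | zero => exact ⟨0, fun h => by simp [hm h (Nat.zero_le _)]⟩
  | succ m ih =>
    set G := Finset.univ.filter fun g : P => orderOf g = m
    set c : P → ℚ := fun h => ∑ g ∈ G, (fixCount (Subgroup.zpowers g) h : ℚ)
    have hc : IsClassFun c := ⟨fun g k => Finset.sum_congr rfl fun x _ => by rw [fixCount_conj],
      fun g h e => Finset.sum_congr rfl fun x _ => by rw [fixCount_congr _ e]⟩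
    have hc0 : ∀ h, orderOf h = m → c h ≠ 0 := fun h hh => by
      refine ne_of_gt (Finset.sum_pos' (fun _ _ => by positivity) ⟨h, by simp [G, hh], ?_⟩)
      refine Nat.cast_pos.mpr (Finset.card_pos.mpr ⟨((1 : P) : P ⧸ Subgroup.zpowers h), ?_⟩)
      simp only [Finset.mem_filter, Finset.mem_univ, true_and, smul_coset_eq_iff, inv_one, one_mul,
        mul_one]
      exact Subgroup.mem_zpowers h
    set ψ : P → ℚ := fun h => ∑ g ∈ G, φ g / c g * fixCount (Subgroup.zpowers g) h
    have hψ : ∀ h, orderOf h = m → ψ h = φ h := fun h hh => by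
      have : ∀ g ∈ G, φ g / c g * fixCount (Subgroup.zpowers g) h =
          φ h / c h * fixCount (Subgroup.zpowers g) h := fun g hg => by
        by_cases h0 : fixCount (Subgroup.zpowers g) h = 0
        · simp [h0]
        obtain ⟨k, hk⟩ := exists_conj_of_fixCount_ne_zero h0
        have e : Subgroup.zpowers (k⁻¹ * h * k) = Subgroup.zpowers g := by
          refine Subgroup.eq_of_le_of_card_ge (Subgroup.zpowers_le.mpr hk) (le_of_eq ?_)
          rw [Nat.card_zpowers, Nat.card_zpowers, orderOf_conj_inv, hh, (Finset.mem_filter.mp hg).2]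
        have hk' : k⁻¹ * h * k = k⁻¹ * h * k⁻¹⁻¹ := by rw [inv_inv]
        rw [← hφ.2 _ _ e, ← hc.2 _ _ e, hk', hφ.1, hc.1]
      rw [show ψ h = _ from Finset.sum_congr rfl this, ← Finset.mul_sum]
      exact div_mul_cancel₀ _ (hc0 h hh)
    have hψc : IsClassFun ψ := ⟨fun g k => Finset.sum_congr rfl fun x _ => by rw [fixCount_conj],
      fun g h e => Finset.sum_congr rfl fun x _ => by rw [fixCount_congr _ e]⟩
    obtain ⟨a, ha⟩ := ih (φ - ψ) ⟨fun g k => by simp [hφ.1 g k, hψc.1 g k],
        fun g h e => by simp [hφ.2 g h e, hψc.2 g h e]⟩ fun g hg => by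
      rcases eq_or_lt_of_le hg with h1 | h1
      · simp [hψ g h1.symm]
      · have : ψ g = 0 := Finset.sum_eq_zero fun x hx => by
          have h0 : fixCount (Subgroup.zpowers x) g = 0 := by
            by_contra h0
            have := orderOf_le_of_fixCount_ne_zero h0
            have := (Finset.mem_filter.mp hx).2
            omega
          simp [h0]
        simp [this, hm g h1]
    refine ⟨fun g => a g + if g ∈ G then φ g / c g else 0, fun h => ?_⟩
    simp only [add_mul, Finset.sum_add_distrib, ite_mul, zero_mul, Finset.sum_ite_mem,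
      Finset.univ_inter]
    rw [← ha h]
    show φ h = φ h - ψ h + ψ h
    rw [sub_add_cancel]

/-- A multiple of the point plus cosets of cyclic subgroups has the fixed point counts of cosets of
cyclic subgroups. -/
theorem exists_perm_relation (P : Type) [Group P] [Fintype P] :
    ∃ (N : ℕ) (a b : P → ℕ), 0 < N ∧ ∀ h : P,
      N + ∑ g, b g * fixCount (Subgroup.zpowers g) h =
        ∑ g, a g * fixCount (Subgroup.zpowers g) h := by
  obtain ⟨q, hq⟩ := exists_span_fixCount (P := P) (Fintype.card P + 1) (fun _ => 1)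
    ⟨fun _ _ => rfl, fun _ _ _ => rfl⟩ fun g hg => absurd (orderOf_le_card_univ (x := g)) (by omega)
  set D := ∏ g, (q g).den
  have hD : 0 < D := Finset.prod_pos fun g _ => (q g).pos
  have hint : ∀ g, ∃ z : ℤ, (D : ℚ) * q g = z := fun g => by
    obtain ⟨e, he⟩ : (q g).den ∣ D := Finset.dvd_prod_of_mem _ (Finset.mem_univ g)
    refine ⟨e * (q g).num, ?_⟩
    rw [he]; push_cast
    rw [mul_comm ((q g).den : ℚ), mul_assoc, Rat.den_mul_eq_num]
  choose z hz using hint
  refine ⟨D, fun g => (z g).toNat, fun g => (-z g).toNat, hD, fun h => ?_⟩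
  have h1 : (D : ℚ) = ∑ g, (z g : ℚ) * fixCount (Subgroup.zpowers g) h := by
    simp_rw [← hz, mul_assoc]
    rw [← Finset.mul_sum, ← hq h, mul_one]
  have h2 : ∀ g, (z g : ℚ) = ((z g).toNat : ℚ) - ((-z g).toNat : ℚ) := fun g => by
    exact_mod_cast (Int.toNat_sub_toNat_neg (z g)).symm
  simp_rw [h2, sub_mul, Finset.sum_sub_distrib] at h1
  rw [eq_sub_iff_add_eq] at h1
  exact_mod_cast h1

end FermatAgent.CFT.Euler
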