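import Fermat.Agent.CFT.Euler.Quot
import Fermat.Agent.CFT.Coh.Functional

/-!
Coinduced modules of modules over a subgroup, the lemma of Shapiro in degree one, and their duals.

`CoInd W N` consists of the functions with values in `N` transforming under right translation by
`W`; coinduction is exact (`CoInd.ses`) and restriction with evaluation at `1` is bijective on first
cohomology (`shapiro_bijective`). Twisted functionals on a coinduced module are fixed elements of
the coinduced dual (`eqHomEquiv`), whence `ldim_eqHom_id`.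
-/

set_option autoImplicit false

noncomputable section

open scoped Classical

namespace FermatAgent.CFT.Euler

open Coh

variable {Γ : Type} [Group Γ] (W : Subgroup Γ) (N : Type) [AddCommGroup N] [DistribMulAction W N]

/-- Functions transforming under right translation by the subgroup. -/
def coIndSub : AddSubgroup (Γ → N) where
  carrier := {φ | ∀ (g : Γ) (c : W), φ (g * c) = c⁻¹ • φ g}
  zero_mem' g c := (smul_zero _).symm
  add_mem' {φ ψ} hφ hψ g c := by simp [hφ g c, hψ g c]
  neg_mem' {φ} hφ g c := by simp [hφ g c]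

/-- The coinduced module. -/
def CoInd : Type := ↥(coIndSub W N)

namespace CoInd

instance : AddCommGroup (CoInd W N) := inferInstanceAs (AddCommGroup ↥(coIndSub W N))

variable {W N}

/-- The value at a point. -/
def val : CoInd W N →+ (Γ → N) := (coIndSub W N).subtype

/-- An element from a function. -/
def mk (φ : Γ → N) (h : ∀ (g : Γ) (c : W), φ (g * c) = c⁻¹ • φ g) : CoInd W N := ⟨φ, h⟩

@[simp] lemma val_mk (φ : Γ → N) (h : ∀ (g : Γ) (c : W), φ (g * c) = c⁻¹ • φ g) :
    val (mk φ h) = φ := rfl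

/-- Coinduced elements are determined by their values. -/
@[ext] lemma ext {a b : CoInd W N} (h : ∀ g, val a g = val b g) : a = b := Subtype.ext (funext h)

/-- The equivariance of a coinduced element. -/
lemma apply_mul (a : CoInd W N) (g : Γ) (c : W) : val a (g * c) = c⁻¹ • val a g := a.2 g c

instance : DistribMulAction Γ (CoInd W N) where
  smul g a := mk (fun x => val a (g⁻¹ * x)) fun x c => by
    show val a (g⁻¹ * (x * c)) = _
    rw [← mul_assoc, apply_mul]
  one_smul a := ext fun x => by show val a (1⁻¹ * x) = _; rw [inv_one, one_mul]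
  mul_smul g h a := ext fun x => by
    show val a ((g * h)⁻¹ * x) = val a (h⁻¹ * (g⁻¹ * x))
    rw [mul_inv_rev, mul_assoc]
  smul_zero g := ext fun x => rfl
  smul_add g a b := ext fun x => rfl

/-- The action on coinduced elements. -/
@[simp] lemma val_smul (g : Γ) (a : CoInd W N) (x : Γ) : val (g • a) x = val a (g⁻¹ * x) := rfl

/-- The component of a point in its coset. -/
def part (x : Γ) : W :=
  ⟨(((x : Γ) : Γ ⧸ W).out)⁻¹ * x, by rw [← QuotientGroup.eq, QuotientGroup.out_eq']⟩

lemma out_mul_part (x : Γ) : ((x : Γ) : Γ ⧸ W).out * (part (W := W) x : Γ) = x := by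
  simp [part]

/-- Right multiplication by the subgroup fixes the coset. -/
lemma mk_mul_coe (g : Γ) (c : W) : (((g * c : Γ)) : Γ ⧸ W) = (g : Γ ⧸ W) := by
  rw [QuotientGroup.eq]; simp

lemma part_mul (g : Γ) (c : W) : part (W := W) (g * c) = part g * c := Subtype.ext (by
  simp only [part, mk_mul_coe, Subgroup.coe_mul, mul_assoc])

/-- A coinduced element is determined by its values at representatives. -/
lemma eq_out_values {a b : CoInd W N} (h : ∀ q : Γ ⧸ W, val a q.out = val b q.out) : a = b :=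
  ext fun x => by
    rw [← out_mul_part (W := W) x, apply_mul, apply_mul, h]

/-- The element with prescribed values at the chosen representatives. -/
def ofOut (v : Γ ⧸ W → N) : CoInd W N :=
  mk (fun x => (part x)⁻¹ • v (x : Γ ⧸ W)) fun g c => by
    show (part (W := W) (g * c))⁻¹ • v ((g * c : Γ) : Γ ⧸ W) = _
    rw [part_mul, mk_mul_coe, mul_inv_rev, mul_smul]

@[simp] lemma val_ofOut_out (v : Γ ⧸ W → N) (q : Γ ⧸ W) : val (ofOut v) q.out = v q := by
  have h : part (W := W) q.out = 1 := Subtype.ext (by simp [part])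
  simp only [ofOut, val_mk, h, inv_one, one_smul, QuotientGroup.out_eq']

variable (W N) in
/-- Coordinates at the chosen representatives. -/
def outEquiv : CoInd W N ≃+ (Γ ⧸ W → N) where
  toFun a q := val a q.out
  invFun := ofOut
  left_inv _ := eq_out_values fun q => val_ofOut_out _ q
  right_inv v := funext fun q => val_ofOut_out v q
  map_add' _ _ := rfl

instance [W.FiniteIndex] [Finite N] : Finite (CoInd W N) := by
  have : Finite (Γ ⧸ W) := Subgroup.finite_quotient_of_finiteIndex
  exact Finite.of_equiv _ (outEquiv W N).symm.toEquiv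

/-- Coinduced modules are killed by what kills the module. -/
lemma nsmul_eq_zero {p : ℕ} (h : ∀ n : N, p • n = 0) (a : CoInd W N) : p • a = 0 :=
  ext fun x => by rw [map_nsmul, map_zero]; exact h _

/-- Functoriality. -/
def map {N' : Type} [AddCommGroup N'] [DistribMulAction W N'] (f : N →+ N')
    (hf : ∀ (c : W) n, f (c • n) = c • f n) : CoInd W N →+ CoInd W N' :=
  AddMonoidHom.mk' (fun a => mk (fun x => f (val a x)) fun g c => by
    show f (val a (g * c)) = _
    rw [apply_mul, hf]) fun a b => ext fun x => map_add f _ _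

@[simp] lemma val_map {N' : Type} [AddCommGroup N'] [DistribMulAction W N'] (f : N →+ N')
    (hf : ∀ (c : W) n, f (c • n) = c • f n) (a : CoInd W N) (x : Γ) :
    val (map f hf a) x = f (val a x) := rfl

/-- Coinduction of short exact sequences. -/
def ses {A B C : Type} [AddCommGroup A] [DistribMulAction W A] [AddCommGroup B]
    [DistribMulAction W B] [AddCommGroup C] [DistribMulAction W C] (E : Ses W A B C) :
    Ses Γ (CoInd W A) (CoInd W B) (CoInd W C) where
  i := map E.i E.i_smul
  q := map E.q E.q_smul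
  i_smul g a := rfl
  q_smul g a := rfl
  inj a b h := ext fun x => E.inj (congrFun (congrArg val h) x)
  surj c := ⟨ofOut fun q => E.lift (val c q.out), eq_out_values fun q => by simp [E.q_lift]⟩
  exact b := by
    refine ⟨fun h => ⟨ofOut fun q => E.pre (val b q.out), eq_out_values fun q => ?_⟩, ?_⟩
    · simp only [val_map, val_ofOut_out]
      exact E.i_pre (congrFun (congrArg val h) q.out)
    · rintro ⟨a, rfl⟩
      exact ext fun x => E.q_i _

variable {L : Levels Γ}

lemma exists_level_fix [Finite N] (hN : (L.comap W.subtype).Smooth N) (hW : W ∈ L) :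
    ∃ V ∈ L, V.Normal ∧ V ≤ W ∧ ∀ (c : W), (c : Γ) ∈ V → ∀ n : N, c • n = n := by
  have := Fintype.ofFinite N
  obtain ⟨U, ⟨V₀, hV₀, hle, -⟩, hfix⟩ := hN.exists_finset Finset.univ
  obtain ⟨V, hV, hVn, hVle⟩ := L.exists_normal (L.inf_mem hV₀ hW)
  exact ⟨V, hV, hVn, fun _ h => (hVle h).2, fun c hc n =>
    hfix c (hle (hVle hc).1) n (Finset.mem_univ n)⟩

section Shapiro

lemma const1_restrict {c : Γ → CoInd W N} (hc : L.Const1 ⊤ c) :
    (L.comap W.subtype).Const1 ⊤ (fun w : W => val (c w) 1) := by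
  obtain ⟨V, hV, h⟩ := hc
  refine ⟨V.comap W.subtype, L.comap_mem _ hV, fun g _ s hs => ?_⟩
  show val (c ((g : Γ) * (s : Γ))) 1 = _
  rw [h (g : Γ) trivial (s : Γ) ⟨trivial, hs.2⟩]

/-- Restriction to the subgroup followed by evaluation at the identity. -/
def shapiroZ : ↥(L.Z1 ⊤ (CoInd W N)) →+ ↥((L.comap W.subtype).Z1 ⊤ N) :=
  AddMonoidHom.mk' (fun c => ⟨fun w => val (c.1 w) 1, const1_restrict c.2.1, fun u _ w _ => by
    have h1 : val (c.1 (u * w : Γ)) 1 = u • val (c.1 w) 1 + val (c.1 u) 1 := by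
      rw [Levels.Z1_apply_mul c.2 (Subgroup.mem_top _) (Subgroup.mem_top _), map_add, Pi.add_apply,
        val_smul, mul_one, ← one_mul ((u : Γ))⁻¹, ← Subgroup.coe_inv, apply_mul, inv_inv]
    simp only [d1]
    rw [show ((u * w : W) : Γ) = u * w from rfl, h1]
    abel⟩) fun c c' => rfl

/-- The map of Shapiro. -/
def shapiro : H1 L (CoInd W N) →+ H1 (L.comap W.subtype) N :=
  QuotientAddGroup.map _ _ shapiroZ fun c hc => by
    obtain ⟨a, ha⟩ := hc
    refine ⟨val a 1, fun w _ => ?_⟩
    show val (c.1 (w : Γ)) 1 = _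
    rw [show c.1 (w : Γ) = d0 a (w : Γ) from ha _ trivial, d0, d0, map_sub, Pi.sub_apply, val_smul,
      mul_one, ← one_mul ((w : Γ))⁻¹, ← Subgroup.coe_inv, apply_mul, inv_inv]

/-- The Shapiro map is injective. -/
lemma shapiro_injective : Function.Injective (shapiro (W := W) (N := N) (L := L)) := by
  rw [injective_iff_map_eq_zero]
  intro x hx
  obtain ⟨z, rfl⟩ := cls1_surjective x
  replace hx : cls1 (L.comap W.subtype) N (shapiroZ z) = 0 := hx
  obtain ⟨a, ha⟩ := cls1_eq_zero_iff.mp hx
  rw [cls1_eq_zero_iff]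
  set a' : CoInd W N := ofOut (Function.update 0 ((1 : Γ) : Γ ⧸ W) (part (W := W) (1 : Γ) • a))
  have ha1 : val a' 1 = a := by simp [a', ofOut]
  set c := z.1 - d0 a'
  have hcocy : ∀ g h, val (c (g * h)) = fun x => val (c h) (g⁻¹ * x) + val (c g) x := fun g h => by
    funext x
    have h1 : z.1 (g * h) = g • z.1 h + z.1 g :=
      Levels.Z1_apply_mul z.2 (Subgroup.mem_top _) (Subgroup.mem_top _)
    simp only [c, Pi.sub_apply, h1, d0, map_add, map_sub, Pi.add_apply, val_smul, mul_inv_rev,
      mul_assoc]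
    abel
  have hW1 : ∀ w : W, val (c w) 1 = 0 := fun w => by
    have h1 : val (z.1 (w : Γ)) 1 = w • a - a := ha w trivial
    simp only [c, Pi.sub_apply, d0, map_sub, val_smul, mul_one, h1, ha1]
    rw [← one_mul ((w : Γ))⁻¹, ← Subgroup.coe_inv, apply_mul, inv_inv, ha1, sub_self]
  have hψ : ∀ (g : Γ) (w : W), val (c (g * w)) (g * w) = w⁻¹ • val (c g) g := fun g w => by
    rw [apply_mul, hcocy]
    simp [hW1]
  refine ⟨a' - mk (fun g => val (c g) g) hψ, fun g _ => ?_⟩
  refine ext fun x => ?_
  have h2 := congrFun (hcocy g (g⁻¹ * x)) x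
  rw [mul_inv_cancel_left] at h2
  simp only [c, Pi.sub_apply, d0, map_sub, val_smul, val_mk] at h2 ⊢
  rw [← sub_eq_zero] at h2
  rw [← sub_eq_zero, ← neg_eq_zero, ← h2]
  abel

variable [W.FiniteIndex] [Finite N]

omit [W.FiniteIndex] in
lemma shapiro_surjective (hN : (L.comap W.subtype).Smooth N) (hW : W ∈ L) :
    Function.Surjective (shapiro (W := W) (N := N) (L := L)) := by
  intro x
  obtain ⟨⟨y, hyc, hy⟩, rfl⟩ := cls1_surjective x
  have hy' : y ∈ (L.comap W.subtype).Z1 ⊤ N := ⟨hyc, hy⟩
  let e : W → N := fun w => w⁻¹ • y w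
  let ψ : Γ → N := fun x => e (part x)
  have he : ∀ u w : W, e (u * w) = w⁻¹ • e u + e w := fun u w => by
    simp only [e, Levels.Z1_apply_mul hy' (Subgroup.mem_top u) (Subgroup.mem_top w),
      smul_add, mul_inv_rev, mul_smul,
      inv_smul_smul]
    rw [add_comm]
  have hψ : ∀ (g : Γ) (c : W), ψ (g * c) = c⁻¹ • ψ g + e c := fun g c => by
    simp only [ψ, part_mul, he]
  let c : Γ → CoInd W N := fun g => mk (fun x => ψ x - ψ (g⁻¹ * x)) fun x w => by
    simp only [← mul_assoc g⁻¹ x, hψ, smul_sub]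
    abel
  obtain ⟨V₁, hV₁, hVn₁, hVW₁, hfix⟩ := exists_level_fix hN hW
  obtain ⟨U, ⟨V₀, hV₀, hle, -⟩, hyU⟩ := hyc
  obtain ⟨V, hV, hVn, hVle⟩ := L.exists_normal (L.inf_mem hV₀ hV₁)
  have hψV : ∀ (x : Γ) (t : W), (t : Γ) ∈ V → ψ (x * t) = ψ x := fun x t ht => by
    have h1 : y t = 0 := by
      rw [← Levels.Z1_apply_one hy', ← hyU 1 trivial t ⟨trivial, hle (hVle ht).1⟩, one_mul]
    rw [hψ, hfix t⁻¹ (V₁.inv_mem (hVle ht).2), show e t = 0 by simp [e, h1], add_zero]
  have hcc : c ∈ L.Z1 ⊤ (CoInd W N) := by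
    refine ⟨⟨V, hV, fun g _ s hs => ext fun x => ?_⟩, fun g _ h _ => ext fun x => ?_⟩
    · have hm : x⁻¹ * g * s⁻¹ * g⁻¹ * x ∈ V := by
        have := hVn.conj_mem s⁻¹ (inv_mem hs.2) (x⁻¹ * g)
        simpa [mul_assoc] using this
      simp only [c, val_mk]
      rw [show (g * s)⁻¹ * x = g⁻¹ * x * ((⟨_, hVW₁ (hVle hm).2⟩ : W) : Γ) by simp [mul_assoc],
        hψV _ _ hm]
    · simp only [d1, c, map_add, map_sub, Pi.add_apply, Pi.sub_apply, val_smul, val_mk, mul_inv_rev,
        mul_assoc, map_zero, Pi.zero_apply]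
      abel
  refine ⟨cls1 L _ ⟨c, hcc⟩, ?_⟩
  show cls1 _ N (shapiroZ ⟨c, hcc⟩) = _
  rw [cls1_eq_iff]
  refine ⟨-ψ 1, fun w _ => ?_⟩
  show val (c w) 1 - y w = _
  have h1 := hψ 1 w⁻¹
  rw [one_mul, inv_inv, Subgroup.coe_inv] at h1
  have he2 : e w⁻¹ = w • y w⁻¹ := by simp [e]
  have h2 : y w = -(w • y w⁻¹) := by
    have := Levels.Z1_apply_mul hy' (Subgroup.mem_top w) (Subgroup.mem_top w⁻¹)
    rw [mul_inv_cancel, Levels.Z1_apply_one hy'] at this
    rw [eq_neg_iff_add_eq_zero, add_comm]
    exact this.symm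
  simp only [c, val_mk, mul_one, h1, he2, h2, d0, smul_neg]
  abel

omit [W.FiniteIndex] in
/-- Shapiro's lemma: the map is bijective. -/
theorem shapiro_bijective (hN : (L.comap W.subtype).Smooth N) (hW : W ∈ L) :
    Function.Bijective (shapiro (W := W) (N := N) (L := L)) :=
  ⟨shapiro_injective, shapiro_surjective hN hW⟩

end Shapiro

/-- Fixed elements of a coinduced module. -/
def h0Equiv : h0Sub Γ (CoInd W N) ≃+ h0Sub W N where
  toFun a := ⟨val a.1 1, fun w => by
    have h := congrFun (congrArg val (a.2 (w : Γ))) 1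
    rw [val_smul, mul_one, ← one_mul ((w : Γ))⁻¹, ← Subgroup.coe_inv, apply_mul, inv_inv] at h
    exact h⟩
  invFun n := ⟨mk (fun _ => n.1) fun _ c => (n.2 c⁻¹).symm, fun g => ext fun x => rfl⟩
  left_inv a := Subtype.ext (ext fun x => by
    have h := congrFun (congrArg val (a.2 x)) x
    rw [val_smul, inv_mul_cancel] at h
    exact h)
  right_inv n := Subtype.ext rfl
  map_add' a b := Subtype.ext rfl

section Functionals

variable {p : ℕ} [hp : Fact p.Prime] (χ : Γ →* (ZMod p)ˣ) {Δ : Type} [Group Δ] (r : Δ →* Γ)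

/-- The element supported on one coset. -/
def single (g : Γ) : N →+ CoInd W N :=
  AddMonoidHom.mk' (fun n => mk (fun x => if h : g⁻¹ * x ∈ W then (⟨_, h⟩ : W)⁻¹ • n else 0)
    fun x c => by
      by_cases h : g⁻¹ * x ∈ W
      · have h' : g⁻¹ * (x * c) ∈ W := by rw [← mul_assoc]; exact mul_mem h c.2
        simp only [dif_pos h, dif_pos h', ← mul_smul, ← mul_inv_rev]
        congr 2
        exact Subtype.ext (by simp [mul_assoc])
      · have h' : g⁻¹ * (x * c) ∉ W := by
          rw [← mul_assoc]; exact fun e => h ((mul_mem_cancel_right c.2).mp e)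
        simp [dif_neg h, dif_neg h'])
    fun n n' => ext fun x => by
      simp only [map_add, Pi.add_apply, val_mk]
      split_ifs <;> simp

lemma val_single (g x : Γ) (n : N) :
    val (single (W := W) g n) x = if h : g⁻¹ * x ∈ W then (⟨_, h⟩ : W)⁻¹ • n else 0 := rfl

/-- The action permutes one-coset elements. -/
lemma smul_single (d g : Γ) (n : N) : d • single (W := W) g n = single (d * g) n := ext fun x => by
  simp only [val_smul, val_single, mul_inv_rev, mul_assoc]

/-- One-coset elements and the subgroup. -/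
lemma single_mul (g : Γ) (c : W) (n : N) : single (W := W) (g * c) n = single g (c • n) :=
  eq_out_values fun q => by
    simp only [val_single]
    by_cases h : g⁻¹ * q.out ∈ W
    · have h' : (g * c)⁻¹ * q.out ∈ W := by
        rw [mul_inv_rev, mul_assoc]; exact mul_mem (inv_mem c.2) h
      rw [dif_pos h, dif_pos h', ← mul_smul]
      congr 1
      exact Subtype.ext (by simp [mul_assoc])
    · have h' : (g * c)⁻¹ * q.out ∉ W := by
        rw [mul_inv_rev, mul_assoc]; exact fun e => h ((mul_mem_cancel_left (inv_mem c.2)).mp e)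
      rw [dif_neg h, dif_neg h']

variable [W.FiniteIndex]

/-- A coinduced element is the sum of its one-coset parts. -/
lemma sum_single (a : CoInd W N) : ∑ q : Γ ⧸ W, single q.out (val a q.out) = a :=
  eq_out_values fun q' => by
    rw [map_sum, Finset.sum_apply, Finset.sum_eq_single q']
    · rw [val_single, dif_pos (by simp)]
      convert one_smul W (val a q'.out) using 2
      rw [inv_eq_one]
      exact Subtype.ext (by simp)
    · intro q _ hq
      rw [val_single, dif_neg fun h => hq ?_]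
      rw [← QuotientGroup.out_eq' q, ← QuotientGroup.out_eq' q', QuotientGroup.eq]
      exact h
    · simp

/-- Functionals on a coinduced module transforming through the character are fixed elements of
the coinduced dual. -/
def eqHomEquiv : eqHom χ r (CoInd W N) ≃+
    h0Sub Δ (Res r (CoInd W (Dual (χ.comp W.subtype) N))) where
  toFun e :=
    ⟨Res.of r _ (mk (fun g => Dual.mk _ N ((AddMonoidHom.mulLeft ((χ g)⁻¹ : (ZMod p)ˣ).val).comp
      (e.1.comp (single g)))) fun g c => AddMonoidHom.ext fun n => by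
    show ((χ (g * c))⁻¹ : (ZMod p)ˣ).val * e.1 (single (g * c) n) =
      ((χ.comp W.subtype) c⁻¹ : (ZMod p)ˣ).val *
        (((χ g)⁻¹ : (ZMod p)ˣ).val * e.1 (single g (c⁻¹⁻¹ • n)))
    rw [inv_inv, single_mul, map_mul, mul_inv_rev, Units.val_mul, mul_assoc, MonoidHom.map_inv]
    rfl), fun d => ext fun g => AddMonoidHom.ext fun n => by
    show ((χ ((r d)⁻¹ * g))⁻¹ : (ZMod p)ˣ).val * e.1 (single ((r d)⁻¹ * g) n) =
      ((χ g)⁻¹ : (ZMod p)ˣ).val * e.1 (single g n)
    have h1 : e.1 (single (W := W) g n) = (χ (r d) : ZMod p) * e.1 (single ((r d)⁻¹ * g) n) := by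
      rw [← e.2 d, smul_single, mul_inv_cancel_left]
    rw [h1, map_mul, map_inv, mul_inv_rev, inv_inv, Units.val_mul, mul_assoc]⟩
  invFun b := ⟨∑ q : Γ ⧸ W, ((AddMonoidHom.mulLeft (χ q.out : ZMod p)).comp
      (Dual.hom _ N (val (W := W) b.1 q.out))).comp
      (AddMonoidHom.mk' (fun a : CoInd W N => val a q.out) fun _ _ => rfl), fun d a => by
    have hb : ∀ x, val (W := W) b.1 ((r d)⁻¹ * x) = val (W := W) b.1 x := fun x =>
      congrFun (congrArg (val (W := W)) (b.2 d)) x
    simp only [AddMonoidHom.finsetSum_apply, AddMonoidHom.comp_apply, AddMonoidHom.coe_mulLeft,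
      AddMonoidHom.mk'_apply, val_smul, Finset.mul_sum]
    let τ : Γ ⧸ W ≃ Γ ⧸ W := MulAction.toPerm (r d)⁻¹
    refine Eq.trans (Finset.sum_congr rfl fun q _ => ?_) (τ.sum_comp fun q : Γ ⧸ W =>
      (χ (r d) : ZMod p) *
      ((χ q.out : ZMod p) * Dual.hom _ N (val (W := W) b.1 q.out) (val a q.out)))
    obtain ⟨w, hw, hq⟩ : ∃ w : W, True ∧ (τ q).out = (r d)⁻¹ * q.out * w := by
      refine ⟨⟨((r d)⁻¹ * q.out)⁻¹ * (τ q).out, ?_⟩, trivial, by simp [mul_assoc]⟩
      rw [← QuotientGroup.eq, QuotientGroup.out_eq']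
      conv_rhs => rw [show τ q = (r d)⁻¹ • q from rfl, ← QuotientGroup.out_eq' q]
      rfl
    rw [hq, apply_mul, apply_mul, hb, Dual.hom_smul_smul, map_mul, map_mul, map_inv, map_inv]
    simp only [Units.val_mul, MonoidHom.comp_apply, Subgroup.subtype_apply]
    have hd : (χ (r d) : ZMod p) * ((χ (r d))⁻¹ : (ZMod p)ˣ) = 1 := Units.mul_inv _
    have hw' : (χ (w : Γ) : ZMod p) * ((χ (w : Γ))⁻¹ : (ZMod p)ˣ) = 1 := Units.mul_inv _
    linear_combination
      -((χ q.out : ZMod p) * Dual.hom _ N (val (W := W) b.1 q.out) (val a ((r d)⁻¹ * q.out))) *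
        (((χ (w : Γ) : ZMod p) * ((χ (w : Γ))⁻¹ : (ZMod p)ˣ)) * hd + hw')⟩
  left_inv e := Subtype.ext (AddMonoidHom.ext fun a => by
    conv_rhs => rw [← sum_single a]
    rw [map_sum, AddMonoidHom.finsetSum_apply]
    refine Finset.sum_congr rfl fun q _ => ?_
    show (χ q.out : ZMod p) * (((χ q.out)⁻¹ : (ZMod p)ˣ).val * _) = _
    rw [← mul_assoc, Units.mul_inv, one_mul]
    rfl)
  right_inv b := Subtype.ext (eq_out_values (W := W) fun q => AddMonoidHom.ext fun n => by
    show ((χ q.out)⁻¹ : (ZMod p)ˣ).val * (∑ q', _ : AddMonoidHom _ _) (single q.out n) = _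
    rw [AddMonoidHom.finsetSum_apply, Finset.sum_eq_single q]
    · simp only [AddMonoidHom.comp_apply, AddMonoidHom.coe_mulLeft, AddMonoidHom.mk'_apply,
        val_single]
      rw [dif_pos (by simp), ← mul_assoc, Units.inv_mul, one_mul]
      congr 1
      convert one_smul W n using 2
      rw [inv_eq_one]
      exact Subtype.ext (by simp)
    · intro q' _ hq
      simp only [AddMonoidHom.comp_apply, AddMonoidHom.mk'_apply, val_single]
      rw [dif_neg fun h => hq ?_, map_zero, map_zero]
      rw [← QuotientGroup.out_eq' q, ← QuotientGroup.out_eq' q']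
      exact (QuotientGroup.eq.mpr h).symm
    · simp)
  map_add' e e' := Subtype.ext (ext fun g => AddMonoidHom.ext fun n => mul_add _ _ _)

/-- The dimension of the functionals transforming through the character. -/
lemma ldim_eqHom_id : ldim p (eqHom χ (MonoidHom.id Γ) (CoInd W N)) =
    ldim p (h0Sub W (Dual (χ.comp W.subtype) N)) :=
  (ldim_congr p (eqHomEquiv χ (MonoidHom.id Γ)).toEquiv).trans
    (ldim_congr p (h0Equiv (W := W) (N := Dual (χ.comp W.subtype) N)).toEquiv)

end Functionals

end CoInd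

end FermatAgent.CFT.Euler
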