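import Fermat.Agent.CFT.Euler.Phi

/-!
Lattices with the same character have the same value of every additive invariant.
-/

set_option autoImplicit false

noncomputable section

open scoped Classical

namespace FermatAgent.CFT.Euler

/-- The trace of two-sided composition. -/
lemma trace_comp_comp {A B : Type} [AddCommGroup A] [Module.Free ℤ A] [Module.Finite ℤ A]
    [AddCommGroup B] [Module.Free ℤ B] [Module.Finite ℤ B] (f : B →ₗ[ℤ] B) (g : A →ₗ[ℤ] A) :
    LinearMap.trace ℤ (A →ₗ[ℤ] B) ((LinearMap.llcomp ℤ A B B f).comp (LinearMap.lcomp ℤ B g)) =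
      LinearMap.trace ℤ B f * LinearMap.trace ℤ A g := by
  set a := Module.Free.chooseBasis ℤ A
  set b := Module.Free.chooseBasis ℤ B
  rw [LinearMap.trace_eq_matrix_trace ℤ (a.linearMap b), LinearMap.trace_eq_matrix_trace ℤ a,
    LinearMap.trace_eq_matrix_trace ℤ b]
  simp only [Matrix.trace, Matrix.diag_apply, LinearMap.toMatrix_apply, Finset.sum_mul_sum,
    Fintype.sum_prod_type]
  refine Finset.sum_congr rfl fun i _ => Finset.sum_congr rfl fun j _ => ?_
  rw [Module.Basis.linearMap_repr_apply]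
  have hstd : ∀ M : Matrix (Module.Free.ChooseBasisIndex ℤ B) (Module.Free.ChooseBasisIndex ℤ A) ℤ,
      (Matrix.stdBasis ℤ _ _).repr M (i, j) = M i j := fun M => by
    simp [Matrix.stdBasis]
  rw [hstd, LinearMap.toMatrix_apply]
  simp only [LinearMap.comp_apply, LinearMap.llcomp_apply, LinearMap.lcomp_apply']
  rw [show f (((a.linearMap b) (i, j)) (g (a j))) = a.repr (g (a j)) j • f (b i) from ?_,
    map_smul, Finsupp.smul_apply, smul_eq_mul, mul_comm]
  conv_lhs => rw [← a.sum_repr (g (a j)), map_sum, map_sum]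
  rw [Finset.sum_eq_single j]
  · rw [map_smul, Module.Basis.linearMap_apply_apply, if_pos rfl, map_smul]
  · intro k _ hk
    rw [map_smul, Module.Basis.linearMap_apply_apply, if_neg fun h => hk h.symm,
      smul_zero, map_zero]
  · simp

variable {P : Type} [Group P] [Finite P] {L L' : Type} [AddCommGroup L] [DistribMulAction P L]
  [Module.Free ℤ L] [Module.Finite ℤ L] [AddCommGroup L'] [DistribMulAction P L']
  [Module.Free ℤ L'] [Module.Finite ℤ L']

/-- Equal characters give a nonzero equivariant map. -/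
lemma exists_equivariant_ne_zero (h : ∀ g : P, latChar L g = latChar L' g)
    (hr : Module.finrank ℤ L ≠ 0) :
    ∃ φ : L →ₗ[ℤ] L', φ ≠ 0 ∧ ∀ (g : P) x, φ (g • x) = g • φ x := by
  let : Fintype P := Fintype.ofFinite P
  let T : P → Module.End ℤ (L →ₗ[ℤ] L') := fun g =>
    (LinearMap.llcomp ℤ L L' L' (latEnd g)).comp (LinearMap.lcomp ℤ L' (latEnd g⁻¹))
  set E := ∑ g, T g
  have htr : LinearMap.trace ℤ _ E ≠ 0 := by
    rw [map_sum]
    refine ne_of_gt (Finset.sum_pos' (fun g _ => ?_) ⟨1, Finset.mem_univ _, ?_⟩)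
    · rw [trace_comp_comp, ← latChar_eq, ← latChar_eq, latChar_inv, h g]
      exact mul_self_nonneg _
    · rw [trace_comp_comp, ← latChar_eq, ← latChar_eq, inv_one, ← h 1, latChar_one]
      have : (0 : ℤ) < Module.finrank ℤ L := by exact_mod_cast Nat.pos_of_ne_zero hr
      positivity
  obtain ⟨ψ, hψ⟩ : ∃ ψ, E ψ ≠ 0 := by
    by_contra hne
    push Not at hne
    exact htr (by rw [show E = 0 from LinearMap.ext hne, map_zero])
  refine ⟨E ψ, hψ, fun g x => ?_⟩
  have happ : ∀ y, E ψ y = ∑ k : P, k • ψ (k⁻¹ • y) := fun y => by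
    simp only [E, LinearMap.sum_apply]
    rfl
  rw [happ, happ, Finset.smul_sum]
  refine Fintype.sum_equiv (Equiv.mulLeft g⁻¹) _ _ fun k => ?_
  show k • ψ (k⁻¹ • g • x) = g • (g⁻¹ * k) • ψ ((g⁻¹ * k)⁻¹ • x)
  rw [← mul_smul g, mul_inv_cancel_left, mul_inv_rev, inv_inv, mul_smul k⁻¹ g]

variable {p : ℕ} [hp : Fact p.Prime]

omit [Finite P] in
/-- A lattice sequence adds the invariants and the characters. -/
lemma latVal_add (f : AddInv p P) {A B C : Type} [AddCommGroup A] [DistribMulAction P A]
    [AddCommGroup B] [DistribMulAction P B] [AddCommGroup C] [DistribMulAction P C]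
    [Module.Free ℤ A] [Module.Finite ℤ A] [Module.Finite ℤ B]
    [Module.Free ℤ C] [Module.Finite ℤ C] (E : Ses P A B C) :
    f.latVal B = f.latVal A + f.latVal C ∧ ∀ g : P, latChar B g = latChar A g + latChar C g := by
  have := finite_modp p B
  refine ⟨f.add _ _ _ (nsmul_modp p B) (E.modp p fun c hc => AddInv.nsmul_eq_zero_of_free hc),
    fun g => trace_add_of_exact E.i.toIntLinearMap E.q.toIntLinearMap E.inj E.surj E.exact _ _ _
      (fun a => ?_) fun b => ?_⟩
  · exact (E.i_smul g a).symm
  · exact E.q_smul g b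

omit [Finite P] in
/-- Characters do not change on sublattices of finite index. -/
lemma latChar_eq_of_index {A B : Type} [AddCommGroup A] [DistribMulAction P A]
    [AddCommGroup B] [DistribMulAction P B] [Module.Free ℤ A] [Module.Finite ℤ A]
    [Module.Free ℤ B] [Module.Finite ℤ B] (i : A →+ B) (hi : Function.Injective i)
    (hsm : ∀ (g : P) a, i (g • a) = g • i a) (hidx : i.range.index ≠ 0) (g : P) :
    latChar A g = latChar B g := by
  set m := i.range.index
  have hm : ∀ b : B, ∃ a, i a = m • b := fun b => by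
    have : i.range.FiniteIndex := ⟨hidx⟩
    exact AddSubgroup.nsmul_index_mem i.range b
  choose ψ hψ using hm
  let ψ' : B →ₗ[ℤ] A := (AddMonoidHom.mk' ψ fun b b' => hi (by
    rw [map_add, hψ, hψ, hψ, nsmul_add])).toIntLinearMap
  have h1 : i.toIntLinearMap.comp ψ' = (m : ℤ) • LinearMap.id := LinearMap.ext fun b => by
    simp only [LinearMap.comp_apply, LinearMap.smul_apply, LinearMap.id_apply, natCast_zsmul]
    exact hψ b
  have h2 : ψ'.comp i.toIntLinearMap = (m : ℤ) • LinearMap.id := LinearMap.ext fun a => hi (by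
    simp only [LinearMap.comp_apply, LinearMap.smul_apply, LinearMap.id_apply, natCast_zsmul,
      map_nsmul]
    exact hψ (i a))
  have h3 : i.toIntLinearMap.comp (latEnd (L := A) g) = (latEnd (L := B) g).comp i.toIntLinearMap :=
    LinearMap.ext fun a => hsm g a
  have h := LinearMap.trace_comp_comm' i.toIntLinearMap ((latEnd (L := A) g).comp ψ')
  rw [LinearMap.comp_assoc, h2, ← LinearMap.comp_assoc, h3, LinearMap.comp_assoc, h1,
    LinearMap.comp_smul, LinearMap.comp_smul, LinearMap.comp_id, LinearMap.comp_id, map_smul,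
    map_smul, smul_eq_mul, smul_eq_mul] at h
  exact mul_left_cancel₀ (by exact_mod_cast hidx) h

omit [Finite P] in
/-- A stable sublattice has finite index in its saturation. -/
private theorem relIndex_ne_zero_of_saturation {L' : Type} [AddCommGroup L']
    [DistribMulAction P L'] [Module.Free ℤ L'] [Module.Finite ℤ L'] (I S : Stable P L')
    (hSd : ∀ x, x ∈ S.sub → ∃ m : ℕ, m ≠ 0 ∧ m • x ∈ I.sub) : I.sub.relIndex S.sub ≠ 0 := by
  have := AddInv.finite_stable S
  have : Module.Finite ℤ S.Mod := inferInstance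
  have : AddGroup.FG S.Mod := Module.Finite.iff_addGroup_fg.mp ‹_›
  have htor : IsAddTorsion (↥S.sub ⧸ I.sub.addSubgroupOf S.sub) := fun a => by
    obtain ⟨x, rfl⟩ := QuotientAddGroup.mk_surjective a
    obtain ⟨m, hm, hx⟩ := hSd _ x.2
    refine isOfFinAddOrder_iff_nsmul_eq_zero.mpr ⟨m, Nat.pos_of_ne_zero hm, ?_⟩
    rw [← QuotientAddGroup.mk_nsmul]
    exact (QuotientAddGroup.eq_zero_iff _).mpr hx
  have : AddGroup.FG (↥S.sub ⧸ I.sub.addSubgroupOf S.sub) :=
    AddGroup.fg_of_surjective (f := QuotientAddGroup.mk' _) (QuotientAddGroup.mk'_surjective _)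
  have : Finite (↥S.sub ⧸ I.sub.addSubgroupOf S.sub) :=
    AddCommGroup.finite_of_fg_isAddTorsion _ htor
  exact AddSubgroup.index_ne_zero_of_finite

/-- Lattices with equal characters have equal invariants. -/
theorem latVal_eq_of_latChar (f : AddInv p P) (n : ℕ) :
    ∀ (L L' : Type) [AddCommGroup L] [DistribMulAction P L] [Module.Free ℤ L] [Module.Finite ℤ L]
      [AddCommGroup L'] [DistribMulAction P L'] [Module.Free ℤ L'] [Module.Finite ℤ L'],
      Module.finrank ℤ L = n → (∀ g : P, latChar L g = latChar L' g) →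
        f.latVal L = f.latVal L' := by
  induction n using Nat.strong_induction_on with
  | _ n ih =>
    intro L L' _ _ _ _ _ _ _ _ hn h
    by_cases hr : Module.finrank ℤ L = 0
    · have hr' : Module.finrank ℤ L' = 0 := by
        have := h 1
        rw [latChar_one, latChar_one, hr] at this
        exact_mod_cast this.symm
      have : Subsingleton L := Module.finrank_zero_iff.mp hr
      have : Subsingleton L' := Module.finrank_zero_iff.mp hr'
      have : Subsingleton (Modp p L) := (toModp_surjective p L).subsingleton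
      have : Subsingleton (Modp p L') := (toModp_surjective p L').subsingleton
      rw [AddInv.latVal, AddInv.latVal, f.val_of_subsingleton, f.val_of_subsingleton]
    obtain ⟨φ, hφ0, hφ⟩ := exists_equivariant_ne_zero h hr
    obtain ⟨K, hKd⟩ : ∃ K : Stable P L, ∀ x, x ∈ K.sub ↔ φ x = 0 :=
      ⟨⟨φ.toAddMonoidHom.ker, fun g x hx => by
        show φ (g • x) = 0
        rw [hφ, show φ x = 0 from hx, smul_zero]⟩, fun x => Iff.rfl⟩
    obtain ⟨I, hId⟩ : ∃ I : Stable P L', ∀ x, x ∈ I.sub ↔ ∃ y, φ y = x :=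
      ⟨⟨φ.toAddMonoidHom.range, fun g x hx => by
        obtain ⟨y, rfl⟩ := hx
        exact ⟨g • y, hφ g y⟩⟩, fun x => Iff.rfl⟩
    obtain ⟨S, hSd⟩ : ∃ S : Stable P L', ∀ x, x ∈ S.sub ↔ ∃ m : ℕ, m ≠ 0 ∧ m • x ∈ I.sub := ⟨⟨
      { carrier := {x | ∃ m : ℕ, m ≠ 0 ∧ m • x ∈ I.sub}
        zero_mem' := ⟨1, one_ne_zero, by rw [smul_zero]; exact zero_mem _⟩
        add_mem' := fun {a b} ⟨m, hm, ha⟩ ⟨m', hm', hb⟩ => ⟨m * m', mul_ne_zero hm hm', by
          rw [nsmul_add, mul_comm m m', mul_smul, mul_comm m' m, mul_smul]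
          exact add_mem (nsmul_mem ha _) (nsmul_mem hb _)⟩
        neg_mem' := fun {a} ⟨m, hm, ha⟩ => ⟨m, hm, by rw [smul_neg]; exact neg_mem ha⟩ },
      fun g x ⟨m, hm, hx⟩ => ⟨m, hm, by
        rw [show m • g • x = g • m • x from (map_nsmul (DistribSMul.toAddMonoidHom L' g) m x).symm]
        exact I.smul_mem g _ hx⟩⟩, fun x => Iff.rfl⟩
    have hIS : I.sub ≤ S.sub := fun x hx => (hSd x).mpr ⟨1, one_ne_zero, by rwa [one_smul]⟩
    let φI : L →+ I.Mod := φ.toAddMonoidHom.codRestrict I.sub fun x => (hId _).mpr ⟨x, rfl⟩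
    have := AddInv.finite_stable K
    have := AddInv.free_stable K
    have := AddInv.finite_stable I
    have := AddInv.free_stable I
    have := AddInv.finite_stable S
    have := AddInv.free_stable S
    -- the sequence on the source
    let e₁ : Ses P K.Mod L I.Mod :=
      { i := K.sub.subtype
        q := φI
        i_smul := fun _ _ => rfl
        q_smul := fun g x => Subtype.ext (hφ g x)
        inj := Subtype.val_injective
        surj := fun y => by
          obtain ⟨x, hx⟩ := (hId y.1).mp y.2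
          exact ⟨x, Subtype.ext hx⟩
        exact := fun b => ⟨fun hb => ⟨⟨b, (hKd b).mpr (congrArg Subtype.val hb)⟩, rfl⟩,
          fun ⟨a, ha⟩ => ha ▸ Subtype.ext ((hKd _).mp a.2)⟩ }
    -- the sequence on the target
    let Q := Quo (AddInv.top L') S
    have : Module.Finite ℤ Q :=
      Module.Finite.of_surjective ((Quo.mk (AddInv.top L') S).comp
        ((AddMonoidHom.id L').codRestrict ⊤ fun _ => trivial)).toIntLinearMap fun b => by
          obtain ⟨x, rfl⟩ := Quo.mk_surjective _ S b
          exact ⟨x.1, rfl⟩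
    have : Module.IsTorsionFree ℤ Q := by
      refine ⟨fun z hz a b hab => ?_⟩
      rw [← sub_eq_zero]
      obtain ⟨x, hx⟩ := Quo.mk_surjective _ S (a - b)
      rw [← hx, Quo.mk_eq_zero_iff]
      have h1 : z • x.1 ∈ S.sub := by
        rw [← AddSubgroupClass.coe_zsmul, ← Quo.mk_eq_zero_iff (AddInv.top L') S, map_zsmul, hx,
          smul_sub]
        exact sub_eq_zero.mpr hab
      obtain ⟨m, hm, hmx⟩ := (hSd _).mp h1
      refine (hSd _).mpr ⟨m * z.natAbs, mul_ne_zero hm (Int.natAbs_ne_zero.mpr hz.ne_zero), ?_⟩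
      rw [mul_smul, ← natCast_zsmul x.1 z.natAbs]
      rcases Int.natAbs_eq z with hzz | hzz
      · rw [← hzz]; exact hmx
      · rw [show (z.natAbs : ℤ) = -z by omega, neg_smul, smul_neg]; exact neg_mem hmx
    have : Module.Free ℤ Q := Module.free_of_finite_type_torsion_free'
    let e₂ : Ses P S.Mod L' Q :=
      { i := S.sub.subtype
        q := (Quo.mk (AddInv.top L') S).comp ((AddMonoidHom.id L').codRestrict ⊤ fun _ => trivial)
        i_smul := fun _ _ => rfl
        q_smul := fun g x => rfl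
        inj := Subtype.val_injective
        surj := fun b => by
          obtain ⟨x, rfl⟩ := Quo.mk_surjective _ S b
          exact ⟨x.1, rfl⟩
        exact := fun b => ⟨fun hb => ⟨⟨b, (Quo.mk_eq_zero_iff _ S).mp hb⟩, rfl⟩,
          fun ⟨a, ha⟩ => ha ▸ (Quo.mk_eq_zero_iff _ S).mpr a.2⟩ }
    obtain ⟨v1, c1⟩ := latVal_add f e₁
    obtain ⟨v2, c2⟩ := latVal_add f e₂
    -- finite index
    have hidx : I.sub.relIndex S.sub ≠ 0 :=
      relIndex_ne_zero_of_saturation I S fun x hx => (hSd x).mp hx
    have v3 : f.latVal I.Mod = f.latVal S.Mod := f.latVal_stable_eq I S hIS hidx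
    have c3 : ∀ g, latChar I.Mod g = latChar S.Mod g := latChar_eq_of_index
      (AddSubgroup.inclusion hIS) (AddSubgroup.inclusion_injective hIS)
      (fun (g : P) (a : I.Mod) => Subtype.ext (rfl : g • (a : L') = g • (a : L'))) (by
        rw [show (AddSubgroup.inclusion hIS).range = I.sub.addSubgroupOf S.sub from ?_]
        · exact hidx
        · ext x
          exact ⟨fun ⟨y, hy⟩ => hy ▸ y.2, fun hx => ⟨⟨x.1, hx⟩, rfl⟩⟩)
    have hK : ∀ g, latChar K.Mod g = latChar Q g := fun g => by
      have := h g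
      rw [c1 g, c2 g, c3 g] at this
      linarith
    have hlt : Module.finrank ℤ K.Mod < n := by
      have h1 := c1 1
      simp only [latChar_one] at h1
      have hI : Module.finrank ℤ I.Mod ≠ 0 := fun h0 => hφ0 (LinearMap.ext fun x => by
        have : Subsingleton I.Mod := Module.finrank_zero_iff.mp h0
        exact congrArg Subtype.val (Subsingleton.elim (φI x) 0))
      omega
    rw [v1, v2, v3, ih _ hlt K.Mod Q rfl hK, add_comm]

end FermatAgent.CFT.Euler
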