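import Fermat.Agent.CFT.Euler.Reduce
import Mathlib.GroupTheory.PGroup

/-!
An additive invariant vanishes once it vanishes on modules coinduced from subgroups cyclic over
the level and trivial on a sublevel of index prime to `p`.
-/

set_option autoImplicit false

noncomputable section

open scoped Classical

namespace FermatAgent.CFT.Euler

open Coh

variable {p : ℕ} [hp : Fact p.Prime] {Γ : Type} [Group Γ] {U : Subgroup Γ}

omit hp in
/-- A normal level inside a subgroup fixes the modules coinduced from modules it fixes. -/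
lemma CoInd.smul_eq_self (hUn : U.Normal) {W : Subgroup Γ} (hUW : U ≤ W) {N : Type}
    [AddCommGroup N] [DistribMulAction W N] (hU : ∀ v : W, (v : Γ) ∈ U → ∀ n : N, v • n = n)
    {g : Γ} (hg : g ∈ U) (a : CoInd W N) : g • a = a := CoInd.ext fun x => by
  have hm : x⁻¹ * g⁻¹ * x ∈ U := by simpa using hUn.conj_mem g⁻¹ (inv_mem hg) x⁻¹
  rw [CoInd.val_smul, show g⁻¹ * x = x * ((⟨_, hUW hm⟩ : W) : Γ) by simp [mul_assoc],
    CoInd.apply_mul]
  exact hU _ (by simpa using U.inv_mem hm) _

/-- The preimage of the `p`-part of a quotient cyclic over the level. -/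
theorem exists_pPart (hUn : U.Normal) [U.FiniteIndex] {χ : Γ →* (ZMod p)ˣ} (hUχ : U ≤ χ.ker)
    {W : Subgroup Γ} (hW : IsCyclicOver U W) :
    ∃ V : Subgroup Γ, U ≤ V ∧ V ≤ W ∧ (V.subgroupOf W).Normal ∧ V ≤ χ.ker ∧
      ¬ p ∣ V.relIndex W ∧ ∃ k : ℕ, U.relIndex V = p ^ k := by
  have := hUn
  obtain ⟨hUW, g, hgW, hg⟩ := hW
  have : Finite (Γ ⧸ U) := Subgroup.finite_quotient_of_finiteIndex
  let π := QuotientGroup.mk' U
  set x := π g
  set k := (orderOf x).factorization p
  set m := orderOf x / p ^ k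
  have hord : p ^ k * m = orderOf x := Nat.ordProj_mul_ordCompl_eq_self _ p
  have hm : ¬ p ∣ m := Nat.not_dvd_ordCompl hp.out (orderOf_pos x).ne'
  set V := (Subgroup.zpowers (x ^ m)).comap π
  have hWeq : W = (Subgroup.zpowers x).comap π := by
    refine le_antisymm (fun w hw => ?_) fun w hw => ?_
    · obtain ⟨i, hi⟩ := hg w hw
      refine ⟨i, ?_⟩
      show x ^ i = π w
      rw [← map_zpow]
      exact (QuotientGroup.eq (s := U)).mpr hi
    · obtain ⟨i, hi⟩ := Subgroup.mem_comap.mp hw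
      have hi' : π (g ^ i) = π w := (map_zpow π g i).trans hi
      have h1 : (g ^ i)⁻¹ * w ∈ U := (QuotientGroup.eq (s := U)).mp hi'
      have h2 := W.mul_mem (W.zpow_mem hgW i) (hUW h1)
      rwa [mul_inv_cancel_left] at h2
  have hUV : U ≤ V := fun u hu => by
    show π u ∈ Subgroup.zpowers (x ^ m)
    rw [show π u = 1 from (QuotientGroup.eq_one_iff u).mpr hu]
    exact one_mem _
  have hVW : V ≤ W := by
    rw [hWeq]
    exact Subgroup.comap_mono (Subgroup.zpowers_le.mpr (pow_mem (Subgroup.mem_zpowers x) m))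
  have hm0 : m ≠ 0 := fun h => hm (by rw [h]; exact dvd_zero p)
  have hord' : orderOf (x ^ m) = p ^ k := by
    rw [orderOf_pow' x hm0, ← hord, Nat.gcd_mul_left_left,
      Nat.mul_div_cancel _ (Nat.pos_of_ne_zero hm0)]
  have hidx : ∀ H : Subgroup (Γ ⧸ U), U.relIndex (H.comap π) = Nat.card H := fun H => by
    have e := Subgroup.relIndex_comap (⊥ : Subgroup (Γ ⧸ U)) π (H.comap π)
    rw [MonoidHom.comap_bot, QuotientGroup.ker_mk',
      Subgroup.map_comap_eq_self_of_surjective (QuotientGroup.mk'_surjective U),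
      Subgroup.relIndex_bot_left] at e
    exact e
  have hrel : U.relIndex V = p ^ k := by rw [hidx, Nat.card_zpowers, hord']
  refine ⟨V, hUV, hVW, ⟨fun v hv w => ?_⟩, fun v hv => ?_, ?_, k, hrel⟩
  · obtain ⟨i, hi⟩ := Subgroup.mem_comap.mp (hv : (v : Γ) ∈ V)
    have hw : (w : Γ) ∈ (Subgroup.zpowers x).comap π := hWeq ▸ w.2
    obtain ⟨j, hj⟩ := Subgroup.mem_comap.mp hw
    show π ((w : Γ) * (v : Γ) * (w : Γ)⁻¹) ∈ Subgroup.zpowers (x ^ m)
    have hj' : x ^ j = π (w : Γ) := hj
    have hi' : (x ^ m) ^ i = π (v : Γ) := hi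
    rw [map_mul, map_mul, map_inv, ← hj', ← hi']
    refine ⟨i, ?_⟩
    show (x ^ m) ^ i = x ^ j * (x ^ m) ^ i * (x ^ j)⁻¹
    rw [← zpow_natCast x m, ← zpow_mul, ← zpow_neg, ← zpow_add, ← zpow_add]
    congr 1
    ring
  · obtain ⟨i, hi⟩ := Subgroup.mem_comap.mp hv
    have h1 : π (v ^ (p ^ k)) = 1 := by
      rw [map_pow, ← hi, ← zpow_natCast, ← zpow_mul, mul_comm, zpow_mul, zpow_natCast, ← hord',
        pow_orderOf_eq_one, one_zpow]
    have h2 : χ v ^ (p ^ k) = 1 := by
      rw [← map_pow]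
      exact hUχ ((QuotientGroup.eq_one_iff _).mp h1)
    have h3 : Nat.Coprime (p ^ k) (p - 1) :=
      Nat.Coprime.pow_left k ((hp.out.coprime_iff_not_dvd).mpr fun h => by
        have := Nat.le_of_dvd (Nat.sub_pos_of_lt hp.out.one_lt) h
        have := hp.out.pos
        omega)
    have h4 : χ v ^ (p - 1) = 1 := ZMod.units_pow_card_sub_one_eq_one p _
    have := pow_gcd_eq_one.mpr ⟨h2, h4⟩
    rwa [h3.gcd_eq_one, pow_one] at this
  · intro hdvd
    apply hm
    have h1 := Subgroup.relIndex_mul_relIndex U V W hUV hVW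
    have h2 : U.relIndex W = orderOf x := by rw [hWeq, hidx, Nat.card_zpowers]
    rw [h2, ← hord, hrel] at h1
    exact Nat.eq_of_mul_eq_mul_left (pow_pos hp.out.pos k) h1 ▸ hdvd

/-- An additive invariant vanishing on coinductions of modules trivial on a normal subgroup with
`p`-group quotient over the level vanishes on coinductions of modules trivial on the level. -/
theorem eq_zero_coInd_of_pPart {e : ∀ (M : Type) [AddCommGroup M] [DistribMulAction Γ M], ℤ}
    (T : IsAdditive p U e) {W V : Subgroup Γ} [W.FiniteIndex] [hn : (V.subgroupOf W).Normal]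
    (hUV : U ≤ V) (hVW : V ≤ W) {k : ℕ} (hk : U.relIndex V = p ^ k)
    (hbase : ∀ (N : Type) [AddCommGroup N] [DistribMulAction W N] [Finite N],
      (∀ v : W, (v : Γ) ∈ V → ∀ n : N, v • n = n) → (∀ n : N, p • n = 0) → e (CoInd W N) = 0)
    (N : Type) [AddCommGroup N] [DistribMulAction W N] [Finite N]
    (hU : ∀ v : W, (v : Γ) ∈ U → ∀ n : N, v • n = n) (hN : ∀ n : N, p • n = 0) :
    e (CoInd W N) = 0 := by
  induction hc : Nat.card N using Nat.strong_induction_on generalizing N with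
  | _ c ih =>
    obtain ⟨N₀, hN₀⟩ : ∃ N₀ : Stable W N, ∀ n, n ∈ N₀.sub ↔ ∀ v : W, (v : Γ) ∈ V → v • n = n :=
      ⟨{ sub :=
          { carrier := {n | ∀ v : W, (v : Γ) ∈ V → v • n = n}
            zero_mem' := fun v _ => smul_zero v
            add_mem' := fun {a b} ha hb v hv => by rw [smul_add, ha v hv, hb v hv]
            neg_mem' := fun {a} ha v hv => by rw [smul_neg, ha v hv] }
         smul_mem := fun w n hn' v hv => by
          have h := hn' (w⁻¹ * v * w) (by
            have := hn.conj_mem v hv w⁻¹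
            rwa [inv_inv] at this)
          conv_rhs => rw [← h]
          rw [← mul_smul, ← mul_smul]
          congr 1
          group }, fun n => Iff.rfl⟩
    by_cases hall : ∀ n, n ∈ N₀.sub
    · exact hbase N (fun v hv n => (hN₀ n).mp (hall n) v hv) hN
    -- the fixed part is nonzero
    have : Nontrivial N := by
      by_contra hnt
      rw [not_nontrivial_iff_subsingleton] at hnt
      exact hall fun n => (hN₀ n).mpr fun v _ => Subsingleton.elim _ _
    -- the image of `V` in the permutations of `N` is a `p`-group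
    let : MulAction V N := MulAction.compHom N (Subgroup.inclusion hVW)
    let φ := MulAction.toPermHom V N
    have hker : U.subgroupOf V ≤ φ.ker := fun v hv => Equiv.ext fun n => hU ⟨v, hVW v.2⟩ hv n
    obtain ⟨i, -, hi⟩ := (Nat.dvd_prime_pow hp.out).mp
      ((Subgroup.index_ker φ).symm.dvd.trans ((Subgroup.index_dvd_of_le hker).trans hk.dvd))
    have hdvd : p ∣ Nat.card N := by
      obtain ⟨n, hn0⟩ := exists_ne (0 : N)
      rw [← addOrderOf_eq_prime (hN n) hn0]
      exact addOrderOf_dvd_natCard n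
    obtain ⟨n₀, hn₀, hne⟩ :=
      (IsPGroup.of_card (G := φ.range) hi).exists_fixed_point_of_prime_dvd_card_of_fixed_point N
        hdvd (a := (0 : N)) (by rintro ⟨_, v, rfl⟩; exact smul_zero (⟨v, hVW v.2⟩ : W))
    have hn₀mem : n₀ ∈ N₀.sub := (hN₀ n₀).mpr fun v hv => hn₀ ⟨_, ⟨v, hv⟩, rfl⟩
    let top : Stable W N := ⟨⊤, fun _ _ _ => trivial⟩
    let q : N →+ Quo top N₀ :=
      (Quo.mk top N₀).comp ((AddMonoidHom.id N).codRestrict ⊤ fun _ => trivial)
    let E : Ses W N₀.Mod N (Quo top N₀) :=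
      { i := N₀.sub.subtype
        q := q
        i_smul := fun _ _ => rfl
        q_smul := fun _ _ => rfl
        inj := Subtype.val_injective
        surj := fun b => by
          obtain ⟨x, rfl⟩ := Quo.mk_surjective top N₀ b
          exact ⟨x.1, rfl⟩
        exact := fun b => ⟨fun hb => ⟨⟨b, (Quo.mk_eq_zero_iff top N₀).mp hb⟩, rfl⟩,
          fun ⟨a, ha⟩ => ha ▸ (Quo.mk_eq_zero_iff top N₀).mpr a.2⟩ }
    have : Finite (Quo top N₀) := Finite.of_surjective _ E.surj
    have hlt1 : Nat.card N₀.Mod < c := by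
      rw [← hc]
      refine lt_of_le_of_ne (Nat.card_le_card_of_injective _ Subtype.val_injective) fun he => ?_
      have hb := (Nat.bijective_iff_injective_and_card (Subtype.val : N₀.Mod → N)).mpr
        ⟨Subtype.val_injective, he⟩
      exact hall fun n => by
        obtain ⟨a, rfl⟩ := hb.2 n
        exact a.2
    have hlt2 : Nat.card (Quo top N₀) < c := by
      rw [← hc]
      refine lt_of_le_of_ne (Nat.card_le_card_of_surjective _ E.surj) fun he => ?_
      have hbij := (Nat.bijective_iff_surjective_and_card E.q).mpr ⟨E.surj, he.symm⟩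
      exact hne (hbij.1 (((E.exact n₀).mpr ⟨⟨n₀, hn₀mem⟩, rfl⟩).trans (map_zero E.q).symm)).symm
    rw [T.add (fun g hg a => CoInd.smul_eq_self T.normal (hUV.trans hVW) hU hg a)
        (CoInd.nsmul_eq_zero hN) (CoInd.ses E),
      ih _ hlt1 N₀.Mod (fun v hv a => Subtype.ext (hU v hv a.1))
        (fun a => Subtype.ext (hN a.1)) rfl,
      ih _ hlt2 (Quo top N₀) (fun v hv b => by
        obtain ⟨a, rfl⟩ := E.surj b
        rw [← E.q_smul, hU v hv]) (fun b => by
        obtain ⟨a, rfl⟩ := E.surj b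
        rw [← map_nsmul, hN, map_zero]) rfl, add_zero]

/-- The restriction of a module to a subgroup. -/
def RestrictTo (_ : Subgroup Γ) (M : Type) : Type := M

instance (W : Subgroup Γ) (M : Type) [AddCommGroup M] : AddCommGroup (RestrictTo W M) :=
  inferInstanceAs (AddCommGroup M)
instance (W : Subgroup Γ) (M : Type) [Finite M] : Finite (RestrictTo W M) := ‹Finite M›
instance (W : Subgroup Γ) (M : Type) [AddCommGroup M] [DistribMulAction Γ M] :
    DistribMulAction W (RestrictTo W M) := DistribMulAction.compHom M W.subtype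

/-- Induced modules are coinduced. -/
def indToCoInd (W : Subgroup Γ) (M : Type) [AddCommGroup M] [DistribMulAction Γ M] :
    Ind W M →+ CoInd W (RestrictTo W M) :=
  AddMonoidHom.mk' (fun φ =>
      CoInd.mk (fun x => (show RestrictTo W M from (x⁻¹ • φ (x : Γ ⧸ W) : M))) fun x c => by
    show (x * (c : Γ))⁻¹ • φ ((x * (c : Γ) : Γ) : Γ ⧸ W) = (c : Γ)⁻¹ • x⁻¹ • φ (x : Γ ⧸ W)
    rw [CoInd.mk_mul_coe, mul_inv_rev, mul_smul]) fun φ ψ => CoInd.ext fun x =>
      smul_add (A := M) x⁻¹ _ _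

include hp in
/-- An additive invariant vanishes once it vanishes on modules coinduced from subgroups over the
level, trivial on a sublevel of index prime to `p`. -/
theorem eq_zero_of_coInd_layer {e : ∀ (M : Type) [AddCommGroup M] [DistribMulAction Γ M], ℤ}
    (T : IsAdditive p U e) {χ : Γ →* (ZMod p)ˣ} (hUχ : U ≤ χ.ker)
    (hbase : ∀ (W V : Subgroup Γ) [W.FiniteIndex] [(V.subgroupOf W).Normal], U ≤ V → V ≤ W →
      V ≤ χ.ker → ¬ p ∣ V.relIndex W → ∀ (N : Type) [AddCommGroup N] [DistribMulAction W N]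
        [Finite N], (∀ v : W, (v : Γ) ∈ V → ∀ n : N, v • n = n) → (∀ n : N, p • n = 0) →
          e (CoInd W N) = 0)
    (M : Type) [AddCommGroup M] [DistribMulAction Γ M] [Finite M]
    (hT : ∀ g ∈ U, ∀ m : M, g • m = m) (hK : ∀ m : M, p • m = 0) : e M = 0 := by
  refine eq_zero_of_cyclic T (fun W _ hW N _ _ _ hN hNp => ?_) M hT hK
  have := T.finiteIndex
  have hU : ∀ v : W, (v : Γ) ∈ U → ∀ n : RestrictTo W N, v • n = n := fun v hv n =>
    hN (v : Γ) hv n
  obtain ⟨V, hUV, hVW, hn, hVχ, hco, k, hk⟩ := exists_pPart T.normal hUχ hW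
  rw [T.congr (fun g hg a => CoInd.smul_eq_self T.normal hW.1 hU hg a)
    (CoInd.nsmul_eq_zero (N := RestrictTo W N) hNp) (indToCoInd W N)
    ⟨fun φ ψ h => Ind.ext fun c => ?_, fun a => ?_⟩ (fun g φ => CoInd.ext fun x => ?_)]
  · exact eq_zero_coInd_of_pPart T hUV hVW hk (hbase W V hUV hVW hVχ hco) (RestrictTo W N) hU hNp
  · obtain ⟨x, rfl⟩ := QuotientGroup.mk_surjective c
    exact MulAction.injective x⁻¹ (congrFun (congrArg CoInd.val h) x)
  · refine ⟨Ind.mk W fun c => c.out • (show N from CoInd.val (W := W)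
      (N := RestrictTo W N) a c.out), CoInd.eq_out_values fun q => ?_⟩
    show q.out⁻¹ • ((q.out : Γ ⧸ W).out •
      (show N from CoInd.val (W := W) (N := RestrictTo W N) a ((q.out : Γ ⧸ W)).out)) = _
    rw [QuotientGroup.out_eq', inv_smul_smul]
  · show x⁻¹ • g • φ (g⁻¹ • (x : Γ ⧸ W)) = (g⁻¹ * x)⁻¹ • φ ((g⁻¹ * x : Γ) : Γ ⧸ W)
    rw [← mul_smul, mul_inv_rev, inv_inv]
    rfl

end FermatAgent.CFT.Euler
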