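import Fermat.Agent.CFT.Euler.UnitChar
import Fermat.Agent.CFT.Global.SRecip

/-!
Characters unramified outside a set of primes generating the class group, and split above the set,
vanish.
-/

set_option autoImplicit false

noncomputable section

open scoped Classical
open IntermediateField

namespace FermatAgent.CFT.Euler

open Coh Local GaloisBasic Global

variable {p : ℕ} [hp : Fact p.Prime] {S : Finset Nat.Primes} {K : IntermediateField ℚ Qbar}
  [FiniteDimensional ℚ K]

omit [FiniteDimensional ℚ ↥K] in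
lemma isTotallyComplex_of_zet (hp2 : p ≠ 2) (hζK : zet p ∈ K) : NumberField.IsTotallyComplex K := by
  have := isTotallyComplex_cycK (p := p) hp2
  exact isTotallyComplex_of_le (K := cycK p) (adjoin_simple_le_iff.mpr hζK)

/-- A character split above the set vanishes. -/
theorem split_char_eq_zero (hp2 : p ≠ 2) (hpS : ExtCitation.pPrime p ∈ S) (hζK : zet p ∈ K)
    (hK : K.IsUnramifiedOutside S) (hgen : PrincipalOutside (above K S)) (c : GQ → ZMod p)
    (hc : ∀ g ∈ K.fixingSubgroup, ∀ h ∈ K.fixingSubgroup, c (g * h) = c g + c h)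
    (hlev : ∃ V ∈ LS S, ∀ g ∈ K.fixingSubgroup, ∀ s ∈ V, s ∈ K.fixingSubgroup → c (g * s) = c g)
    (hsplit : ∀ q : Nat.Primes, q ∈ S → ∀ (g : GQ), haveI : Fact (q : ℕ).Prime := ⟨q.2⟩
      ∀ d ∈ (locField (q : ℕ) g K).fixingSubgroup, c (locHom (q : ℕ) g d) = 0) :
    ∀ g ∈ K.fixingSubgroup, c g = 0 := by
  have := isTotallyComplex_of_zet hp2 hζK
  have : NeZero p := ⟨hp.out.ne_zero⟩
  obtain ⟨a, ha, hca⟩ := exists_unit_of_char hζK hpS hK hgen c hc hlev
  have hy : p • pRoot p a ∈ starK K := by rw [nsmul_pRoot]; exact tUnits_le K _ ha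
  set χ := kumChar (zet_spec p) (smul_zetaUx _ hζK) (pRoot p a) hy
  have hk : IsKummer (zet_spec p) χ (pRoot p a) := isKummer_kumChar (zet_spec p) _ _ hy
  have hχ : ∀ g ∈ K.fixingSubgroup, χ g = c g := fun g hg => by
    rw [hca g hg]
    rfl
  have hloc : ∀ P ∈ above K S,
      embUx (qOf P) (gOf P) a ∈ (starF (locK P)).map (nsmulAddMonoidHom p) := fun P hP => by
    have h2 := (hk.split_iff (zet_spec p) hζK (q := qOf P) (g := gOf P)).mp fun d hd => by
      show χ (locHom (qOf P) (gOf P) d) = 0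
      rw [hχ _ (locHom_mem hd)]
      exact hsplit (qP P) (mem_above.mp hP) (gOf P) d hd
    rwa [nsmul_pRoot] at h2
  have hP0 : qP (primeAt K p 1) = ExtCitation.pPrime p :=
    Subtype.ext ((isPoint_primeAt (K := K)).prime_eq (isPoint_gOf _))
  have hTp : ∀ P ∉ above K S, qOf P ≠ p := fun P hP hq => hP (mem_above.mpr (by
    convert hpS using 1
    exact Subtype.ext hq))
  have h1 := mem_pth_of_local (zet_spec p) hζK (W := ∅)
    ⟨primeAt K p 1, mem_above.mpr (hP0 ▸ hpS)⟩ hgen hTp (by simp)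
    (by
      rw [Finset.card_empty, pow_zero, AddSubgroup.relIndex_eq_one]
      exact fun b hb => mem_kerW.mpr ⟨hb, by simp⟩)
    (b := a) (by rw [Finset.union_empty]; exact ha) hloc
  rw [Finset.union_empty] at h1
  obtain ⟨b, hb, hba⟩ := h1
  intro g hg
  rw [hca g hg, ← (show p • b = a from hba),
    kum_nsmul (zet_spec p) (smul_zetaUx _ hζK) (tUnits_le K _ hb) hg]

end FermatAgent.CFT.Euler
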