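import Fermat.Agent.CFT.Euler.KummerH1
import Fermat.Agent.CFT.Euler.Layer
import Fermat.Agent.CFT.Euler.Split

/-!
The Euler characteristic of coinduced modules from subgroups cyclic over the level, and its
vanishing.
-/

set_option autoImplicit false
set_option maxSynthPendingDepth 3

noncomputable section

open scoped Classical

namespace FermatAgent.CFT.Euler

open Coh Local GaloisBasic Global

variable {p : ℕ} [hp : Fact p.Prime] {S : Finset Nat.Primes} {U W V : Subgroup GQ}

section Infinity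

/-- Complex conjugation acts on `p`-th roots of unity by `-1`. -/
lemma chiQ_complexConjugation (hp2 : p ≠ 2) : (chiQ p complexConjugation : ZMod p) = -1 := by
  have : Fact (1 < p) := ⟨hp.out.one_lt⟩
  have h1 : (chiQ p complexConjugation : ZMod p) * (chiQ p complexConjugation : ZMod p) = 1 := by
    rw [← Units.val_mul, ← map_mul, complexConjugation_mul_self, map_one, Units.val_one]
  rcases mul_self_eq_one_iff.mp h1 with h | h
  · refine absurd ?_ (complexConjugation_zet_ne (p := p) hp2)
    have := apply_zet p complexConjugation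
    rwa [h, ZMod.val_one, pow_one] at this
  · exact h

/-- Functionals at infinity complement the fixed elements. -/
lemma ldim_eqHom_infinity (hp2 : p ≠ 2) {M : Type} [AddCommGroup M]
    [DistribMulAction GQ M] [Finite M]
    (hM : ∀ m : M, p • m = 0) :
    ldim p (eqHom (chiQ p) (Subgroup.zpowers complexConjugation).subtype M) + ldim p (infFixed M) =
      ldim p M := by
  let q := QuotientAddGroup.mk' (infFixed M)
  have hq : ∀ m : M, q (complexConjugation • m) = -q m := fun m => by
    rw [eq_neg_iff_add_eq_zero, ← map_add]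
    refine (QuotientAddGroup.eq_zero_iff _).mpr ?_
    show complexConjugation • (complexConjugation • m + m) = complexConjugation • m + m
    rw [smul_add, ← mul_smul, complexConjugation_mul_self, one_smul, add_comm]
  have : Fact (2 < p) := ⟨lt_of_le_of_ne hp.out.two_le (Ne.symm hp2)⟩
  let R : eqHom (chiQ p) (Subgroup.zpowers complexConjugation).subtype M ≃
      ((M ⧸ infFixed M) →+ ZMod p) :=
    { toFun := fun f => QuotientAddGroup.lift _ f.1 fun m hm => by
        have h := f.2 ⟨complexConjugation, Subgroup.mem_zpowers _⟩ m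
        rw [Subgroup.subtype_apply, chiQ_complexConjugation hp2,
          show complexConjugation • m = m from hm, neg_one_mul, eq_neg_iff_add_eq_zero, ← two_mul,
          mul_eq_zero] at h
        exact h.resolve_left (fun h2 => by
          have : ((2 : ℕ) : ZMod p) = 0 := by exact_mod_cast h2
          rw [ZMod.natCast_eq_zero_iff] at this
          exact hp2 ((Nat.prime_dvd_prime_iff_eq hp.out Nat.prime_two).mp this))
      invFun := fun θ => ⟨θ.comp q, fun ⟨g, hg⟩ m => by
        show θ (q (g • m)) = (chiQ p g : ZMod p) * θ (q m)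
        rcases infOfDC.zpow_complexConjugation hg with rfl | rfl
        · rw [one_smul, map_one, Units.val_one, one_mul]
        · rw [hq, map_neg, chiQ_complexConjugation hp2, neg_one_mul]⟩
      left_inv := fun f => Subtype.ext (AddMonoidHom.ext fun m => rfl)
      right_inv := fun θ => AddMonoidHom.ext fun x => by
        obtain ⟨m, rfl⟩ := QuotientAddGroup.mk'_surjective _ x
        rfl }
  have h := ldim_short p (infFixed M).subtype q Subtype.val_injective
    (QuotientAddGroup.mk'_surjective _)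
    (by rw [QuotientAddGroup.ker_mk', AddSubgroup.range_subtype])
  rw [h, add_comm]
  congr 1
  rw [ldim, ldim, Nat.card_congr R, card_homZMod]
  intro x
  obtain ⟨m, rfl⟩ := QuotientAddGroup.mk'_surjective _ x
  rw [← map_nsmul, hM, map_zero]

end Infinity

section Layer

variable [hn : (V.subgroupOf W).Normal] (T : Layer p S W V)
  {N : Type} [AddCommGroup N] [DistribMulAction W N] [Finite N] [W.FiniteIndex]

/-- The dual of a coinduced module. -/
def dualCoInd (W : Subgroup GQ) (N : Type) [AddCommGroup N] [DistribMulAction W N] :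
    Dual (chiQ p) (CoInd W N) →+ CoInd W (Dual ((chiQ p).comp W.subtype) N) :=
  AddMonoidHom.mk' (fun e => CoInd.mk (fun g => Dual.mk _ N
      ((AddMonoidHom.mulLeft ((chiQ p g)⁻¹ : (ZMod p)ˣ).val).comp
        ((Dual.hom _ _ e).comp (CoInd.single g)))) fun g c => AddMonoidHom.ext fun n => by
    show ((chiQ p (g * c))⁻¹ : (ZMod p)ˣ).val * Dual.hom _ _ e (CoInd.single (g * c) n) =
      (((chiQ p).comp W.subtype) c⁻¹ : (ZMod p)ˣ).val *
        (((chiQ p g)⁻¹ : (ZMod p)ˣ).val * Dual.hom _ _ e (CoInd.single g (c⁻¹⁻¹ • n)))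
    rw [inv_inv, CoInd.single_mul, map_mul, mul_inv_rev, Units.val_mul, mul_assoc,
      MonoidHom.map_inv]
    rfl) fun e e' => CoInd.ext fun g => AddMonoidHom.ext fun n => mul_add _ _ _

omit hn [Finite N] [W.FiniteIndex] in
lemma dualCoInd_smul (d : GQ) (e : Dual (chiQ p) (CoInd W N)) :
    dualCoInd W N (d • e) = d • dualCoInd W N e :=
  CoInd.ext fun g => AddMonoidHom.ext fun n => by
    show ((chiQ p g)⁻¹ : (ZMod p)ˣ).val * Dual.hom _ _ (d • e) (CoInd.single g n) =
      ((chiQ p (d⁻¹ * g))⁻¹ : (ZMod p)ˣ).val * Dual.hom _ _ e (CoInd.single (d⁻¹ * g) n)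
    rw [show Dual.hom _ _ (d • e) (CoInd.single g n) =
      (chiQ p d : ZMod p) * Dual.hom _ _ e (d⁻¹ • CoInd.single g n) from rfl, CoInd.smul_single,
      map_mul, map_inv, mul_inv_rev, inv_inv, Units.val_mul, mul_assoc]

omit hn in
lemma dualCoInd_bijective (hN : ∀ n : N, p • n = 0) :
    Function.Bijective (dualCoInd (p := p) W N) := by
  have : Finite (GQ ⧸ W) := Subgroup.finite_quotient_of_finiteIndex
  have : Finite (Dual ((chiQ p).comp W.subtype) N) := DFunLike.finite (N →+ ZMod p)
  have : Finite (Dual (chiQ p) (CoInd W N)) := DFunLike.finite (CoInd W N →+ ZMod p)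
  have hinj : Function.Injective (dualCoInd (p := p) W N) := by
    refine (injective_iff_map_eq_zero _).mpr fun e he => AddMonoidHom.ext fun a => ?_
    show Dual.hom _ _ e a = 0
    rw [← CoInd.sum_single a, map_sum]
    refine Finset.sum_eq_zero fun q _ => ?_
    have h := DFunLike.congr_fun (F := N →+ ZMod p)
      (congrFun (congrArg CoInd.val he) q.out) (CoInd.val a q.out)
    exact (mul_eq_zero.mp h).resolve_left (Units.ne_zero _)
  refine (Nat.bijective_iff_injective_and_card _).mpr ⟨hinj, ?_⟩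
  rw [show Nat.card (Dual (chiQ p) (CoInd W N)) = Nat.card (CoInd W N) from
      card_homZMod (CoInd.nsmul_eq_zero hN),
    Nat.card_congr (CoInd.outEquiv W N).toEquiv,
    Nat.card_congr (CoInd.outEquiv W (Dual ((chiQ p).comp W.subtype) N)).toEquiv, Nat.card_fun,
    Nat.card_fun, show Nat.card (Dual ((chiQ p).comp W.subtype) N) = Nat.card N from
      card_homZMod hN]

include T in
/-- There are no locally trivial classes. -/
lemma subsingleton_shaH1 (hV : TrivG W V N) (hN : ∀ n : N, p • n = 0) :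
    Subsingleton (shaH1 (sDatum T.hp2 T.hpS) (CoInd W N)) := by
  obtain ⟨K, hfd, hfix, hKu, hζ⟩ := T.field
  refine ⟨fun a b => ?_⟩
  suffices h : ∀ a : shaH1 (sDatum T.hp2 T.hpS) (CoInd W N), a = 0 by rw [h a, h b]
  rintro ⟨x, hx⟩
  obtain ⟨y, hy, rfl⟩ := AddSubgroup.mem_map.mp hx
  refine Subtype.ext (cls1_eq_zero_iff.mpr ?_)
  obtain ⟨-, hloc⟩ := (hy : y.1 ∈ (sDatum T.hp2 T.hpS).sha1 (CoInd W N))
  have hy1 : y.1 ∈ (LS S).Z1 ⊤ (Dual (chiQ p) (CoInd W N)) := y.2
  set N' := Dual ((chiQ p).comp W.subtype) N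
  have hN' : TrivG W V N' := trivG_dual T.le_ker hV
  set Ω := dualCoInd (p := p) W N
  let z : ↥((LS S).Z1 ⊤ (CoInd W N')) :=
    z1Map Ω (fun g e => dualCoInd_smul g e) y
  let b : W → N' := (CoInd.shapiroZ z).1
  have hb : b ∈ ((LS S).comap W.subtype).Z1 ⊤ N' := (CoInd.shapiroZ z).2
  have hbmul : ∀ g h : W, (g : GQ) ∈ V → b (g * h) = b g + b h := fun g h hg => by
    rw [Levels.Z1_apply_mul hb (Subgroup.mem_top _) (Subgroup.mem_top _), hN' g hg, add_comm]
  have hzero : ∀ v : W, (v : GQ) ∈ V → b v = 0 := fun v hv => by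
    refine AddMonoidHom.ext fun n => ?_
    obtain ⟨U₀, ⟨V₀, hV₀, hle, -⟩, hbU⟩ := hb.1
    have hWmem : ∀ {g : GQ}, g ∈ K.fixingSubgroup → g ∈ W := fun hg => T.le (hfix ▸ hg)
    let c : GQ → ZMod p := fun g =>
      if h : g ∈ K.fixingSubgroup then Dual.hom _ N (b ⟨g, hWmem h⟩) n else 0
    have hcn := split_char_eq_zero T.hp2 T.hpS hζ hKu (T.gen K hfix.ge) c (fun g hg h hh => by
      simp only [c, dif_pos hg, dif_pos hh, dif_pos (mul_mem hg hh)]
      rw [show (⟨g * h, hWmem (mul_mem hg hh)⟩ : W) = ⟨g, hWmem hg⟩ * ⟨h, hWmem hh⟩ from rfl,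
        hbmul ⟨g, hWmem hg⟩ ⟨h, hWmem hh⟩ (hfix ▸ hg)]
      rfl) ⟨V₀, hV₀, fun g hg s hs hsK => by
        simp only [c, dif_pos hg, dif_pos (mul_mem hg hsK)]
        exact congrArg (fun t => Dual.hom _ N t n)
          (hbU ⟨g, hWmem hg⟩ trivial ⟨s, hWmem hsK⟩ ⟨trivial, hle hs⟩)⟩
      fun q hq g => by
        have : Fact (q : ℕ).Prime := ⟨q.2⟩
        intro d hd
        have huK := locHom_mem hd
        have huV : locHom (q : ℕ) g d ∈ V := hfix ▸ huK
        simp only [c, dif_pos huK]
        obtain ⟨e, he⟩ := hloc ⟨q, hq⟩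
        set u := locHom (q : ℕ) g d
        have hu : u = g⁻¹ * localGaloisToGlobal (q : ℕ) d * g := locHom_apply g d
        have hyu : y.1 u = u • (g⁻¹ • e - y.1 g⁻¹) - (g⁻¹ • e - y.1 g⁻¹) := by
          have h1 := Levels.Z1_apply_mul hy1 (Subgroup.mem_top g⁻¹) (Subgroup.mem_top g)
          rw [inv_mul_cancel, Levels.Z1_apply_one hy1] at h1
          have h2 : g⁻¹ • y.1 g = -y.1 g⁻¹ := eq_neg_of_add_eq_zero_left h1.symm
          conv_lhs => rw [hu, mul_assoc,
            Levels.Z1_apply_mul hy1 (Subgroup.mem_top _) (Subgroup.mem_top _),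
            Levels.Z1_apply_mul hy1 (Subgroup.mem_top _) (Subgroup.mem_top _)]
          rw [show y.1 (localGaloisToGlobal (q : ℕ) d) = localGaloisToGlobal (q : ℕ) d • e - e from
            he d, smul_add, smul_sub,
            ← mul_smul, ← mul_smul,
            show g⁻¹ * localGaloisToGlobal (q : ℕ) d = u * g⁻¹ by rw [hu]; group,
            mul_smul, mul_smul, h2, smul_neg, smul_sub]
          abel
        show Dual.hom _ N (CoInd.val (Ω (y.1 u)) 1) n = (0 : ZMod p)
        rw [hyu, map_sub Ω, dualCoInd_smul, map_sub, Pi.sub_apply, CoInd.val_smul, mul_one,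
          show (u⁻¹ : GQ) = 1 * ((⟨u, hWmem huK⟩ : W)⁻¹ : W) by simp, CoInd.apply_mul, inv_inv,
          hN' ⟨u, hWmem huK⟩ huV, sub_self, map_zero]
        rfl
    have hvK : (v : GQ) ∈ K.fixingSubgroup := hfix.symm ▸ hv
    have h := hcn (v : GQ) hvK
    simp only [c, dif_pos hvK] at h
    exact h
  have : Finite N' := DFunLike.finite (N →+ ZMod p)
  have := T.finite_qg
  let : Fintype (QG W V) := Fintype.ofFinite _
  have hbB := mem_B1_of_zero_onG (T.not_dvd_card) (N := N') (dual_killed _ N) hb hzero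
  have hz0 : cls1 (LS S) (CoInd W N') z = 0 :=
    CoInd.shapiro_injective ((cls1_eq_zero_iff (c := CoInd.shapiroZ z)).mpr hbB |>.trans
      (map_zero _).symm)
  obtain ⟨a, ha⟩ := cls1_eq_zero_iff.mp hz0
  obtain ⟨a₀, rfl⟩ := (dualCoInd_bijective (W := W) hN).2 a
  refine ⟨a₀, fun g hg => (dualCoInd_bijective (p := p) (W := W) hN).1 ?_⟩
  rw [d0, map_sub, dualCoInd_smul]
  exact ha g hg

/-- Equivariant functions on places as families of fixed elements. -/
def funPlcEquiv (hV : TrivG W V N) :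
    letI := quoActG (W := W) (V := V) N hV
    h0Sub (QG W V) (FunMod (Plc S (V ⊓ W)) N) ≃
      (∀ v : Option S, h0Sub (decomp S v) (Res (decomp S v).subtype (CoInd W N))) :=
  letI := quoActG (W := W) (V := V) N hV
  { toFun := fun Φ v => ⟨Res.of _ _ (CoInd.mk
      (fun x => (Φ.1 : Plc S (V ⊓ W) → N) ⟨v,
          DoubleCoset.mk (V ⊓ W) (decomp S v) x⁻¹⟩) fun x c => by
        have h := congrFun (Φ.2 (qg W V c⁻¹)) ⟨v, DoubleCoset.mk (V ⊓ W) (decomp S v) (x * c)⁻¹⟩
        change qg W V c⁻¹ • (Φ.1 : Plc S (V ⊓ W) → N)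
          ((qg W V c⁻¹)⁻¹ • ⟨v, DoubleCoset.mk (V ⊓ W) (decomp S v) (x * c)⁻¹⟩) = _ at h
        rw [← h, quoActG_smul hV]
        refine congrArg (c⁻¹ • ·) (congrArg (Φ.1 : Plc S (V ⊓ W) → N) ?_)
        rw [← map_inv, inv_inv]
        refine Sigma.ext rfl (heq_of_eq ?_)
        show qg W V c • DoubleCoset.mk (V ⊓ W) (decomp S v) (x * c)⁻¹ = _
        rw [qg_smul_mk, mul_inv_rev, mul_inv_cancel_left]), fun d => CoInd.ext fun x => by
      show (Φ.1 : Plc S (V ⊓ W) → N) ⟨v, DoubleCoset.mk (V ⊓ W) (decomp S v) ((d : GQ)⁻¹ * x)⁻¹⟩ =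
        (Φ.1 : Plc S (V ⊓ W) → N) ⟨v, DoubleCoset.mk (V ⊓ W) (decomp S v) x⁻¹⟩
      refine congrArg _ (Sigma.ext rfl (heq_of_eq ?_))
      rw [DoubleCoset.eq]
      exact ⟨1, one_mem _, (d : GQ)⁻¹, inv_mem d.2, by group⟩⟩
    invFun := fun a => ⟨fun z => Quotient.liftOn z.2 (fun x => CoInd.val (W := W) (a z.1).1 x⁻¹)
        fun x y h => by
          obtain ⟨u, hu, d, hd, rfl⟩ := DoubleCoset.rel_iff.mp h
          have h1 := congrFun (congrArg (CoInd.val (W := W)) ((a z.1).2 ⟨d, hd⟩))
            (x⁻¹ * u⁻¹)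
          change CoInd.val (W := W) (a z.1).1 (d⁻¹ * (x⁻¹ * u⁻¹)) =
            CoInd.val (W := W) (a z.1).1 (x⁻¹ * u⁻¹) at h1
          show CoInd.val (W := W) (a z.1).1 x⁻¹ = CoInd.val (W := W) (a z.1).1 (u * x * d)⁻¹
          rw [mul_inv_rev, mul_inv_rev, h1,
            show x⁻¹ * u⁻¹ = x⁻¹ * ((⟨u, hu.2⟩ : W)⁻¹ : W) by simp, CoInd.apply_mul, inv_inv]
          exact (hV _ hu.1 _).symm,
      fun γ => funext fun z => by
        obtain ⟨w, rfl⟩ := QuotientGroup.mk'_surjective (V.subgroupOf W) γ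
        obtain ⟨v, z⟩ := z
        induction z using Quotient.inductionOn with
        | _ x =>
          show qg W V w • Quotient.liftOn
            ((qg W V w)⁻¹ • DoubleCoset.mk (V ⊓ W) (decomp S v) x) _ _ =
            CoInd.val (W := W) (a v).1 x⁻¹
          rw [quoActG_smul hV]
          have e : (qg W V w)⁻¹ • DoubleCoset.mk (V ⊓ W) (decomp S v) x =
              DoubleCoset.mk (V ⊓ W) (decomp S v) ((w : GQ)⁻¹ * x) := by
            rw [← map_inv, qg_smul_mk, Subgroup.coe_inv]
          simp only [e]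
          show w • CoInd.val (W := W) (a v).1 ((w : GQ)⁻¹ * x)⁻¹ = _
          rw [mul_inv_rev, inv_inv, CoInd.apply_mul, smul_inv_smul]⟩
    left_inv := fun Φ => Subtype.ext (funext fun ⟨v, z⟩ => by
      induction z using Quotient.inductionOn with
      | _ x =>
        show (Φ.1 : Plc S (V ⊓ W) → N) ⟨v, DoubleCoset.mk (V ⊓ W) (decomp S v) x⁻¹⁻¹⟩ = _
        rw [inv_inv])
    right_inv := fun a => funext fun v => Subtype.ext (CoInd.ext (W := W) fun x => by
      show CoInd.val (W := W) (a v).1 x⁻¹⁻¹ = _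
      rw [inv_inv]) }

omit hn [Finite N] in
/-- The functionals at a prime of `S` as fixed elements of the decomposition group. -/
lemma ldim_eqHom_place (v : S) :
    ldim p (eqHom (chiQ p) (localGaloisToGlobal ((v : Nat.Primes) : ℕ)) (CoInd W N)) =
      ldim p (h0Sub (decomp S (some v))
        (Res (decomp S (some v)).subtype (CoInd W (Dual ((chiQ p).comp W.subtype) N)))) := by
  rw [ldim_congr p
    (CoInd.eqHomEquiv (chiQ p) (localGaloisToGlobal ((v : Nat.Primes) : ℕ))).toEquiv]
  refine ldim_congr p (Equiv.subtypeEquivRight fun a => ⟨fun h d => ?_, fun h d => ?_⟩)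
  · obtain ⟨d', hd'⟩ := d.2
    have h2 : (localGaloisToGlobal ((v : Nat.Primes) : ℕ) d') •
        (show CoInd W (Dual ((chiQ p).comp W.subtype) N) from a) = a := h d'
    rw [hd'] at h2
    exact h2
  · exact h ⟨_, d, rfl⟩

include T in
/-- The Euler characteristic of a coinduced module of a layer vanishes. -/
theorem euler_coInd_eq_zero (T₀ : Setting p S U) (hUV : U ≤ V) (hV : TrivG W V N)
    (hN : ∀ n : N, p • n = 0) : euler p S (CoInd W N) = 0 := by
  have := T₀.normal
  have := T.finite_qg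
  let : Fintype (QG W V) := Fintype.ofFinite _
  have := T.finiteIndex
  have : (V ⊓ W).FiniteIndex := by rw [T.inf_eq]; infer_instance
  set χ' := (chiQ p).comp W.subtype
  set N' := Dual χ' N
  have : Finite N' := DFunLike.finite (N →+ ZMod p)
  have hN' : TrivG W V N' := trivG_dual T.le_ker hV
  let := quoActG (W := W) (V := V) N' hN'
  have hWL : W ∈ LS S := (LS S).mem_of_le T.level T.le
  have hgood : Good p U (CoInd W N) :=
    ⟨fun g hg a => CoInd.smul_eq_self T₀.normal (hUV.trans T.le) (fun v hv n => hV v (hUV hv) n)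
      hg a, CoInd.nsmul_eq_zero hN⟩
  have hsm : ((LS S).comap W.subtype).Smooth N := fun n =>
    ⟨V.comap W.subtype, (LS S).comap_mem _ T.level, fun s hs => hV s hs n⟩
  -- degree one
  have h1 : ldim p (H1 (LS S) (CoInd W N)) =
      ldim p (h0Sub (QG W V) (HomTw (MonoidHom.id (QG W V)) N' (Modp p (uStable W V S).Mod))) :=
    (ldim_congr p (Equiv.ofBijective _ (CoInd.shapiro_bijective hsm hWL))).trans
      (ldim_H1_eq_hom_units T hV hN)
  have hU := ldim_hom_units T (A := N') (dual_killed _ N)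
  -- the roots of unity give the fixed elements
  -- the local terms
  have : ∀ v : Option S, Finite (h0Sub (decomp S v) (Res (decomp S v).subtype (CoInd W N'))) :=
    fun v => Finite.of_injective (fun a => (a.1 : CoInd W N')) Subtype.val_injective
  have hplc := ldim_congr p (funPlcEquiv (S := S) (N := N') hN')
  rw [ldim_pi, Fintype.sum_option] at hplc
  have hv : ∀ v : S,
      ldim p (eqHom (chiQ p) (localGaloisToGlobal ((v : Nat.Primes) : ℕ)) (CoInd W N)) =
      ldim p
        (h0Sub (decomp S (some v)) (Res (decomp S (some v)).subtype (CoInd W N'))) :=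
    ldim_eqHom_place
  have hinf := ldim_eqHom_infinity T.hp2 (M := CoInd W N) (CoInd.nsmul_eq_zero hN)
  rw [ldim_congr p
    (CoInd.eqHomEquiv (chiQ p) (Subgroup.zpowers complexConjugation).subtype).toEquiv]
    at hinf
  have hid : ldim p (eqHom (chiQ p) (MonoidHom.id GQ) (CoInd W N)) = ldim p (h0Sub W N') :=
    CoInd.ldim_eqHom_id (chiQ p)
  have h0 : ldim p (h0Sub GQ (CoInd W N)) = ldim p (h0Sub W N) := ldim_congr p CoInd.h0Equiv.toEquiv
  have h2 := (T₀.h2 hgood).2
  have := subsingleton_shaH1 T hV hN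
  have hsha : ldim p (shaH1 (sDatum T₀.hp2 T₀.hpS) (CoInd W N)) = 0 := ldim_of_subsingleton p
  rw [hsha, hid, Finset.sum_congr rfl fun v _ => hv v] at h2
  rw [ldim_hom_mu T.le_ker hV hN, ldim_h0_quoActG p hN'] at hU
  have hinf' : ldim p (h0Sub (decomp S none) (Res (decomp S none).subtype (CoInd W N'))) +
      ldim p (infFixed (CoInd W N)) = ldim p (CoInd W N) := hinf
  simp only [euler]
  omega

end Layer

end FermatAgent.CFT.Euler
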