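import Mathlib

/-!
Exponents of cardinalities of finite groups along exact sequences.
-/

set_option autoImplicit false

namespace FermatAgent.CFT.Euler

/-- The exponent of `p` in the cardinality. -/
noncomputable def ldim (p : ℕ) (A : Type*) : ℕ := (Nat.card A).factorization p

variable (p : ℕ) {A B C : Type*}

/-- The exponent is invariant under bijections. -/
lemma ldim_congr (e : A ≃ B) : ldim p A = ldim p B := by rw [ldim, ldim, Nat.card_congr e]

/-- A trivial group has exponent zero. -/
lemma ldim_of_subsingleton [Nonempty A] [Subsingleton A] : ldim p A = 0 := by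
  rw [ldim, Nat.card_of_subsingleton (Classical.arbitrary A), Nat.factorization_one]; rfl

lemma ldim_prod [Finite A] [Finite B] [Nonempty A] [Nonempty B] :
    ldim p (A × B) = ldim p A + ldim p B := by
  rw [ldim, ldim, ldim, Nat.card_prod, Nat.factorization_mul Nat.card_pos.ne' Nat.card_pos.ne',
    Finsupp.add_apply]

/-- Exponents of finite products add. -/
lemma ldim_pi {ι : Type*} [Fintype ι] {F : ι → Type*} [∀ i, Finite (F i)] [∀ i, Nonempty (F i)] :
    ldim p (∀ i, F i) = ∑ i, ldim p (F i) := by
  rw [ldim, Nat.card_pi, Nat.factorization_prod fun i _ => Nat.card_pos.ne',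
    Finsupp.finsetSum_apply]
  rfl

variable [AddCommGroup A] [AddCommGroup B] [AddCommGroup C]

/-- An extension of finite groups is finite. -/
lemma finite_of_ker_range (f : A →+ B) (h1 : Finite f.ker) (h2 : Finite f.range) : Finite A := by
  have : Finite (A ⧸ f.ker) :=
    Finite.of_equiv _ (QuotientAddGroup.quotientKerEquivRange f).symm.toEquiv
  exact Finite.of_equiv _ (AddSubgroup.addGroupEquivQuotientProdAddSubgroup (s := f.ker)).symm

/-- The exponent is additive on kernel and image. -/
lemma ldim_eq_ker_add_range (f : A →+ B) [Finite A] :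
    ldim p A = ldim p f.ker + ldim p f.range := by
  have : Finite f.range := Finite.of_surjective _ f.rangeRestrict_surjective
  rw [← ldim_prod p]
  exact ldim_congr p ((AddSubgroup.addGroupEquivQuotientProdAddSubgroup (s := f.ker)).trans
    ((Equiv.prodCongr (QuotientAddGroup.quotientKerEquivRange f).toEquiv (Equiv.refl _)).trans
      (Equiv.prodComm _ _)))

/-- The exponent of the middle of an exact pair. -/
lemma ldim_of_exact [Finite B] (f : A →+ B) (g : B →+ C) (h : f.range = g.ker) :
    ldim p B = ldim p f.range + ldim p g.range := by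
  rw [ldim_eq_ker_add_range p g, h]

/-- An injective map preserves the exponent of its source. -/
lemma ldim_range_of_injective (f : A →+ B) (hf : Function.Injective f) :
    ldim p f.range = ldim p A :=
  ldim_congr p (AddMonoidHom.ofInjective hf).symm.toEquiv

/-- A surjection has image of full exponent. -/
lemma ldim_range_of_surjective (f : A →+ B) (hf : Function.Surjective f) :
    ldim p f.range = ldim p B := by
  rw [AddMonoidHom.range_eq_top.mpr hf]
  exact ldim_congr p AddSubgroup.topEquiv.toEquiv

/-- The exponent is additive on short exact sequences. -/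
lemma ldim_short [Finite B] (f : A →+ B) (g : B →+ C) (hf : Function.Injective f)
    (hg : Function.Surjective g) (h : f.range = g.ker) : ldim p B = ldim p A + ldim p C := by
  rw [ldim_of_exact p f g h, ldim_range_of_injective p f hf, ldim_range_of_surjective p g hg]

/-- The exponent is monotone along injections. -/
lemma ldim_le_of_injective [Finite B] (f : A →+ B) (hf : Function.Injective f) :
    ldim p A ≤ ldim p B := by
  rw [ldim_eq_ker_add_range p (QuotientAddGroup.mk' f.range), QuotientAddGroup.ker_mk',
    ldim_range_of_injective p f hf]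
  exact Nat.le_add_right _ _

/-- A group killed by `p` has exponent zero iff it is trivial. -/
lemma ldim_eq_zero_iff {p : ℕ} [hp : Fact p.Prime] [Finite A] (hA : ∀ a : A, p • a = 0) :
    ldim p A = 0 ↔ Subsingleton A := by
  refine ⟨fun h => ?_, fun h => ldim_of_subsingleton p⟩
  by_contra hne
  rw [not_subsingleton_iff_nontrivial] at hne
  obtain ⟨a, ha⟩ := exists_ne (0 : A)
  have h1 : addOrderOf a = p := addOrderOf_eq_prime (hA a) ha
  have h2 : p ∣ Nat.card A := h1 ▸ addOrderOf_dvd_natCard a
  exact (hp.out.factorization_pos_of_dvd Nat.card_pos.ne' h2).ne' h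

lemma card_eq_pow_ldim_aux {p : ℕ} [hp : Fact p.Prime] [Finite A] [Module (ZMod p) A] :
    Nat.card A = p ^ ldim p A := by
  have h := Module.natCard_eq_pow_finrank (K := ZMod p) (V := A)
  rw [Nat.card_zmod] at h
  rw [ldim, h, hp.out.factorization_pow, Finsupp.single_eq_same]

/-- For groups killed by `p` the cardinality is the power with that exponent. -/
lemma card_eq_pow_ldim {p : ℕ} [hp : Fact p.Prime] [Finite A] (hA : ∀ a : A, p • a = 0) :
    Nat.card A = p ^ ldim p A :=
  @card_eq_pow_ldim_aux A _ p hp _ (AddCommGroup.zmodModule hA)

end FermatAgent.CFT.Euler
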