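import Fermat.Agent.CFT.Coh.Lift
import Fermat.Agent.CFT.Euler.LogCard

/-!
Cohomology groups in degrees at most two as types, and the long exact sequence.

`H1` and `H2` are cocycles modulo coboundaries on levels. A short exact sequence `Ses` gives the
connecting maps `delta0` and `delta1`, defined by lifting cochains, and the exactness statements
through degree one and two. When the last map of `H²` is surjective the alternating sums of
dimensions add up (`euler_add`).
-/

set_option autoImplicit false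

noncomputable section

open scoped Classical

namespace FermatAgent.CFT.Euler

open Coh

variable {Γ : Type} [Group Γ]

/-- Fixed elements. -/
def h0Sub (Γ : Type) [Group Γ] (M : Type) [AddCommGroup M] [DistribMulAction Γ M] :
    AddSubgroup M where
  carrier := {m | ∀ g : Γ, g • m = m}
  zero_mem' g := smul_zero g
  add_mem' {a b} ha hb g := by rw [smul_add, ha g, hb g]
  neg_mem' {a} ha g := by rw [smul_neg, ha g]

section
variable (L : Levels Γ) (M : Type) [AddCommGroup M] [DistribMulAction Γ M]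

/-- The first cohomology group. -/
abbrev H1 : Type := ↥(L.Z1 ⊤ M) ⧸ (Levels.B1 (⊤ : Subgroup Γ) M).addSubgroupOf (L.Z1 ⊤ M)

/-- The second cohomology group. -/
abbrev H2 : Type := ↥(L.Z2 ⊤ M) ⧸ (L.B2 ⊤ M).addSubgroupOf (L.Z2 ⊤ M)

/-- The class of a cocycle of degree one. -/
def cls1 : ↥(L.Z1 ⊤ M) →+ H1 L M := QuotientAddGroup.mk' _

/-- The class of a cocycle of degree two. -/
def cls2 : ↥(L.Z2 ⊤ M) →+ H2 L M := QuotientAddGroup.mk' _

variable {L M}

/-- Every one-class comes from a cocycle. -/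
lemma cls1_surjective : Function.Surjective (cls1 L M) := QuotientAddGroup.mk'_surjective _

/-- Every two-class comes from a cocycle. -/
lemma cls2_surjective : Function.Surjective (cls2 L M) := QuotientAddGroup.mk'_surjective _

/-- A one-class vanishes iff the cocycle is a coboundary. -/
lemma cls1_eq_zero_iff {c : ↥(L.Z1 ⊤ M)} : cls1 L M c = 0 ↔ c.1 ∈ Levels.B1 (⊤ : Subgroup Γ) M :=
  QuotientAddGroup.eq_zero_iff _

/-- A two-class vanishes iff the cocycle is a coboundary. -/
lemma cls2_eq_zero_iff {c : ↥(L.Z2 ⊤ M)} : cls2 L M c = 0 ↔ c.1 ∈ L.B2 ⊤ M :=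
  QuotientAddGroup.eq_zero_iff _

/-- One-classes agree iff the cocycles differ by a coboundary. -/
lemma cls1_eq_iff {c c' : ↥(L.Z1 ⊤ M)} :
    cls1 L M c = cls1 L M c' ↔ c.1 - c'.1 ∈ Levels.B1 (⊤ : Subgroup Γ) M := by
  rw [← sub_eq_zero, ← map_sub, cls1_eq_zero_iff]; rfl

/-- Two-classes agree iff the cocycles differ by a coboundary. -/
lemma cls2_eq_iff {c c' : ↥(L.Z2 ⊤ M)} :
    cls2 L M c = cls2 L M c' ↔ c.1 - c'.1 ∈ L.B2 ⊤ M := by
  rw [← sub_eq_zero, ← map_sub, cls2_eq_zero_iff]; rfl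

lemma const1_d0 (hM : L.Smooth M) (U : Subgroup Γ) (a : M) : L.Const1 U (d0 a) := by
  obtain ⟨V, hV, hfix⟩ := hM a
  exact ⟨V, hV, fun g _ s hs => by rw [d0, d0, mul_smul, hfix s hs.2]⟩

/-- Principal crossed maps of a smooth module are cocycles. -/
lemma d0_mem_Z1 (hM : L.Smooth M) (U : Subgroup Γ) (a : M) : d0 a ∈ L.Z1 U M :=
  ⟨const1_d0 hM U a, fun g _ h _ => d1_d0 a g h⟩

/-- A hypothesis form of being killed by `p`. -/
lemma nsmul_H1_eq_zero {p : ℕ} (hM : ∀ m : M, p • m = 0) (x : H1 L M) : p • x = 0 := by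
  obtain ⟨c, rfl⟩ := cls1_surjective x
  rw [← map_nsmul, show p • c = 0 from Subtype.ext (funext fun g => hM (c.1 g)), map_zero]

/-- The second cohomology is killed by what kills the module. -/
lemma nsmul_H2_eq_zero {p : ℕ} (hM : ∀ m : M, p • m = 0) (x : H2 L M) : p • x = 0 := by
  obtain ⟨c, rfl⟩ := cls2_surjective x
  rw [← map_nsmul, show p • c = 0 from Subtype.ext (funext fun g => funext fun h => hM (c.1 g h)),
    map_zero]

end

section Maps

variable {L : Levels Γ} {A B : Type} [AddCommGroup A] [DistribMulAction Γ A] [AddCommGroup B]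
  [DistribMulAction Γ B] (f : A →+ B) (hf : ∀ (g : Γ) a, f (g • a) = g • f a)

/-- The map on fixed elements. -/
def h0Map : h0Sub Γ A →+ h0Sub Γ B :=
  (f.comp (h0Sub Γ A).subtype).codRestrict _ fun a g => by
    show g • f a.1 = f a.1
    rw [← hf, a.2 g]

@[simp] lemma h0Map_coe (a : h0Sub Γ A) : (h0Map f hf a).1 = f a.1 := rfl

/-- The map on cocycles of degree one. -/
def z1Map : ↥(L.Z1 ⊤ A) →+ ↥(L.Z1 ⊤ B) :=
  AddMonoidHom.mk' (fun c => ⟨fun g => f (c.1 g), Levels.map_mem_Z1 f (fun g _ => hf g) c.2⟩)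
    fun c c' => Subtype.ext (funext fun g => map_add f (c.1 g) (c'.1 g))

/-- The map on cocycles of degree two. -/
def z2Map : ↥(L.Z2 ⊤ A) →+ ↥(L.Z2 ⊤ B) :=
  AddMonoidHom.mk' (fun c => ⟨fun g h => f (c.1 g h), Levels.map_mem_Z2 f (fun g _ => hf g) c.2⟩)
    fun c c' => Subtype.ext (funext fun g => funext fun h => map_add f (c.1 g h) (c'.1 g h))

@[simp] lemma z1Map_apply (c : ↥(L.Z1 ⊤ A)) (g : Γ) : (z1Map f hf c).1 g = f (c.1 g) := rfl

@[simp] lemma z2Map_apply (c : ↥(L.Z2 ⊤ A)) (g h : Γ) : (z2Map f hf c).1 g h = f (c.1 g h) := rfl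

/-- The map on the first cohomology. -/
def h1Map : H1 L A →+ H1 L B :=
  QuotientAddGroup.map _ _ (z1Map f hf) fun c hc => by
    obtain ⟨a, ha⟩ := hc
    exact ⟨f a, fun g hg => by
      show f (c.1 g) = _
      rw [show c.1 g = d0 a g from ha g hg, d0, d0, map_sub, hf]⟩

/-- The map on the second cohomology. -/
def h2Map : H2 L A →+ H2 L B :=
  QuotientAddGroup.map _ _ (z2Map f hf) fun _ hc => Levels.map_mem_B2 f (fun g _ => hf g) hc

/-- The induced map on one-classes. -/
@[simp] lemma h1Map_cls (c : ↥(L.Z1 ⊤ A)) :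
    h1Map f hf (cls1 L A c) = cls1 L B (z1Map f hf c) := rfl

/-- The induced map on two-classes. -/
@[simp] lemma h2Map_cls (c : ↥(L.Z2 ⊤ A)) :
    h2Map f hf (cls2 L A c) = cls2 L B (z2Map f hf c) := rfl

end Maps

/-- A short exact sequence of modules. -/
structure Ses (Γ : Type) [Group Γ] (A B C : Type) [AddCommGroup A] [DistribMulAction Γ A]
    [AddCommGroup B] [DistribMulAction Γ B] [AddCommGroup C] [DistribMulAction Γ C] where
  /-- The injection. -/
  i : A →+ B
  /-- The surjection. -/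
  q : B →+ C
  i_smul : ∀ (g : Γ) a, i (g • a) = g • i a
  q_smul : ∀ (g : Γ) b, q (g • b) = g • q b
  inj : Function.Injective i
  surj : Function.Surjective q
  exact : ∀ b, q b = 0 ↔ ∃ a, i a = b

namespace Ses

variable {L : Levels Γ} {A B C : Type} [AddCommGroup A] [DistribMulAction Γ A]
  [AddCommGroup B] [DistribMulAction Γ B] [AddCommGroup C] [DistribMulAction Γ C] (E : Ses Γ A B C)

/-- The composite in an exact sequence is zero. -/
lemma q_i (a : A) : E.q (E.i a) = 0 := (E.exact _).mpr ⟨a, rfl⟩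

/-- The preimage in `A`. -/
def pre (b : B) : A := if h : ∃ a, E.i a = b then h.choose else 0

/-- Preimages of elements killed by the second map. -/
lemma i_pre {b : B} (h : E.q b = 0) : E.i (E.pre b) = b := by
  have h' := (E.exact b).mp h
  rw [pre, dif_pos h']
  exact h'.choose_spec

/-- A chosen lift. -/
def lift (c : C) : B := Function.surjInv E.surj c

/-- The chosen lift is a lift. -/
lemma q_lift (c : C) : E.q (E.lift c) = c := Function.surjInv_eq E.surj c

section Deg0

lemma q_d0 {b : B} (hc : ∀ g : Γ, g • E.q b = E.q b) (g : Γ) : E.q (d0 b g) = 0 := by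
  rw [d0, map_sub, E.q_smul, hc g, sub_self]

variable (hB : L.Smooth B)

/-- The cocycle attached to a lift of a fixed element. -/
def delta0Fun (b : B) (hc : ∀ g : Γ, g • E.q b = E.q b) : ↥(L.Z1 ⊤ A) :=
  ⟨fun g => E.pre (d0 b g), (const1_d0 hB ⊤ b).comp E.pre, fun g _ h _ => E.inj (by
    rw [map_zero, Levels.map_d1 E.i (E.i_smul g), ← d1_d0 b g h]
    simp only [d1, E.i_pre (E.q_d0 hc _)])⟩

/-- The connecting cochain of an invariant element. -/
lemma i_delta0Fun (b : B) (hc : ∀ g : Γ, g • E.q b = E.q b) (g : Γ) :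
    E.i ((E.delta0Fun hB b hc).1 g) = d0 b g := E.i_pre (E.q_d0 hc g)

lemma cls_delta0Fun_eq {b b' : B} (hc : ∀ g : Γ, g • E.q b = E.q b) (h : E.q b = E.q b') :
    cls1 L A (E.delta0Fun hB b hc) = cls1 L A (E.delta0Fun hB b' (h ▸ hc)) := by
  rw [cls1_eq_iff]
  obtain ⟨a, ha⟩ := (E.exact (b - b')).mp (by rw [map_sub, h, sub_self])
  refine ⟨a, fun g _ => E.inj ?_⟩
  rw [Pi.sub_apply, map_sub, E.i_delta0Fun, E.i_delta0Fun, d0, d0, d0, map_sub, E.i_smul, ha,
    smul_sub]
  abel

/-- The connecting map from fixed elements. -/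
def delta0 : h0Sub Γ C →+ H1 L A :=
  AddMonoidHom.mk' (fun c => cls1 L A (E.delta0Fun hB (E.lift c.1) (by rw [E.q_lift]; exact c.2)))
    fun c c' => by
      have h : E.q (E.lift (c + c').1) = E.q (E.lift c.1 + E.lift c'.1) :=
        (E.q_lift _).trans (by rw [map_add, E.q_lift, E.q_lift]; rfl)
      rw [E.cls_delta0Fun_eq hB _ h, ← map_add]
      refine congrArg _ (Subtype.ext (funext fun g => E.inj ?_))
      rw [E.i_delta0Fun, AddSubgroup.coe_add, Pi.add_apply, map_add, E.i_delta0Fun, E.i_delta0Fun,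
        d0, d0, d0, smul_add]
      abel

/-- The first connecting map on a lifted element. -/
lemma delta0_apply {b : B} (hc : ∀ g : Γ, g • E.q b = E.q b) :
    E.delta0 hB ⟨E.q b, hc⟩ = cls1 L A (E.delta0Fun hB b hc) :=
  E.cls_delta0Fun_eq hB _ (E.q_lift _)

/-- Invariants are left exact. -/
lemma h0_inj : Function.Injective (h0Map E.i E.i_smul) := fun _ _ h =>
  Subtype.ext (E.inj (congrArg Subtype.val h))

/-- Exactness at the invariants of the middle term. -/
lemma h0_exact : (h0Map E.i E.i_smul).range = (h0Map E.q E.q_smul).ker := by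
  ext b
  constructor
  · rintro ⟨a, rfl⟩; exact Subtype.ext (E.q_i a.1)
  · intro h
    obtain ⟨a, ha⟩ := (E.exact b.1).mp (congrArg Subtype.val h)
    exact ⟨⟨a, fun g => E.inj (by rw [E.i_smul, ha, b.2 g])⟩, Subtype.ext ha⟩

/-- Exactness at the invariants of the quotient. -/
lemma h0q_exact : (h0Map E.q E.q_smul).range = (E.delta0 hB).ker := by
  ext ⟨c, hc⟩
  constructor
  · rintro ⟨b, hb⟩
    obtain rfl : E.q b.1 = c := congrArg Subtype.val hb
    rw [AddMonoidHom.mem_ker, E.delta0_apply hB hc, cls1_eq_zero_iff]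
    exact ⟨0, fun g _ => E.inj (by rw [E.i_delta0Fun, d0, b.2 g, d0]; simp)⟩
  · intro h
    obtain ⟨b, rfl⟩ := E.surj c
    rw [AddMonoidHom.mem_ker, E.delta0_apply hB hc, cls1_eq_zero_iff] at h
    obtain ⟨a, ha⟩ := h
    refine ⟨⟨b - E.i a, fun g => ?_⟩, Subtype.ext (by simp [E.q_i])⟩
    have := congrArg E.i (ha g (Subgroup.mem_top g))
    rw [E.i_delta0Fun, d0, d0, map_sub, E.i_smul] at this
    rw [smul_sub, ← sub_eq_zero, ← sub_eq_zero.mpr this]
    abel

/-- Exactness at the first cohomology of the submodule. -/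
lemma delta0_exact : (E.delta0 hB).range = (h1Map (L := L) E.i E.i_smul).ker := by
  ext x
  constructor
  · rintro ⟨⟨c, hc⟩, rfl⟩
    obtain ⟨b, rfl⟩ := E.surj c
    rw [AddMonoidHom.mem_ker, E.delta0_apply hB hc, h1Map_cls, cls1_eq_zero_iff]
    exact ⟨b, fun g _ => E.i_delta0Fun hB b hc g⟩
  · intro h
    obtain ⟨z, rfl⟩ := cls1_surjective x
    rw [AddMonoidHom.mem_ker, h1Map_cls, cls1_eq_zero_iff] at h
    obtain ⟨b, hb⟩ := h
    have hc : ∀ g : Γ, g • E.q b = E.q b := fun g => by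
      rw [← sub_eq_zero, ← E.q_smul, ← map_sub]
      rw [show g • b - b = d0 b g from rfl, ← hb g (Subgroup.mem_top g)]
      exact E.q_i _
    refine ⟨⟨E.q b, hc⟩, ?_⟩
    rw [E.delta0_apply hB hc]
    exact congrArg _ (Subtype.ext (funext fun g => E.inj (by
      rw [E.i_delta0Fun]; exact (hb g (Subgroup.mem_top g)).symm)))

include hB in
/-- Exactness at the first cohomology of the middle term. -/
lemma h1_exact : (h1Map (L := L) E.i E.i_smul).range = (h1Map (L := L) E.q E.q_smul).ker := by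
  ext x
  constructor
  · rintro ⟨y, rfl⟩
    obtain ⟨z, rfl⟩ := cls1_surjective y
    rw [AddMonoidHom.mem_ker, h1Map_cls, h1Map_cls, cls1_eq_zero_iff]
    exact ⟨0, fun g _ => by simp [E.q_i, d0]⟩
  · intro h
    obtain ⟨z, rfl⟩ := cls1_surjective x
    rw [AddMonoidHom.mem_ker, h1Map_cls, cls1_eq_zero_iff] at h
    obtain ⟨c, hc⟩ := h
    set b := E.lift c
    have hq : ∀ g, E.q (z.1 g - d0 b g) = 0 := fun g => by
      rw [map_sub, show E.q (z.1 g) = _ from hc g (Subgroup.mem_top g), d0, d0, map_sub,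
        E.q_smul, E.q_lift,
        sub_self]
    have hz : (z.1 - d0 b) ∈ L.Z1 ⊤ B := sub_mem z.2 (d0_mem_Z1 hB ⊤ b)
    refine ⟨cls1 L A ⟨fun g => E.pre (z.1 g - d0 b g), hz.1.comp E.pre,
      fun g hg k hk => E.inj ?_⟩, ?_⟩
    · rw [map_zero, Levels.map_d1 E.i (E.i_smul g), ← hz.2 g hg k hk]
      simp only [d1, E.i_pre (hq _), Pi.sub_apply]
    · rw [h1Map_cls, cls1_eq_iff]
      refine ⟨-b, fun g _ => ?_⟩
      rw [Pi.sub_apply, z1Map_apply, E.i_pre (hq g)]
      simp only [d0, smul_neg]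
      abel

end Deg0

section Deg1

variable (hB : L.Smooth B)

lemma q_d1 {x : Γ → B} (hx : ∀ g h, d1 (fun k => E.q (x k)) g h = 0) (g h : Γ) :
    E.q (d1 x g h) = 0 := by rw [Levels.map_d1 E.q (E.q_smul g)]; exact hx g h

/-- The cocycle attached to a lift of a cocycle. -/
def delta1Fun (x : Γ → B) (hx : L.Const1 ⊤ x) (hq : ∀ g h, d1 (fun k => E.q (x k)) g h = 0) :
    ↥(L.Z2 ⊤ A) :=
  ⟨fun g h => E.pre (d1 x g h), (hx.d1 hB).comp E.pre, fun g _ h _ j _ => E.inj (by
    rw [map_zero, Levels.map_d2 E.i (E.i_smul g), ← d2_d1 x g h j]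
    simp only [d2, E.i_pre (E.q_d1 hq _ _)])⟩

/-- The connecting two-cochain of a lifted cocycle. -/
lemma i_delta1Fun (x : Γ → B) (hx : L.Const1 ⊤ x) (hq : ∀ g h, d1 (fun k => E.q (x k)) g h = 0)
    (g h : Γ) : E.i ((E.delta1Fun hB x hx hq).1 g h) = d1 x g h := E.i_pre (E.q_d1 hq g h)

lemma cls_delta1Fun_eq {x x' : Γ → B} (hx : L.Const1 ⊤ x) (hx' : L.Const1 ⊤ x')
    (hq : ∀ g h, d1 (fun k => E.q (x k)) g h = 0)
    (hq' : ∀ g h, d1 (fun k => E.q (x' k)) g h = 0) (c : C)
    (h : ∀ g, E.q (x g) - E.q (x' g) = d0 c g) :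
    cls2 L A (E.delta1Fun hB x hx hq) = cls2 L A (E.delta1Fun hB x' hx' hq') := by
  rw [cls2_eq_iff]
  set b := E.lift c
  have hd : ∀ g, E.q (x g - x' g - d0 b g) = 0 := fun g => by
    rw [map_sub, map_sub, h, d0, d0, map_sub, E.q_smul, E.q_lift, sub_self]
  refine ⟨fun g => E.pre (x g - x' g - d0 b g),
    ((hx.op hx' (· - ·)).op (const1_d0 hB ⊤ b) (· - ·)).comp E.pre, fun g _ k _ => E.inj ?_⟩
  rw [Pi.sub_apply, Pi.sub_apply, map_sub, E.i_delta1Fun, E.i_delta1Fun,
    Levels.map_d1 E.i (E.i_smul g)]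
  simp only [d1, E.i_pre (hd _)]
  simp only [d0, smul_sub, mul_smul]
  abel

/-- The connecting map on cocycles. -/
def delta1Z : ↥(L.Z1 ⊤ C) →+ H2 L A :=
  AddMonoidHom.mk' (fun z => cls2 L A (E.delta1Fun hB (fun g => E.lift (z.1 g)) (z.2.1.comp E.lift)
    (fun g h => by
      simp only [E.q_lift]; exact z.2.2 g (Subgroup.mem_top g) h (Subgroup.mem_top h))))
    fun z z' => by
      rw [E.cls_delta1Fun_eq hB (x' := fun g => E.lift (z.1 g) + E.lift (z'.1 g))
          (hx := _) (hx' := (z.2.1.comp E.lift).op (z'.2.1.comp E.lift) (· + ·)) (hq := _)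
          (hq' := fun g h => by
            simp only [map_add, E.q_lift]
            exact ((z + z').2.2 g (Subgroup.mem_top g) h (Subgroup.mem_top h))) (c := 0)
          (fun g => by simp [E.q_lift, d0]), ← map_add]
      refine congrArg _ (Subtype.ext (funext fun g => funext fun h => E.inj ?_))
      rw [E.i_delta1Fun, AddSubgroup.coe_add, Pi.add_apply, Pi.add_apply, map_add, E.i_delta1Fun,
        E.i_delta1Fun]
      exact d1_add _ _ g h

/-- The second connecting map computed with any lift. -/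
lemma delta1Z_apply (z : ↥(L.Z1 ⊤ C)) {x : Γ → B} (hx : L.Const1 ⊤ x) (h : ∀ g, E.q (x g) = z.1 g) :
    E.delta1Z hB z = cls2 L A (E.delta1Fun hB x hx (fun g k => by
      simp only [h]; exact z.2.2 g (Subgroup.mem_top g) k (Subgroup.mem_top k))) :=
  E.cls_delta1Fun_eq hB _ hx _ _ 0 fun g => by simp [E.q_lift, h, d0]

/-- The connecting map from the first cohomology. -/
def delta1 : H1 L C →+ H2 L A :=
  QuotientAddGroup.lift _ (E.delta1Z hB) fun z hz => by
    obtain ⟨c, hc⟩ := hz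
    rw [AddMonoidHom.mem_ker,
        E.delta1Z_apply hB z (x := d0 (E.lift c)) (const1_d0 hB ⊤ _) (fun g => by
      rw [show z.1 g = d0 c g from hc g (Subgroup.mem_top g), d0, d0, map_sub, E.q_smul, E.q_lift]),
      cls2_eq_zero_iff]
    exact ⟨0, Levels.const1_const 0, fun g _ k _ => E.inj (by
      rw [E.i_delta1Fun, d1_d0]; simp [d1])⟩

/-- The second connecting map on classes. -/
@[simp] lemma delta1_cls (z : ↥(L.Z1 ⊤ C)) : E.delta1 hB (cls1 L C z) = E.delta1Z hB z := rfl

/-- Exactness at the first cohomology of the quotient. -/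
lemma h1q_exact : (h1Map (L := L) E.q E.q_smul).range = (E.delta1 hB).ker := by
  ext x
  constructor
  · rintro ⟨y, rfl⟩
    obtain ⟨z, rfl⟩ := cls1_surjective y
    rw [AddMonoidHom.mem_ker, h1Map_cls, delta1_cls,
      E.delta1Z_apply hB _ (x := z.1) z.2.1 (fun _ => rfl), cls2_eq_zero_iff]
    exact ⟨0, Levels.const1_const 0, fun g hg k hk => E.inj (by
      rw [E.i_delta1Fun, z.2.2 g hg k hk]; simp [d1])⟩
  · intro h
    obtain ⟨z, rfl⟩ := cls1_surjective x
    rw [AddMonoidHom.mem_ker, delta1_cls, E.delta1Z_apply hB z (x := fun g => E.lift (z.1 g))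
      (z.2.1.comp E.lift) (fun _ => E.q_lift _), cls2_eq_zero_iff] at h
    obtain ⟨a, ha, hfa⟩ := h
    set y : Γ → B := fun g => E.lift (z.1 g) - E.i (a g)
    refine ⟨cls1 L B ⟨y, (z.2.1.comp E.lift).op ha (fun b a => b - E.i a), fun g hg k hk => ?_⟩, ?_⟩
    · have := congrArg E.i (hfa g hg k hk)
      rw [E.i_delta1Fun, Levels.map_d1 E.i (E.i_smul g)] at this
      show d1 ((fun g => E.lift (z.1 g)) - fun g => E.i (a g)) g k = 0
      rw [d1_sub, this, sub_self]
    · rw [h1Map_cls]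
      refine congrArg _ (Subtype.ext (funext fun g => ?_))
      simp [y, E.q_lift, E.q_i]

lemma delta1_exact : (E.delta1 hB).range = (h2Map (L := L) E.i E.i_smul).ker := by
  ext x
  constructor
  · rintro ⟨y, rfl⟩
    obtain ⟨z, rfl⟩ := cls1_surjective y
    rw [AddMonoidHom.mem_ker, delta1_cls, E.delta1Z_apply hB z (x := fun g => E.lift (z.1 g))
      (z.2.1.comp E.lift) (fun _ => E.q_lift _), h2Map_cls, cls2_eq_zero_iff]
    exact ⟨fun g => E.lift (z.1 g), z.2.1.comp E.lift, fun g _ k _ => E.i_delta1Fun hB _ _ _ g k⟩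
  · intro h
    obtain ⟨f, rfl⟩ := cls2_surjective x
    rw [AddMonoidHom.mem_ker, h2Map_cls, cls2_eq_zero_iff] at h
    obtain ⟨b, hb, hfb⟩ := h
    have hq : ∀ g k, d1 (fun j => E.q (b j)) g k = 0 := fun g k => by
      rw [← Levels.map_d1 E.q (E.q_smul g), ← hfb g (Subgroup.mem_top g) k (Subgroup.mem_top k)]
      exact E.q_i _
    refine ⟨cls1 L C ⟨fun g => E.q (b g), hb.comp E.q, fun g _ k _ => hq g k⟩, ?_⟩
    rw [delta1_cls, E.delta1Z_apply hB _ (x := b) hb (fun _ => rfl)]
    exact congrArg _ (Subtype.ext (funext fun g => funext fun k => E.inj (by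
      rw [E.i_delta1Fun]; exact (hfb g (Subgroup.mem_top g) k (Subgroup.mem_top k)).symm)))

include hB in
lemma h2_exact : (h2Map (L := L) E.i E.i_smul).range = (h2Map (L := L) E.q E.q_smul).ker := by
  ext x
  constructor
  · rintro ⟨y, rfl⟩
    obtain ⟨z, rfl⟩ := cls2_surjective y
    rw [AddMonoidHom.mem_ker, h2Map_cls, h2Map_cls, cls2_eq_zero_iff]
    exact ⟨0, Levels.const1_const 0, fun g _ k _ => by simp [E.q_i, d1]⟩
  · intro h
    obtain ⟨f, rfl⟩ := cls2_surjective x
    rw [AddMonoidHom.mem_ker, h2Map_cls, cls2_eq_zero_iff] at h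
    obtain ⟨e, he, hfe⟩ := Levels.exists_kernel_lift E.i E.q (fun g _ => E.i_smul g)
      (fun g _ => E.q_smul g) E.inj E.surj (fun b => (E.exact b).mp) hB f.2 h
    refine ⟨cls2 L A ⟨e, he⟩, ?_⟩
    rw [h2Map_cls, cls2_eq_iff]
    have := neg_mem hfe
    rwa [neg_sub] at this

end Deg1

/-- The alternating sum along the long exact sequence. -/
theorem euler_add (hB : L.Smooth B) (p : ℕ) [Finite B] [Finite (H1 L A)] [Finite (H1 L B)]
    [Finite (H1 L C)] [Finite (H2 L A)] [Finite (H2 L B)]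
    (hsurj : Function.Surjective (h2Map (L := L) E.q E.q_smul)) :
    ((ldim p (H1 L B) : ℤ) - ldim p (H2 L B) - ldim p (h0Sub Γ B)) =
      ((ldim p (H1 L A) : ℤ) - ldim p (H2 L A) - ldim p (h0Sub Γ A)) +
        ((ldim p (H1 L C) : ℤ) - ldim p (H2 L C) - ldim p (h0Sub Γ C)) := by
  have : Finite A := Finite.of_injective _ E.inj
  have : Finite C := Finite.of_surjective _ E.surj
  have e1 := ldim_range_of_injective p _ E.h0_inj
  have e2 := ldim_of_exact p _ _ E.h0_exact
  have e3 := ldim_of_exact p _ _ (E.h0q_exact hB)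
  have e4 := ldim_of_exact p _ _ (E.delta0_exact hB)
  have e5 := ldim_of_exact p _ _ (E.h1_exact hB)
  have e6 := ldim_of_exact p _ _ (E.h1q_exact hB)
  have e7 := ldim_of_exact p _ _ (E.delta1_exact hB)
  have e8 := ldim_of_exact p _ _ (E.h2_exact hB)
  have e9 := ldim_range_of_surjective p _ hsurj
  omega

end Ses

end FermatAgent.CFT.Euler
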