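import Fermat.Agent.CFT.Coh.Duality
import Fermat.Agent.CFT.Euler.Quot

/-!
The size of the second cohomology of a global duality datum, and right exactness.
-/

set_option autoImplicit false

noncomputable section

open scoped Classical

namespace FermatAgent.CFT.Euler

open Coh

variable {p : ℕ} [hp : Fact p.Prime]

/-- A nondegenerate pairing of representatives identifies the orders of the classes. -/
lemma card_descended {A₁ A₂ B₁ B₂ : Type} [AddCommGroup A₁] [AddCommGroup A₂] [AddCommGroup B₁]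
    [AddCommGroup B₂] [Finite B₁] (π₁ : A₁ →+ B₁) (hπ₁ : Function.Surjective π₁) (π₂ : A₂ →+ B₂)
    (hπ₂ : Function.Surjective π₂) (P : A₁ →+ A₂ →+ ZMod p)
    (h₁ : ∀ y, π₁ y = 0 → ∀ f, P y f = 0) (h₂ : ∀ f, π₂ f = 0 → ∀ y, P y f = 0)
    (n₁ : ∀ y, (∀ f, P y f = 0) → π₁ y = 0) (n₂ : ∀ f, (∀ y, P y f = 0) → π₂ f = 0)
    (hB₁ : ∀ b : B₁, p • b = 0) (hB₂ : ∀ b : B₂, p • b = 0) :
    Finite B₂ ∧ Nat.card B₂ = Nat.card B₁ := by
  obtain ⟨P', hP, hP'⟩ := exists_descended π₁ hπ₁ π₂ hπ₂ P h₁ h₂ n₁ n₂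
  have := DFunLike.finite (B₁ →+ ZMod p)
  have : Finite B₂ := Finite.of_injective _ hP'
  have := DFunLike.finite (B₂ →+ ZMod p)
  exact ⟨inferInstance, le_antisymm
    (by rw [← card_homZMod hB₁]; exact Nat.card_le_card_of_injective _ hP')
    (by rw [← card_homZMod hB₂]; exact Nat.card_le_card_of_injective _ hP)⟩

variable {Γ : Type} [Group Γ] {χ : Γ →* (ZMod p)ˣ} {L : Levels Γ} (D : GlobalDatum χ L)

/-- Right exactness in degree two from corestrictions being surjective. -/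
theorem h2Map_surjective {B C : Type} [AddCommGroup B] [DistribMulAction Γ B] [Module (ZMod p) B]
    [AddCommGroup C] [DistribMulAction Γ C] [Module (ZMod p) C] (φ : B →+ C)
    (hφ : ∀ (g : Γ) b, φ (g • b) = g • φ b) (hs : Function.Surjective φ) {U : Subgroup Γ}
    [U.FiniteIndex] (hB : ∀ g ∈ U, ∀ b : B, g • b = b)
    (hcor : (∀ g ∈ U, ∀ c : C, g • c = c) → CorSurj L U C) :
    Function.Surjective (h2Map (L := L) φ hφ) := by
  have hC : ∀ g ∈ U, ∀ c : C, g • c = c := fun g hg c => by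
    obtain ⟨b, rfl⟩ := hs c
    rw [← hφ, hB g hg]
  obtain ⟨s, hsec⟩ := (φ.toZModLinearMap p).exists_rightInverse_of_surjective
    (LinearMap.range_eq_top.mpr hs)
  have hsec' : ∀ c, φ (s c) = c := fun c => LinearMap.congr_fun hsec c
  let ν : Ind U C →+ Ind U B := AddMonoidHom.mk'
    (fun φ => Ind.mk U fun c => sec U c • s ((sec U c)⁻¹ • φ c))
    fun a b => Ind.ext fun c => by
      show sec U c • s ((sec U c)⁻¹ • (a c + b c)) = _
      rw [smul_add, map_add, smul_add]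
      rfl
  have hν : ∀ (g : Γ) (a : Ind U C), ν (g • a) = g • ν a := fun g a => Ind.ext fun c => by
    show sec U c • s ((sec U c)⁻¹ • (g • a (g⁻¹ • c))) =
      g • (sec U (g⁻¹ • c) • s ((sec U (g⁻¹ • c))⁻¹ • a (g⁻¹ • c)))
    have hu := secCocycle_mem U g c
    rw [← mul_smul, inv_sec_mul, mul_smul, hC _ hu, ← mul_smul g, mul_sec, mul_smul (sec U c),
      hB _ hu]
  have hφν : ∀ a : Ind U C, φ (Ind.total (ν a)) = Ind.total a := fun a => by
    rw [Ind.total_apply, Ind.total_apply, map_sum]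
    refine Finset.sum_congr rfl fun c _ => ?_
    show φ (sec U c • s ((sec U c)⁻¹ • a c)) = a c
    rw [hφ, hsec', smul_inv_smul]
  intro x
  obtain ⟨f, rfl⟩ := cls2_surjective x
  obtain ⟨F, hF, hFf⟩ := hcor hC f.1 f.2
  refine ⟨cls2 L B ⟨fun g k => Ind.total (ν (F g k)), Levels.map_mem_Z2 (Ind.total.comp ν)
    (fun g _ a => by rw [AddMonoidHom.comp_apply, hν, Ind.total_smul]; rfl) hF⟩, ?_⟩
  rw [h2Map_cls, cls2_eq_iff]
  exact Levels.B2_congr (neg_mem hFf) fun g _ k _ => by simp [hφν]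

variable (M : Type) [AddCommGroup M] [DistribMulAction Γ M]

/-- The locally trivial classes of degree one. -/
def shaH1 : AddSubgroup (H1 L (Dual χ M)) :=
  ((D.sha1 M).addSubgroupOf (L.Z1 ⊤ (Dual χ M))).map (cls1 L (Dual χ M))

/-- Evaluation of classes on families. -/
def evalMap : H2 L M →+ ((∀ v, eqHom χ (D.r v) M) →+ ZMod p) :=
  QuotientAddGroup.lift _ (AddMonoidHom.mk' (fun f : ↥(L.Z2 ⊤ M) => D.totalEval f.2)
    fun f f' => AddMonoidHom.ext fun e => by
      simp only [AddMonoidHom.add_apply, GlobalDatum.totalEval_apply, ← Finset.sum_add_distrib]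
      exact Finset.sum_congr rfl fun v _ => D.locEval_add v f.2 f'.2 (e v).2)
    fun f hf => by
      refine AddMonoidHom.ext fun e => ?_
      exact Finset.sum_eq_zero fun v _ => D.locEval_of_pull_mem_B2 v (D.pull_mem_B2 v hf) (e v).2

@[simp] lemma evalMap_cls (f : ↥(L.Z2 ⊤ M)) : evalMap D M (cls2 L M f) = D.totalEval f.2 := rfl

variable {M} [Module (ZMod p) M] [Finite M] {U : Subgroup Γ} (hUn : U.Normal) (hU : U ∈ L)
  (hUχ : U ≤ χ.ker) (hM : ∀ g ∈ U, ∀ m : M, g • m = m)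

include hUn hU hUχ hM in
lemma mem_sha2_of_evalMap_eq_zero {f : ↥(L.Z2 ⊤ M)} (h : evalMap D M (cls2 L M f) = 0) :
    f.1 ∈ D.sha2 M := by
  have := L.finiteIndex hU
  refine ⟨f.2, fun v => D.pull_mem_B2_of_locEval hUn hU hUχ hM v f.2 fun n hn => ?_⟩
  let e : ∀ w, eqHom χ (D.r w) M := Pi.single v ⟨n, hn⟩
  have h1 := DFunLike.congr_fun h e
  rw [evalMap_cls, GlobalDatum.totalEval_apply, Finset.sum_eq_single v] at h1
  · simpa [e] using h1
  · intro w _ hw
    rw [show (e w).1 = 0 by simp [e, hw]]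
    exact D.locEval_zero_right w f.2
  · simp

include hUn hU hUχ hM in
/-- Every functional trivial on global ones is an evaluation. -/
lemma exists_evalMap_eq (θ : (∀ v, eqHom χ (D.r v) M) →+ ZMod p) (hθ : ∀ n, θ (D.diag n) = 0) :
    ∃ x, evalMap D M x = θ := by
  have := L.finiteIndex hU
  obtain ⟨G, hG, hGθ⟩ := D.exists_totalEval_eq_of_diag hUn hU hUχ hM θ hθ
  exact ⟨cls2 L M ⟨G, hG⟩, hGθ⟩

section
omit [Module (ZMod p) M] [Finite M]

lemma diag_injective : Function.Injective (D.diag (M := M)) := fun n n' h => by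
  obtain ⟨v⟩ := D.nonemptyι
  exact Subtype.ext (congrArg Subtype.val (congrFun h v) :)

lemma evalMap_diag (x : H2 L M) (n : eqHom χ (MonoidHom.id Γ) M) :
    evalMap D M x (D.diag n) = 0 := by
  obtain ⟨f, rfl⟩ := cls2_surjective x
  exact D.sum_locEval_eq_zero f.2 n.2

variable (M) in
/-- Classes of locally trivial cocycles of degree one. -/
def sha1Cls : D.sha1 M →+ shaH1 D M :=
  AddMonoidHom.mk' (fun y => ⟨cls1 L _ ⟨y.1, y.2.1⟩, AddSubgroup.mem_map.mpr ⟨_, y.2, rfl⟩⟩)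
    fun y y' => Subtype.ext (map_add (cls1 L (Dual χ M)) ⟨y.1, y.2.1⟩ ⟨y'.1, y'.2.1⟩)

variable (M) in
lemma sha1Cls_surjective : Function.Surjective (sha1Cls D M) := fun ⟨x, hx⟩ => by
  obtain ⟨z, hz, rfl⟩ := AddSubgroup.mem_map.mp hx
  exact ⟨⟨z.1, hz⟩, rfl⟩

variable (M) in
lemma sha1Cls_eq_zero_iff {y : D.sha1 M} :
    sha1Cls D M y = 0 ↔ y.1 ∈ Levels.B1 ⊤ (Dual χ M) :=
  Subtype.ext_iff.trans cls1_eq_zero_iff

lemma sha2_mem_ker (f : D.sha2 M) : cls2 L M ⟨f.1, f.2.1⟩ ∈ (evalMap D M).ker :=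
  AddMonoidHom.ext fun e =>
    Finset.sum_eq_zero fun v _ => D.locEval_of_pull_mem_B2 v (f.2.2 v) (e v).2

end

/-- Classes of locally trivial cocycles of degree two. -/
def sha2Cls : D.sha2 M →+ (evalMap D M).ker :=
  AddMonoidHom.mk' (fun f => ⟨cls2 L M ⟨f.1, f.2.1⟩, sha2_mem_ker D f⟩)
    fun f f' => Subtype.ext (map_add (cls2 L M) ⟨f.1, f.2.1⟩ ⟨f'.1, f'.2.1⟩)

include hUn hU hUχ hM in
lemma sha2Cls_surjective : Function.Surjective (sha2Cls D (M := M)) := fun ⟨x, hx⟩ => by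
  obtain ⟨z, rfl⟩ := cls2_surjective x
  exact ⟨⟨z.1, mem_sha2_of_evalMap_eq_zero D hUn hU hUχ hM hx⟩, rfl⟩

omit [Finite M] [Module (ZMod p) M] in
lemma sha2Cls_eq_zero_iff {f : D.sha2 M} :
    sha2Cls D f = 0 ↔ f.1 ∈ L.B2 ⊤ M :=
  Subtype.ext_iff.trans cls2_eq_zero_iff

include hUn hU hUχ hM in
lemma ldim_range_evalMap :
    Finite (evalMap D M).range ∧
      ldim p (evalMap D M).range + ldim p (eqHom χ (MonoidHom.id Γ) M) =
        ∑ v, ldim p (eqHom χ (D.r v) M) := by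
  have : Finite (M →+ ZMod p) := DFunLike.finite _
  have := DFunLike.finite ((∀ v, eqHom χ (D.r v) M) →+ ZMod p)
  refine ⟨inferInstance, ?_⟩
  set q := QuotientAddGroup.mk' (D.diag (M := M)).range
  have hq0 : ∀ n, q (D.diag n) = 0 := fun n => (QuotientAddGroup.eq_zero_iff _).mpr ⟨n, rfl⟩
  let R : (evalMap D M).range ≃ (((∀ v, eqHom χ (D.r v) M) ⧸ (D.diag (M := M)).range) →+ ZMod p) :=
    { toFun := fun θ => QuotientAddGroup.lift _ θ.1 fun e he => by
        obtain ⟨n, rfl⟩ := he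
        obtain ⟨x, hx⟩ := θ.2
        rw [AddMonoidHom.mem_ker, ← hx]
        exact evalMap_diag D x n
      invFun := fun θ => ⟨θ.comp q, exists_evalMap_eq D hUn hU hUχ hM _ fun n => by
        rw [AddMonoidHom.comp_apply, hq0, map_zero]⟩
      left_inv := fun θ => Subtype.ext (AddMonoidHom.ext fun e => rfl)
      right_inv := fun θ => AddMonoidHom.ext fun x => by
        obtain ⟨e, rfl⟩ := QuotientAddGroup.mk'_surjective _ x
        rfl }
  have hr : Nat.card (evalMap D M).range =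
      Nat.card ((∀ v, eqHom χ (D.r v) M) ⧸ (D.diag (M := M)).range) := by
    rw [Nat.card_congr R, card_homZMod fun x => by
      obtain ⟨x, rfl⟩ := QuotientAddGroup.mk'_surjective _ x
      rw [← map_nsmul, D.nsmul_family_eq_zero, map_zero]]
  have e2 := ldim_short p (D.diag (M := M)) q (diag_injective D) (QuotientAddGroup.mk'_surjective _)
    (QuotientAddGroup.ker_mk' _).symm
  rw [ldim_pi] at e2
  have e4 : ldim p (evalMap D M).range =
      ldim p ((∀ v, eqHom χ (D.r v) M) ⧸ (D.diag (M := M)).range) := by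
    rw [ldim, ldim, hr]
  omega

include hUn hU hUχ hM in
/-- Finiteness and size of the second cohomology. -/
theorem finite_H2_and_ldim [Finite (H1 L (Dual χ M))] :
    Finite (H2 L M) ∧
      ldim p (H2 L M) + ldim p (eqHom χ (MonoidHom.id Γ) M) =
        (∑ v, ldim p (eqHom χ (D.r v) M)) + ldim p (shaH1 D M) := by
  have := L.finiteIndex hU
  have : Finite (M →+ ZMod p) := DFunLike.finite _
  have hS : L.Smooth M := smooth_of_trivial_on hU hM
  have hMp : ∀ m : M, p • m = 0 := fun m => by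
    rw [← Nat.cast_smul_eq_nsmul (ZMod p), ZMod.natCast_self, zero_smul]
  have hDp : ∀ n : Dual χ M, p • n = 0 := fun n => AddMonoidHom.ext fun m => by
    show p • Dual.hom χ M n m = 0
    rw [nsmul_eq_mul, ZMod.natCast_self, zero_mul]
  obtain ⟨hfin, hcard⟩ := card_descended (sha1Cls D M) (sha1Cls_surjective D M)
    (sha2Cls D) (sha2Cls_surjective D hUn hU hUχ hM) (D.pairing hS)
    (fun y hy f => D.pairing_eq_zero_of_mem_B1 hS y f ((sha1Cls_eq_zero_iff D M).mp hy))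
    (fun f hf y => D.pairing_eq_zero_of_mem_B2 hS y f ((sha2Cls_eq_zero_iff D).mp hf))
    (fun y h => (sha1Cls_eq_zero_iff D M).mpr (D.mem_B1_of_pairing hS y h))
    (fun f h => (sha2Cls_eq_zero_iff D).mpr (D.mem_B2_of_pairing hS f h))
    (fun y => Subtype.ext (nsmul_H1_eq_zero (M := Dual χ M) hDp y.1))
    (fun x => Subtype.ext (nsmul_H2_eq_zero hMp x.1))
  obtain ⟨hr1, hr⟩ := ldim_range_evalMap D hUn hU hUχ hM
  have : Finite (H2 L M) := finite_of_ker_range (evalMap D M) hfin hr1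
  refine ⟨inferInstance, ?_⟩
  have e1 := ldim_eq_ker_add_range p (evalMap D M)
  have e3 : ldim p (evalMap D M).ker = ldim p (shaH1 D M) := by rw [ldim, ldim, hcard]
  omega

end FermatAgent.CFT.Euler
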