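import Fermat.Agent.CFT.Euler.Formula

/-!
Finite coefficient modules trivial on a level and killed by a prime, and finiteness of their
cocycles of degree one from finiteness of the characters of the level which occur.
-/

set_option autoImplicit false

noncomputable section

open scoped Classical

namespace FermatAgent.CFT.Euler

open Coh

variable {p : ℕ} [hp : Fact p.Prime] {Γ : Type} [Group Γ] {U : Subgroup Γ}

/-- The modules considered: trivial on the level, killed by `p`. -/
structure Good (p : ℕ) (U : Subgroup Γ) (M : Type) [AddCommGroup M] [DistribMulAction Γ M] :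
    Prop where
  triv : ∀ g ∈ U, ∀ m : M, g • m = m
  killed : ∀ m : M, p • m = 0

/-- The dual is killed by `p`. -/
lemma dual_killed (χ : Γ →* (ZMod p)ˣ) (M : Type) [AddCommGroup M] [DistribMulAction Γ M]
    (n : Dual χ M) : p • n = 0 :=
  AddMonoidHom.ext fun m => by
    show p • Dual.hom χ M n m = 0
    rw [nsmul_eq_mul, ZMod.natCast_self, zero_mul]

/-- The dual of a good module is good. -/
lemma Good.dual {χ : Γ →* (ZMod p)ˣ} {M : Type} [AddCommGroup M] [DistribMulAction Γ M]
    (hM : Good p U M) (hχ : U ≤ χ.ker) : Good p U (Dual χ M) where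
  triv g hg n := AddMonoidHom.ext fun m => by
    show (χ g : ZMod p) * Dual.hom _ M n (g⁻¹ • m) = Dual.hom _ M n m
    rw [show χ g = 1 from hχ hg, Units.val_one, one_mul, hM.triv _ (inv_mem hg)]
  killed := dual_killed _ M

omit hp in
/-- Submodules of good modules are good. -/
lemma Good.of_injective {M N : Type} [AddCommGroup M] [DistribMulAction Γ M] [AddCommGroup N]
    [DistribMulAction Γ N] (hN : Good p U N) (i : M →+ N) (hi : Function.Injective i)
    (hs : ∀ (g : Γ) m, i (g • m) = g • i m) : Good p U M where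
  triv g hg m := hi (by rw [hs, hN.triv g hg])
  killed m := hi (by rw [map_nsmul, hN.killed, map_zero])

omit hp in
/-- Quotients of good modules are good. -/
lemma Good.of_surjective {M N : Type} [AddCommGroup M] [DistribMulAction Γ M] [AddCommGroup N]
    [DistribMulAction Γ N] (hM : Good p U M) (q : M →+ N) (hq : Function.Surjective q)
    (hs : ∀ (g : Γ) m, q (g • m) = g • q m) : Good p U N where
  triv g hg n := by
    obtain ⟨m, rfl⟩ := hq n
    rw [← hs, hM.triv g hg]
  killed n := by
    obtain ⟨m, rfl⟩ := hq n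
    rw [← map_nsmul, hM.killed, map_zero]

/-- There are only finitely many cocycles of degree one if only finitely many characters of the
level occur in them. -/
theorem finite_Z1_of_finite_chars {L : Levels Γ} [U.FiniteIndex] {M : Type} [AddCommGroup M]
    [DistribMulAction Γ M] [Finite M] (hM : Good p U M) {C : Set (U → ZMod p)} (hC : C.Finite)
    (hchar : ∀ c ∈ L.Z1 ⊤ M, ∀ n : M →+ ZMod p, (fun g : U => n (c g)) ∈ C) :
    Finite ↥(L.Z1 ⊤ M) := by
  let : Module (ZMod p) M := AddCommGroup.zmodModule hM.killed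
  have := hC.to_subtype
  have : Finite (Γ ⧸ U) := Subgroup.finite_quotient_of_finiteIndex
  have : Finite (M →+ ZMod p) := DFunLike.finite _
  let Φ : ↥(L.Z1 ⊤ M) → (Γ ⧸ U → M) × ((M →+ ZMod p) → C) :=
    fun c => (fun x => c.1 x.out, fun n => ⟨_, hchar c.1 c.2 n⟩)
  have hΦ : Function.Injective Φ := fun c c' h => Subtype.ext (funext fun g => by
    set r := ((g : Γ) : Γ ⧸ U).out
    have hu : r⁻¹ * g ∈ U := by rw [← QuotientGroup.eq, QuotientGroup.out_eq']
    have h1 : c.1 r = c'.1 r := congrFun (congrArg Prod.fst h) _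
    have h2 : c.1 (r⁻¹ * g) = c'.1 (r⁻¹ * g) := by
      refine sub_eq_zero.mp ((Module.forall_dual_apply_eq_zero_iff (ZMod p) _).mp fun φ => ?_)
      have := congrFun (congrArg Subtype.val (congrFun (congrArg Prod.snd h) φ.toAddMonoidHom))
        ⟨_, hu⟩
      rw [map_sub, sub_eq_zero]
      exact this
    rw [show g = r * (r⁻¹ * g) by group, Levels.Z1_apply_mul c.2 trivial trivial,
      Levels.Z1_apply_mul c'.2 trivial trivial, h1, h2])
  exact Finite.of_injective Φ hΦ

omit hp in
/-- A function unchanged by adding multiples of `p` has finite range on a subgroup finite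
modulo `p`. -/
lemma finite_range_of_nsmul {A X : Type} [AddCommGroup A] (V : AddSubgroup A) (f : A → X)
    [Finite (↥V ⧸ (V.map (nsmulAddMonoidHom p)).addSubgroupOf V)]
    (hf : ∀ a ∈ V, ∀ c ∈ V, f (a + p • c) = f a) : (Set.range fun a : V => f a).Finite := by
  refine (Set.finite_range fun x : ↥V ⧸ (V.map (nsmulAddMonoidHom p)).addSubgroupOf V =>
    f x.out).subset ?_
  rintro _ ⟨a, rfl⟩
  refine ⟨QuotientAddGroup.mk a, ?_⟩
  obtain ⟨h, hh⟩ := QuotientAddGroup.mk_out_eq_add ((V.map (nsmulAddMonoidHom p)).addSubgroupOf V) a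
  obtain ⟨c, hc, hce⟩ := AddSubgroup.mem_addSubgroupOf.mp h.2
  show f _ = f a
  rw [hh, AddSubgroup.coe_add, show ((h : V) : A) = p • c from hce.symm]
  exact hf a a.2 c hc

end FermatAgent.CFT.Euler
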