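import Fermat.Agent.CFT.Euler.Good
import Fermat.Agent.CFT.Global.SKill
import Fermat.Agent.CFT.Global.SInvariants

/-!
Kummer theory for the units outside a finite set of rational primes: the characters unramified
outside the set.
-/

set_option autoImplicit false

noncomputable section

open scoped Classical
open IntermediateField

namespace FermatAgent.CFT.Euler

open Coh Local GaloisBasic Global

variable {p : ℕ} [hp : Fact p.Prime] {S : Finset Nat.Primes} {K : IntermediateField ℚ Qbar}
  [FiniteDimensional ℚ K]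

variable (hζK : zet p ∈ K)

/-- A unit with trivial Kummer function is a power. -/
lemma exists_nsmul_of_unitKum_eq_zero {T : Set (PK K)} {a : GM} (ha : a ∈ tUnits K T)
    (h : ∀ g ∈ K.fixingSubgroup, kum (zet_spec p) a g = 0) : ∃ c ∈ tUnits K T, p • c = a := by
  have ha' := tUnits_le K T ha
  have hy : pRoot p a ∈ starK K := fun g hg => by
    rw [← sub_eq_zero, kum_spec (zet_spec p) ha' hg, h g hg, ZMod.val_zero, zero_smul]
  refine ⟨_, mem_tUnits.mpr ⟨hy, fun P hP => ?_⟩, nsmul_pRoot a⟩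
  have h1 := (mem_tUnits.mp ha).2 P hP
  have h2 : ordHom K (p • ⟨_, hy⟩) P = 0 := by
    rw [show (p • (⟨_, hy⟩ : ↥(starK K))) = ⟨a, ha'⟩ from Subtype.ext (nsmul_pRoot a)]
    exact h1
  rw [map_nsmul, Pi.smul_apply, ordHom_apply, nsmul_eq_mul, mul_eq_zero] at h2
  exact h2.resolve_left (Nat.cast_ne_zero.mpr hp.out.ne_zero)

variable (hpS : ExtCitation.pPrime p ∈ S) (hK : K.IsUnramifiedOutside S)

include hζK hpS hK in
/-- Kummer functions of units outside `S` are constant modulo a level. -/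
lemma exists_level_unitKum {a : GM} (ha : a ∈ tUnits K (above K S : Set (PK K))) :
    ∃ V ∈ LS S, ∀ w ∈ K.fixingSubgroup, ∀ s ∈ V, s ∈ K.fixingSubgroup →
      kum (zet_spec p) a (w * s) = kum (zet_spec p) a w := by
  have ha' := tUnits_le K _ ha
  obtain ⟨M', hM', -, hy⟩ := exists_field_of_pth hpS hK (y := pRoot p a)
    (by rwa [nsmul_pRoot]) fun q hq g => by
      have : Fact (q : ℕ).Prime := ⟨q.2⟩
      refine ⟨0, ?_⟩
      have hP : primeAt K (q : ℕ) g ∉ above K S := fun h => hq (by
        have e : qP (primeAt K (q : ℕ) g) = q :=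
          Subtype.ext ((isPoint_primeAt (K := K)).prime_eq (isPoint_gOf _))
        exact e ▸ mem_above.mp h)
      rw [nsmul_pRoot, mul_zero, ← (mem_tUnits.mp ha).2 _ (fun h => hP (by exact_mod_cast h))]
      exact hasOrd_ordP hK hq g ha'
  refine ⟨M'.fixingSubgroup, fixingSubgroup_mem_LS hM', fun w hw s hs hsK => ?_⟩
  refine kum_eq_of_root (zet_spec p) (smul_zetaUx _ hζK) (y := pRoot p a) ha'
    (nsmul_pRoot a) (mul_mem hw hsK) ?_
  rw [mul_smul, hy s hs, kum_spec (zet_spec p) ha' hw]

include hζK hpS hK in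
/-- Every character unramified outside `S` comes from a unit outside `S`. -/
theorem exists_unit_of_char (hgen : PrincipalOutside (above K S)) (c : GQ → ZMod p)
    (hc : ∀ g ∈ K.fixingSubgroup, ∀ h ∈ K.fixingSubgroup, c (g * h) = c g + c h)
    (hlev : ∃ V ∈ LS S, ∀ g ∈ K.fixingSubgroup, ∀ s ∈ V, s ∈ K.fixingSubgroup → c (g * s) = c g) :
    ∃ a ∈ tUnits K (above K S : Set (PK K)), ∀ g ∈ K.fixingSubgroup,
      c g = kum (zet_spec p) a g := by
  have : NeZero p := ⟨hp.out.ne_zero⟩
  by_cases h0 : ∀ g ∈ K.fixingSubgroup, c g = 0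
  · refine ⟨0, zero_mem _, fun g hg => ?_⟩
    rw [h0 g hg, ← kum_nsmul (zet_spec p) (smul_zetaUx _ hζK) (zero_mem (starK K)) hg, smul_zero]
  push Not at h0
  obtain ⟨V, hV, hcV⟩ := hlev
  set α : CycChar LQ K.fixingSubgroup p :=
    ⟨c, hc, ⟨V, LS_le hV, fun g hg s hs => hcV g hg s hs.2 hs.1⟩⟩
  obtain ⟨σ₀, hσ₀, hne⟩ := h0
  have hσ1 : α (σ₀ ^ (α σ₀)⁻¹.val) = 1 := by
    rw [α.map_pow hσ₀, ZMod.natCast_zmod_val, inv_mul_cancel₀ hne]
  have hP0 : qP (primeAt K p 1) = ExtCitation.pPrime p :=
    Subtype.ext ((isPoint_primeAt (K := K)).prime_eq (isPoint_gOf _))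
  have hgood : GoodSet α (above K S) := ⟨⟨primeAt K p 1, mem_above.mpr (hP0 ▸ hpS)⟩, hgen,
    fun P hP y hy => by
      set M := fixedField V ⊔ K
      have hM : M.IsUnramifiedOutside S := (isUnramifiedOutside_of_mem hV).sup hK
      obtain ⟨m, hm, hker⟩ := exists_unramChar_ker_le hM (q := qOf P)
        (fun h => hP (mem_above.mpr h)) (le_sup_right : K ≤ M) (gOf P)
      have := hm
      have hmem : y.val ∈ unramField (locK P) m := exists_apply_eq_of_mem _ fun d hd => by
        rw [← ker_unramChar] at hd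
        refine congrArg Ux.val (hy d ⟨hd.1, ?_⟩)
        show c (locHom (qOf P) (gOf P) d) = 0
        have hdM := hker hd
        rw [fixingSubgroup_locField, Subgroup.mem_comap] at hdM
        have hdV : locHom (qOf P) (gOf P) d ∈ V := by
          rw [← fixingSubgroup_fixedField_of_mem (LS_le hV)]
          exact fixingSubgroup_antitone le_sup_left hdM
        have := hcV 1 (one_mem _) _ hdV (fixingSubgroup_antitone le_sup_right hdM)
        rwa [one_mul, show c 1 = 0 from α.map_one] at this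
      obtain ⟨t, ht, htn⟩ := exists_norm_eq_of_unramField (locK P) m hmem
      have ht0 : t ≠ 0 := fun h => y.val_ne_zero (norm_eq_zero.mp (by rw [← htn, h, norm_zero]))
      exact ⟨Ux.mk t ht0, mem_fixedUx_fixingSubgroup.mpr ht, htn⟩⟩
  obtain ⟨y, hy, hyT⟩ := exists_isKummer_tUnit (zet_spec p) hζK (pow_mem hσ₀ _) hσ1 hgood
  exact ⟨p • y, hyT, fun g hg =>
    (kum_eq_of_root (zet_spec p) (smul_zetaUx _ hζK) (y := y) (tUnits_le K _ hyT) rfl hg
      (hy g hg)).symm⟩

include hζK in
/-- There are only finitely many Kummer functions of units outside `S`. -/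
lemma finite_range_unitKum :
    (Set.range fun a : ↥(tUnits K (above K S : Set (PK K))) =>
      fun g : K.fixingSubgroup => kum (zet_spec p) a.1 g.1).Finite := by
  set U := tUnits K (above K S : Set (PK K))
  have : ((U.map (nsmulAddMonoidHom p)).addSubgroupOf U).FiniteIndex := ⟨by
    rw [show ((U.map (nsmulAddMonoidHom p)).addSubgroupOf U).index = _ from
      pIndex_tUnits_eq (zet_spec p) hζK (above K S)]
    exact pow_ne_zero _ hp.out.ne_zero⟩
  have := AddSubgroup.finite_quotient_of_finiteIndex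
    (H := (U.map (nsmulAddMonoidHom p)).addSubgroupOf U)
  refine finite_range_of_nsmul (p := p) U
    (fun a => fun g : K.fixingSubgroup => kum (zet_spec p) a g.1)
    fun a ha c hc => funext fun g => ?_
  have hc' := tUnits_le K _ hc
  show kum (zet_spec p) (a + p • c) g.1 = kum (zet_spec p) a g.1
  rw [kum_add (zet_spec p) (smul_zetaUx _ hζK) (tUnits_le K _ ha) (nsmul_mem hc' p) g.2,
    kum_nsmul (zet_spec p) (smul_zetaUx _ hζK) hc' g.2, add_zero]

omit hζK in
include hpS hK in
/-- There are only finitely many cocycles of degree one. -/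
theorem finite_Z1 (hζK : zet p ∈ K) (hgen : PrincipalOutside (above K S)) {M : Type}
    [AddCommGroup M]
    [DistribMulAction GQ M] [Finite M] (hM : ∀ g ∈ K.fixingSubgroup, ∀ m : M, g • m = m)
    (hMp : ∀ m : M, p • m = 0) : Finite ↥((LS S).Z1 ⊤ M) := by
  have : K.fixingSubgroup.FiniteIndex := LQ.finiteIndex (fixingSubgroup_mem_galLevels K)
  refine finite_Z1_of_finite_chars (p := p) ⟨hM, hMp⟩ (finite_range_unitKum (S := S) hζK)
    fun c hc n => ?_
  obtain ⟨a, ha, he⟩ := exists_unit_of_char hζK hpS hK hgen (fun g => n (c g))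
    (fun g hg h _ => by
      rw [Levels.Z1_apply_mul hc (Subgroup.mem_top g) (Subgroup.mem_top h), hM g hg, map_add,
        add_comm])
    (by
      obtain ⟨V, hV, hcV⟩ := hc.1
      exact ⟨V, hV, fun g _ s hs _ => congrArg n (hcV g trivial s ⟨trivial, hs⟩)⟩)
  exact ⟨⟨a, ha⟩, funext fun g => (he g.1 g.2).symm⟩

end FermatAgent.CFT.Euler
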