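import Fermat.Agent.CFT.Euler.UnitMod
import Fermat.Agent.CFT.Euler.UnitChar
import Fermat.Agent.CFT.LocalEuler.KummerIso

/-!
The first cohomology of a level in terms of equivariant maps into units modulo a prime.
-/

set_option autoImplicit false
set_option maxSynthPendingDepth 3

noncomputable section

open scoped Classical

namespace FermatAgent.CFT.Euler

open Coh Local GaloisBasic Global

variable {p : ℕ} [hp : Fact p.Prime] {S : Finset Nat.Primes} {W V : Subgroup GQ}
  [hn : (V.subgroupOf W).Normal]

variable (T : Layer p S W V) {N : Type} [AddCommGroup N] [DistribMulAction W N] [Finite N]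

omit [Finite N] [DistribMulAction W N] [AddCommGroup N] in
include T in
/-- Units outside `S` of the field of the sublevel pair with it by Kummer theory. -/
private lemma nonempty_unitPairing :
    Nonempty (LocalEuler.KummerPairing (LS S) W V (chiQ p) (uStable W V S).Mod) := by
  obtain ⟨K, hfd, hfix, hKu, hζ⟩ := T.field
  have hK : K.fixingSubgroup = V ⊓ W := by rw [hfix, T.inf_eq]
  have hmem : ∀ x : (uStable W V S).Mod,
      Fx.val W V x.1 ∈ tUnits K (above K S : Set (PK K)) := fun x => (mem_uStable hK).mp x.2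
  have hstar : ∀ x : (uStable W V S).Mod, Fx.val W V x.1 ∈ starK K := fun x =>
    tUnits_le K _ (hmem x)
  have hW' : ∀ {g}, g ∈ K.fixingSubgroup → g • zetaUx (zet_spec p) = zetaUx (zet_spec p) :=
    smul_zetaUx (zet_spec p) hζ
  refine ⟨
    { pair := fun x g => kum (zet_spec p) (Fx.val W V x.1) g
      add := fun x y g hg => ?_
      map_mul := fun x g hg h hh =>
        CycChar.map_mul (rootChar (zet_spec p) hW' (hstar x)) (hK.ge hg) (hK.ge hh)
      nsmul := fun x g hg => ?_
      equivariant := fun w x g hg => ?_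
      left_inj := fun x hx => ?_
      exists_eq := fun a ha hac => ?_
      continuous := fun x => ?_ }⟩
  · show kum (zet_spec p) (Fx.val W V (x.1 + y.1)) g = _
    rw [map_add]
    exact kum_add (zet_spec p) hW' (hstar x) (hstar y) (hK.ge hg)
  · show kum (zet_spec p) (Fx.val W V (p • x.1)) g = 0
    rw [map_nsmul]
    exact kum_nsmul (zet_spec p) hW' (hstar x) (hK.ge hg)
  · have h1 := kum_conj (zet_spec p) (apply_zet p) hW' (hstar x) (γ := (w : GQ))
      (fun t ht => hK.ge (conj_mem_inter W V w (hK.le ht))) (hK.ge (conj_mem_inter' W V w hg)) (by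
        rw [← Fx.val_smul W V w x.1]
        exact hstar (qg W V w • x))
    rw [show (w : GQ) * ((w : GQ)⁻¹ * g * (w : GQ)) * (w : GQ)⁻¹ = g by group] at h1
    show kum (zet_spec p) (Fx.val W V (qg W V w • x.1)) g = _
    rw [Fx.val_smul]
    exact h1
  · obtain ⟨c, hc, hcx⟩ := exists_nsmul_of_unitKum_eq_zero (hmem x) fun g hg => hx g (hK.le hg)
    exact ⟨⟨⟨c, by rw [← hK]; exact tUnits_le K _ hc⟩, (mem_uStable hK).mpr hc⟩,
      Subtype.ext (Fx.val_injective W V hcx)⟩
  · obtain ⟨U, hU, hUc⟩ := hac
    obtain ⟨b, hb, hab⟩ := exists_unit_of_char hζ T.hpS hKu (T.gen K hfix.ge) a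
      (fun g hg h hh => ha g (hK.le hg) h (hK.le hh))
      ⟨U, hU, fun g hg s hs hs' => hUc g (hK.le hg) s hs (hK.le hs')⟩
    exact ⟨⟨⟨b, by rw [← hK]; exact tUnits_le K _ hb⟩, (mem_uStable hK).mpr hb⟩,
      fun g hg => (hab g (hK.ge hg)).symm⟩
  · obtain ⟨U, hU, hUc⟩ := exists_level_unitKum hζ T.hpS hKu (hmem x)
    refine ⟨U, hU, fun s hs hs' => ?_⟩
    have h1 := hUc 1 (one_mem _) s hs (hK.ge hs')
    rw [one_mul] at h1
    exact h1.trans (CycChar.map_one (rootChar (zet_spec p) hW' (hstar x)))

include T in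
/-- The first cohomology of the level has the size of equivariant maps into units modulo `p`. -/
theorem ldim_H1_eq_hom_units (hV : TrivG W V N) (hN : ∀ n : N, p • n = 0) :
    letI := quoActG (W := W) (V := V) (Dual ((chiQ p).comp W.subtype) N) (trivG_dual T.le_ker hV)
    ldim p (H1 ((LS S).comap W.subtype) N) =
      ldim p (h0Sub (QG W V) (HomTw (MonoidHom.id (QG W V)) (Dual ((chiQ p).comp W.subtype) N)
        (Modp p (uStable W V S).Mod))) := by
  have := T.finite_qg
  let : Fintype (QG W V) := Fintype.ofFinite _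
  obtain ⟨P⟩ := nonempty_unitPairing T
  exact P.ldim_H1_eq T.not_dvd_card ((LS S).inf_mem T.level ((LS S).mem_of_le T.level T.le))
    T.le_ker hV hN

end FermatAgent.CFT.Euler
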