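import Mathlib

/-!
Traces of automorphisms of finite order of lattices, and their determination by fixed ranks.
-/

set_option autoImplicit false

noncomputable section

open scoped Classical

namespace FermatAgent.CFT.Euler

/-- Additivity of traces along a short exact sequence of free modules. -/
lemma trace_add_of_exact {A B C : Type} [AddCommGroup A] [Module.Free ℤ A] [Module.Finite ℤ A]
    [AddCommGroup B] [AddCommGroup C] [Module.Free ℤ C]
    [Module.Finite ℤ C] (i : A →ₗ[ℤ] B) (q : B →ₗ[ℤ] C) (hi : Function.Injective i)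
    (hq : Function.Surjective q) (hex : ∀ b, q b = 0 ↔ ∃ a, i a = b) (fA : A →ₗ[ℤ] A)
    (fB : B →ₗ[ℤ] B) (fC : C →ₗ[ℤ] C) (hA : ∀ a, fB (i a) = i (fA a))
    (hC : ∀ b, q (fB b) = fC (q b)) :
    LinearMap.trace ℤ B fB = LinearMap.trace ℤ A fA + LinearMap.trace ℤ C fC := by
  obtain ⟨s, hs⟩ := Module.projective_lifting_property q LinearMap.id hq
  have hs' : ∀ c, q (s c) = c := fun c => LinearMap.congr_fun hs c
  let e : (A × C) ≃ₗ[ℤ] B := LinearEquiv.ofBijective (i.coprod s) ⟨by
      rw [injective_iff_map_eq_zero]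
      rintro ⟨a, c⟩ h
      rw [LinearMap.coprod_apply] at h
      have h' := congrArg q h
      rw [map_add, (hex _).mpr ⟨a, rfl⟩, hs', zero_add, map_zero] at h'
      dsimp at h'
      subst h'
      rw [map_zero, add_zero, ← map_zero i] at h
      exact Prod.ext (hi h) rfl, fun b => by
      obtain ⟨a, ha⟩ := (hex (b - s (q b))).mp (by rw [map_sub, hs', sub_self])
      exact ⟨(a, q b), by rw [LinearMap.coprod_apply, ha, sub_add_cancel]⟩⟩
  have he : ∀ a c, e (a, c) = i a + s c := fun a c => rfl
  let D : C →ₗ[ℤ] A :=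
    (LinearMap.fst ℤ A C).comp (e.symm.toLinearMap.comp (fB.comp s - s.comp fC))
  have hD : ∀ c, i (D c) = fB (s c) - s (fC c) := fun c => by
    obtain ⟨a, ha⟩ := (hex (fB (s c) - s (fC c))).mp (by rw [map_sub, hC, hs', hs', sub_self])
    show i (e.symm (fB (s c) - s (fC c))).1 = _
    have h1 : e.symm (fB (s c) - s (fC c)) = (a, 0) := by
      rw [LinearEquiv.symm_apply_eq, he, map_zero, add_zero, ha]
    rw [h1, ha]
  have key : e.symm.conj fB =
      fA.prodMap fC + (LinearMap.inl ℤ A C).comp (D.comp (LinearMap.snd ℤ A C)) := by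
    refine LinearMap.ext fun x => e.injective ?_
    obtain ⟨a, c⟩ := x
    rw [LinearEquiv.conj_apply_apply, LinearEquiv.symm_symm, LinearEquiv.apply_symm_apply,
      LinearMap.add_apply, LinearMap.prodMap_apply, LinearMap.comp_apply, LinearMap.comp_apply,
      LinearMap.snd_apply, LinearMap.inl_apply, Prod.mk_add_mk, add_zero, he, he, map_add, hA,
      map_add i, hD]
    abel
  rw [← LinearMap.trace_conj' fB e.symm, key, map_add, LinearMap.trace_prodMap',
    LinearMap.trace_comp_comm', LinearMap.comp_assoc,
    show (LinearMap.snd ℤ A C).comp (LinearMap.inl ℤ A C) = 0 from LinearMap.ext fun a => rfl,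
    LinearMap.comp_zero, map_zero, add_zero]

/-- Traces of coprime powers of an automorphism of finite order agree. -/
theorem trace_pow_of_coprime {L : Type} [AddCommGroup L] [Module.Free ℤ L] [Module.Finite ℤ L]
    (f : Module.End ℤ L) {m j : ℕ} [NeZero m] (hf : f ^ m = 1) (hj : j.Coprime m) :
    LinearMap.trace ℤ L (f ^ j) = LinearMap.trace ℤ L f := by
  set b := Module.Free.chooseBasis ℤ L
  set A := LinearMap.toMatrixAlgEquiv b f
  have hA : A ^ m = 1 := by rw [← map_pow, hf, map_one]
  have ht : ∀ g : Module.End ℤ L, LinearMap.trace ℤ L g = (LinearMap.toMatrixAlgEquiv b g).trace :=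
    fun g => LinearMap.trace_eq_matrix_trace ℤ b g
  rw [ht, ht, map_pow]
  set d := (A ^ j).trace - A.trace
  obtain ⟨l, hl, hlp, hlj⟩ := Nat.forall_exists_prime_gt_and_eq_mod
    ((ZMod.isUnit_iff_coprime j m).mpr hj) d.natAbs
  have : Fact l.Prime := ⟨hlp⟩
  have hpow : A ^ l = A ^ j :=
    pow_eq_pow_of_modEq ((ZMod.natCast_eq_natCast_iff _ _ _).mp hlj) hA
  have h1 : ((A ^ l).trace : ZMod l) = (A.trace : ZMod l) := by
    have e : ∀ B : Matrix (Module.Free.ChooseBasisIndex ℤ L) (Module.Free.ChooseBasisIndex ℤ L) ℤ,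
        (B.trace : ZMod l) = (B.map (Int.castRingHom (ZMod l))).trace := fun B =>
      AddMonoidHom.map_trace (Int.castAddHom (ZMod l)) B
    rw [e, e, Matrix.map_pow, ZMod.trace_pow_card, ZMod.pow_card]
  rw [hpow] at h1
  have h2 : (l : ℤ) ∣ d := by
    rw [← ZMod.intCast_zmod_eq_zero_iff_dvd, Int.cast_sub, h1, sub_self]
  exact sub_eq_zero.mp (Int.eq_zero_of_dvd_of_natAbs_lt_natAbs h2 (by simpa using hl))

variable {P : Type} [Group P]

/-- The character of a lattice. -/
def latChar (L : Type) [AddCommGroup L] [DistribMulAction P L] (g : P) : ℤ :=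
  LinearMap.trace ℤ L (DistribSMul.toAddMonoidHom L g).toIntLinearMap

section Basic

variable {L : Type} [AddCommGroup L] [DistribMulAction P L]

/-- The action as a monoid homomorphism into linear maps. -/
def latEnd : P →* Module.End ℤ L where
  toFun g := (DistribSMul.toAddMonoidHom L g).toIntLinearMap
  map_one' := LinearMap.ext fun x => one_smul P x
  map_mul' g h := LinearMap.ext fun x => mul_smul g h x

/-- The character is the trace. -/
lemma latChar_eq (g : P) : latChar L g = LinearMap.trace ℤ L (latEnd g) := rfl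

variable [Module.Free ℤ L] [Module.Finite ℤ L]

/-- The character at one is the rank. -/
lemma latChar_one : latChar L (1 : P) = Module.finrank ℤ L := by
  rw [latChar_eq, map_one, LinearMap.trace_one]

variable [Finite P]

lemma latChar_pow_of_coprime (g : P) {j : ℕ} (hj : j.Coprime (orderOf g)) :
    latChar L (g ^ j) = latChar L g := by
  have : NeZero (orderOf g) := ⟨(orderOf_pos g).ne'⟩
  rw [latChar_eq, latChar_eq, map_pow]
  exact trace_pow_of_coprime _ (by rw [← map_pow, pow_orderOf_eq_one, map_one]) hj

/-- The character is symmetric under inversion. -/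
lemma latChar_inv (g : P) : latChar L g⁻¹ = latChar L g := by
  rcases Nat.lt_or_ge (orderOf g) 2 with h | h
  · have : g = 1 := orderOf_eq_one_iff.mp (by have := orderOf_pos g; omega)
    rw [this, inv_one]
  · have e : g⁻¹ = g ^ (orderOf g - 1) :=
      inv_eq_of_mul_eq_one_right
        (by rw [← pow_succ', Nat.sub_add_cancel (by omega), pow_orderOf_eq_one])
    rw [e]
    exact latChar_pow_of_coprime g ((Nat.coprime_self_sub_left (by omega)).mpr
      (Nat.coprime_one_left _))

/-- The fixed sublattice of a subgroup. -/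
def latFixed (L : Type) [AddCommGroup L] [DistribMulAction P L] (D : Subgroup P) :
    AddSubgroup L where
  carrier := {x | ∀ g ∈ D, g • x = x}
  zero_mem' g _ := smul_zero g
  add_mem' {a b} ha hb g hg := by rw [smul_add, ha g hg, hb g hg]
  neg_mem' {a} ha g hg := by rw [smul_neg, ha g hg]

omit [Finite P] in
/-- The sum of the character over a subgroup is the order times the fixed rank. -/
theorem sum_latChar (D : Subgroup P) [Fintype D] :
    ∑ g : D, latChar L (g : P) = Fintype.card D * Module.finrank ℤ (latFixed L D) := by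
  set X := latFixed L D
  have : Module.Finite ℤ X :=
    Module.Finite.of_injective X.subtype.toIntLinearMap Subtype.val_injective
  have : Module.IsTorsionFree ℤ (L ⧸ X) := by
    refine ⟨fun n hn a b hab => ?_⟩
    rw [← sub_eq_zero]
    obtain ⟨x, hx⟩ := QuotientAddGroup.mk'_surjective X (a - b)
    rw [← hx]
    refine (QuotientAddGroup.eq_zero_iff x).mpr fun g hg => ?_
    have h1 : n • x ∈ X := by
      rw [← QuotientAddGroup.eq_zero_iff, ← QuotientAddGroup.mk'_apply, map_zsmul, hx, smul_sub]
      exact sub_eq_zero.mpr hab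
    have h2 : n • (g • x - x) = 0 := by
      rw [smul_sub, ← smul_comm g, h1 g hg, sub_self]
    exact sub_eq_zero.mp ((smul_eq_zero.mp h2).resolve_left hn.ne_zero)
  have : Module.Finite ℤ (L ⧸ X) :=
    Module.Finite.of_surjective (QuotientAddGroup.mk' X).toIntLinearMap
      (QuotientAddGroup.mk'_surjective X)
  have : Module.Free ℤ (L ⧸ X) := Module.free_of_finite_type_torsion_free'
  have : Module.IsTorsionFree ℤ X := by
    refine ⟨fun n hn a b hab => Subtype.ext (sub_eq_zero.mp ?_)⟩
    have h : n • (a.1 - b.1) = 0 := by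
      rw [smul_sub]; exact sub_eq_zero.mpr (congrArg Subtype.val hab)
    exact (smul_eq_zero.mp h).resolve_left hn.ne_zero
  have : Module.Free ℤ X := Module.free_of_finite_type_torsion_free'
  set E : Module.End ℤ L := ∑ g : D, latEnd (g : P)
  have hE : ∀ x, E x = ∑ g : D, (g : P) • x := fun x => LinearMap.sum_apply _ _ _
  have hEX : ∀ x, E x ∈ X := fun x h hh => by
    rw [hE, Finset.smul_sum]
    simp only [← mul_smul]
    exact Fintype.sum_equiv (Equiv.mulLeft (⟨h, hh⟩ : D)) _ _ fun g => rfl
  have h := trace_add_of_exact X.subtype.toIntLinearMap (QuotientAddGroup.mk' X).toIntLinearMap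
    Subtype.val_injective (QuotientAddGroup.mk'_surjective X) (fun b => by
      rw [AddMonoidHom.coe_toIntLinearMap, QuotientAddGroup.mk'_apply, QuotientAddGroup.eq_zero_iff]
      exact ⟨fun hb => ⟨⟨b, hb⟩, rfl⟩, fun ⟨a, ha⟩ => ha ▸ a.2⟩)
    ((Fintype.card D : ℤ) • LinearMap.id) E 0 (fun a => by
      show E a.1 = _
      rw [hE, LinearMap.smul_apply, LinearMap.id_apply]
      show _ = ((Fintype.card D : ℤ) • a).1
      rw [AddSubgroupClass.coe_zsmul, natCast_zsmul]
      simp only [a.2 _ (Subtype.prop _), Finset.sum_const, Finset.card_univ])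
    (fun b => by
      rw [LinearMap.zero_apply]
      exact (QuotientAddGroup.eq_zero_iff _).mpr (hEX b))
  rw [map_sum, map_smul, LinearMap.trace_id, map_zero, add_zero, smul_eq_mul] at h
  simp only [latChar_eq]
  exact h

end Basic

variable [Finite P] in
/-- Lattices with equal fixed ranks for cyclic subgroups have equal characters. -/
theorem latChar_eq_of_finrank {L L' : Type} [AddCommGroup L] [DistribMulAction P L]
    [Module.Free ℤ L]
    [Module.Finite ℤ L] [AddCommGroup L'] [DistribMulAction P L'] [Module.Free ℤ L']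
    [Module.Finite ℤ L']
    (h : ∀ g : P, Module.finrank ℤ (latFixed L (Subgroup.zpowers g)) =
      Module.finrank ℤ (latFixed L' (Subgroup.zpowers g))) (g : P) :
    latChar L g = latChar L' g := by
  induction hn : orderOf g using Nat.strong_induction_on generalizing g with
  | _ n ih =>
    let : Fintype (Subgroup.zpowers g) := Fintype.ofFinite _
    have hs : ∑ x : Subgroup.zpowers g, (latChar L (x : P) - latChar L' (x : P)) = 0 := by
      rw [Finset.sum_sub_distrib, sum_latChar, sum_latChar, h g, sub_self]
    have hcase : ∀ x : Subgroup.zpowers g, latChar L (x : P) - latChar L' (x : P) =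
        if orderOf (x : P) = orderOf g then latChar L g - latChar L' g else 0 := fun x => by
      obtain ⟨j, hj⟩ := mem_powers_iff_mem_zpowers.mpr x.2
      have hj' : g ^ j = (x : P) := hj
      split_ifs with hx
      · have hcop : j.Coprime (orderOf g) := by
          rw [← hj', orderOf_pow] at hx
          have := Nat.div_eq_self.mp hx
          rcases this with h0 | h1
          · exact absurd h0 (orderOf_pos g).ne'
          · exact Nat.coprime_comm.mp h1
        rw [← hj', latChar_pow_of_coprime g hcop, latChar_pow_of_coprime g hcop]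
      · rw [ih (orderOf (x : P)) (hn ▸ lt_of_le_of_ne
          (Nat.le_of_dvd (orderOf_pos g) (by rw [← hj']; exact orderOf_pow_dvd j)) hx) _ rfl,
          sub_self]
    rw [Finset.sum_congr rfl fun x _ => hcase x, Finset.sum_ite, Finset.sum_const_zero, add_zero,
      Finset.sum_const, nsmul_eq_mul, mul_eq_zero] at hs
    refine sub_eq_zero.mp (hs.resolve_left ?_)
    rw [Nat.cast_eq_zero, Finset.card_eq_zero]
    exact Finset.ne_empty_of_mem (a := ⟨g, Subgroup.mem_zpowers g⟩)
      (Finset.mem_filter.mpr ⟨Finset.mem_univ _, rfl⟩)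

end FermatAgent.CFT.Euler
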