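import Fermat.Agent.CFT.Euler.Quot
import Fermat.Agent.CFT.Euler.Trace

/-!
Stable subgroups, their quotients and reductions, and additive invariants of finite modules killed
by a prime.
-/

set_option autoImplicit false

noncomputable section

open scoped Classical

namespace FermatAgent.CFT.Euler

/-- An additive invariant of finite modules killed by `p`. -/
structure AddInv (p : ℕ) (P : Type) [Group P] where
  /-- The invariant. -/
  val : ∀ (A : Type) [AddCommGroup A] [DistribMulAction P A], ℤ
  add : ∀ (A B C : Type) [AddCommGroup A] [DistribMulAction P A] [AddCommGroup B]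
    [DistribMulAction P B] [AddCommGroup C] [DistribMulAction P C] [Finite B],
    (∀ b : B, p • b = 0) → Ses P A B C → val B = val A + val C

/-- A stable subgroup. -/
structure Stable (P L : Type) [Group P] [AddCommGroup L] [DistribMulAction P L] where
  /-- The subgroup. -/
  sub : AddSubgroup L
  smul_mem : ∀ (g : P), ∀ x ∈ sub, g • x ∈ sub

variable {P : Type} [Group P]

/-- The stable subgroup as a type. -/
abbrev Stable.Mod {L : Type} [AddCommGroup L] [DistribMulAction P L] (X : Stable P L) : Type :=
  ↥X.sub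

instance {L : Type} [AddCommGroup L] [DistribMulAction P L] (X : Stable P L) :
    DistribMulAction P X.Mod where
  smul g x := ⟨g • x.1, X.smul_mem g x.1 x.2⟩
  one_smul x := Subtype.ext (one_smul P x.1)
  mul_smul g h x := Subtype.ext (mul_smul g h x.1)
  smul_zero g := Subtype.ext (smul_zero g)
  smul_add g x y := Subtype.ext (smul_add g x.1 y.1)

section Quo

variable {L : Type} [AddCommGroup L] [DistribMulAction P L]

/-- The action on a stable subgroup is the restricted one. -/
@[simp] lemma Stable.coe_smul (X : Stable P L) (g : P) (x : X.Mod) :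
    ((g • x : X.Mod) : L) = g • x.1 :=
  rfl

/-- The quotient of two stable subgroups. -/
def Quo (X Y : Stable P L) : Type := ↥X.sub ⧸ Y.sub.addSubgroupOf X.sub

namespace Quo

variable (X Y : Stable P L)

instance : AddCommGroup (Quo X Y) :=
  inferInstanceAs (AddCommGroup (↥X.sub ⧸ Y.sub.addSubgroupOf X.sub))

/-- The class of an element. -/
def mk : X.Mod →+ Quo X Y := QuotientAddGroup.mk' _

/-- The quotient map is onto. -/
lemma mk_surjective : Function.Surjective (mk X Y) := QuotientAddGroup.mk'_surjective _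

/-- The kernel of the quotient map. -/
lemma mk_eq_zero_iff {x : X.Mod} : mk X Y x = 0 ↔ x.1 ∈ Y.sub := QuotientAddGroup.eq_zero_iff _

/-- The action on classes. -/
def act (g : P) : Quo X Y →+ Quo X Y :=
  QuotientAddGroup.lift _ ((mk X Y).comp (DistribSMul.toAddMonoidHom X.Mod g)) fun x hx =>
    (mk_eq_zero_iff X Y).mpr (Y.smul_mem g x.1 hx)

lemma act_mk (g : P) (x : X.Mod) : act X Y g (mk X Y x) = mk X Y (g • x) := rfl

instance : DistribMulAction P (Quo X Y) where
  smul g a := act X Y g a
  one_smul a := by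
    obtain ⟨x, rfl⟩ := mk_surjective X Y a
    show act X Y 1 (mk X Y x) = _
    rw [act_mk, one_smul]
  mul_smul g h a := by
    obtain ⟨x, rfl⟩ := mk_surjective X Y a
    show act X Y (g * h) (mk X Y x) = act X Y g (act X Y h (mk X Y x))
    rw [act_mk, act_mk, act_mk, mul_smul]
  smul_zero g := map_zero (act X Y g)
  smul_add g a b := map_add (act X Y g) a b

/-- The quotient map is equivariant. -/
lemma smul_mk (g : P) (x : X.Mod) : g • mk X Y x = mk X Y (g • x) := rfl

/-- Quotients by larger subgroups are finite. -/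
lemma finite_of_le {Y' : Stable P L} (h : Y'.sub ≤ Y.sub) [Finite (Quo X Y')] : Finite (Quo X Y) :=
  let φ : Quo X Y' →+ Quo X Y := QuotientAddGroup.lift (Y'.sub.addSubgroupOf X.sub) (mk X Y)
    fun _ hx => (mk_eq_zero_iff X Y).mpr (h hx)
  Finite.of_surjective φ fun a => by
      obtain ⟨x, rfl⟩ := mk_surjective X Y a
      exact ⟨mk X Y' x, rfl⟩

/-- The tautological sequence of three stable subgroups. -/
def ses {X' : Stable P L} (hY : Y.sub ≤ X'.sub) (hX : X'.sub ≤ X.sub) :
    Ses P (Quo X' Y) (Quo X Y) (Quo X X') where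
  i := QuotientAddGroup.lift _ ((mk X Y).comp (AddSubgroup.inclusion hX)) fun _ hx =>
    (mk_eq_zero_iff X Y).mpr hx
  q := QuotientAddGroup.lift _ (mk X X') fun _ hx => (mk_eq_zero_iff X X').mpr (hY hx)
  i_smul g a := by
    obtain ⟨x, rfl⟩ := mk_surjective X' Y a
    rfl
  q_smul g b := by
    obtain ⟨x, rfl⟩ := mk_surjective X Y b
    rfl
  inj := by
    refine (injective_iff_map_eq_zero (QuotientAddGroup.lift (Y.sub.addSubgroupOf X'.sub)
      ((mk X Y).comp (AddSubgroup.inclusion hX))
      fun _ hx => (mk_eq_zero_iff X Y).mpr hx)).mpr fun a ha => ?_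
    obtain ⟨x, rfl⟩ := mk_surjective X' Y a
    exact (mk_eq_zero_iff X' Y).mpr ((mk_eq_zero_iff X Y).mp ha :)
  surj a := by
    obtain ⟨x, rfl⟩ := mk_surjective X X' a
    exact ⟨mk X Y x, rfl⟩
  exact b := by
    obtain ⟨x, rfl⟩ := mk_surjective X Y b
    refine ⟨fun h => ⟨mk X' Y ⟨x.1, (mk_eq_zero_iff X X').mp h⟩, rfl⟩, ?_⟩
    rintro ⟨a, ha⟩
    obtain ⟨z, rfl⟩ := mk_surjective X' Y a
    rw [← ha]
    exact (mk_eq_zero_iff X X').mpr z.2

end Quo

end Quo

section Modp

variable (p : ℕ) (L : Type) [AddCommGroup L] [DistribMulAction P L]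

/-- The reduction modulo `p`. -/
def Modp : Type := L ⧸ (nsmulAddMonoidHom p : L →+ L).range

instance : AddCommGroup (Modp p L) :=
  inferInstanceAs (AddCommGroup (L ⧸ (nsmulAddMonoidHom p : L →+ L).range))

/-- The class of an element. -/
def toModp : L →+ Modp p L := QuotientAddGroup.mk' _

/-- Reduction modulo `p` is onto. -/
lemma toModp_surjective : Function.Surjective (toModp p L) := QuotientAddGroup.mk'_surjective _

/-- The kernel of reduction modulo `p` is the multiples of `p`. -/
lemma toModp_eq_zero_iff {x : L} : toModp p L x = 0 ↔ ∃ y, p • y = x :=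
  QuotientAddGroup.eq_zero_iff x

/-- The reduction is killed by `p`. -/
lemma nsmul_modp (a : Modp p L) : p • a = 0 := by
  obtain ⟨x, rfl⟩ := toModp_surjective p L a
  rw [← map_nsmul, toModp_eq_zero_iff]
  exact ⟨x, rfl⟩

/-- The action on the reduction. -/
def modpAct (g : P) : Modp p L →+ Modp p L :=
  QuotientAddGroup.lift _ ((toModp p L).comp (DistribSMul.toAddMonoidHom L g)) fun x hx => by
    obtain ⟨y, rfl⟩ := hx
    exact (toModp_eq_zero_iff p L).mpr ⟨g • y,
      (map_nsmul (DistribSMul.toAddMonoidHom L g) p y).symm⟩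

instance : DistribMulAction P (Modp p L) where
  smul g a := modpAct p L g a
  one_smul a := by
    obtain ⟨x, rfl⟩ := toModp_surjective p L a
    show toModp p L ((1 : P) • x) = _
    rw [one_smul]
  mul_smul g h a := by
    obtain ⟨x, rfl⟩ := toModp_surjective p L a
    show toModp p L ((g * h) • x) = toModp p L (g • h • x)
    rw [mul_smul]
  smul_zero g := map_zero (modpAct p L g)
  smul_add g a b := map_add (modpAct p L g) a b

/-- Reduction modulo `p` is equivariant. -/
lemma smul_toModp (g : P) (x : L) : g • toModp p L x = toModp p L (g • x) := rfl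

/-- The reduction of a lattice is finite. -/
lemma finite_modp [hp : Fact p.Prime] [Module.Finite ℤ L] : Finite (Modp p L) := by
  have : AddGroup.FG L := Module.Finite.iff_addGroup_fg.mp ‹_›
  have ht : IsMulTorsion (Multiplicative (Modp p L)) → Finite (Modp p L) := fun _ => by
    have : AddGroup.FG (Modp p L) :=
      AddGroup.fg_of_surjective (f := toModp p L) (toModp_surjective p L)
    have : Module (ZMod p) (Modp p L) := AddCommGroup.zmodModule (nsmul_modp p L)
    have : Module.Finite (ZMod p) (Modp p L) :=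
      Module.Finite.of_restrictScalars_finite ℤ (ZMod p) (Modp p L)
    exact Module.finite_of_finite (ZMod p)
  refine ht fun x => isOfFinOrder_iff_pow_eq_one.mpr ⟨p, hp.out.pos, ?_⟩
  exact nsmul_modp p L (Multiplicative.toAdd x)

/-- A sequence of lattices stays exact after reduction. -/
def Ses.modp [Fact p.Prime] {A B C : Type} [AddCommGroup A] [DistribMulAction P A] [AddCommGroup B]
    [DistribMulAction P B] [AddCommGroup C] [DistribMulAction P C] (E : Ses P A B C)
    (hC : ∀ c : C, p • c = 0 → c = 0) : Ses P (Modp p A) (Modp p B) (Modp p C) where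
  i := QuotientAddGroup.lift _ ((toModp p B).comp E.i) fun x hx => by
    obtain ⟨y, rfl⟩ := hx
    exact (toModp_eq_zero_iff p B).mpr ⟨E.i y, (map_nsmul E.i p y).symm⟩
  q := QuotientAddGroup.lift _ ((toModp p C).comp E.q) fun x hx => by
    obtain ⟨y, rfl⟩ := hx
    exact (toModp_eq_zero_iff p C).mpr ⟨E.q y, (map_nsmul E.q p y).symm⟩
  i_smul g a := by
    obtain ⟨x, rfl⟩ := toModp_surjective p A a
    show toModp p B (E.i (g • x)) = g • toModp p B (E.i x)
    rw [E.i_smul, smul_toModp]
  q_smul g b := by
    obtain ⟨x, rfl⟩ := toModp_surjective p B b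
    show toModp p C (E.q (g • x)) = g • toModp p C (E.q x)
    rw [E.q_smul, smul_toModp]
  inj := by
    refine (injective_iff_map_eq_zero (QuotientAddGroup.lift (nsmulAddMonoidHom p : A →+ A).range
      ((toModp p B).comp E.i) _)).mpr fun a ha => ?_
    obtain ⟨x, rfl⟩ := toModp_surjective p A a
    obtain ⟨y, hy⟩ := (toModp_eq_zero_iff p B).mp ha
    have h1 : E.q y = 0 := hC _ (by rw [← map_nsmul, hy]; exact E.q_i x)
    obtain ⟨z, rfl⟩ := (E.exact y).mp h1
    exact (toModp_eq_zero_iff p A).mpr ⟨z, E.inj (by rw [map_nsmul]; exact hy)⟩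
  surj c := by
    obtain ⟨x, rfl⟩ := toModp_surjective p C c
    obtain ⟨y, rfl⟩ := E.surj x
    exact ⟨toModp p B y, rfl⟩
  exact b := by
    obtain ⟨x, rfl⟩ := toModp_surjective p B b
    constructor
    · intro h
      obtain ⟨c, hc⟩ := (toModp_eq_zero_iff p C).mp h
      obtain ⟨y, rfl⟩ := E.surj c
      obtain ⟨z, hz⟩ := (E.exact (x - p • y)).mp (by rw [map_sub, map_nsmul, hc, sub_self])
      refine ⟨toModp p A z, ?_⟩
      show toModp p B (E.i z) = _
      rw [hz, map_sub, (toModp_eq_zero_iff p B).mpr ⟨y, rfl⟩, sub_zero]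
    · rintro ⟨a, ha⟩
      obtain ⟨z, rfl⟩ := toModp_surjective p A a
      rw [← ha]
      show toModp p C (E.q (E.i z)) = 0
      rw [E.q_i, map_zero]

end Modp

namespace AddInv

variable {p : ℕ} (f : AddInv p P)

/-- An additive invariant vanishes on trivial modules. -/
lemma val_of_subsingleton {A : Type} [AddCommGroup A] [DistribMulAction P A] [Subsingleton A] :
    f.val A = 0 := by
  have h := f.add A A A (fun b => Subsingleton.elim _ _)
    ⟨AddMonoidHom.id A, AddMonoidHom.id A, fun _ _ => rfl, fun _ _ => rfl, fun _ _ h => h,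
      fun a => ⟨a, rfl⟩, fun b => ⟨fun _ => ⟨b, rfl⟩, fun _ => Subsingleton.elim _ _⟩⟩
  linarith

/-- An additive invariant is invariant under isomorphisms. -/
lemma val_congr {A B : Type} [AddCommGroup A] [DistribMulAction P A] [AddCommGroup B]
    [DistribMulAction P B] [Finite B] (hB : ∀ b : B, p • b = 0) (e : A →+ B)
    (he : Function.Bijective e) (hsm : ∀ (g : P) a, e (g • a) = g • e a) : f.val A = f.val B := by
  have h := f.add A B PUnit hB
    ⟨e, 0, hsm, fun g _ => rfl, he.1, fun c => ⟨0, rfl⟩, fun b => ⟨fun _ => he.2 b, fun _ => rfl⟩⟩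
  rw [f.val_of_subsingleton (A := PUnit), add_zero] at h
  exact h.symm

/-- The invariant of the reduction. -/
def latVal (L : Type) [AddCommGroup L] [DistribMulAction P L] : ℤ := f.val (Modp p L)

variable [hp : Fact p.Prime] {L : Type} [AddCommGroup L] [DistribMulAction P L] [Module.Free ℤ L]
  [Module.Finite ℤ L]

/-- The whole module as a stable subgroup. -/
def top (L : Type) [AddCommGroup L] [DistribMulAction P L] : Stable P L := ⟨⊤, fun _ _ _ => trivial⟩

/-- The multiples of `p` of a stable subgroup. -/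
def pMul (p : ℕ) (X : Stable P L) : Stable P L :=
  ⟨X.sub.map (nsmulAddMonoidHom p), fun g x hx => by
    obtain ⟨y, hy, rfl⟩ := hx
    exact ⟨g • y, X.smul_mem g y hy, (map_nsmul (DistribSMul.toAddMonoidHom L g) p y).symm⟩⟩

omit [Module.Free ℤ L] [Module.Finite ℤ L] hp in
/-- Membership in the multiples of `p`. -/
lemma mem_pMul {X : Stable P L} {x : L} : x ∈ (pMul p X).sub ↔ ∃ y ∈ X.sub, p • y = x :=
  AddSubgroup.mem_map

omit [Module.Free ℤ L] in
/-- Stable subgroups of lattices are finitely generated. -/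
lemma finite_stable (X : Stable P L) : Module.Finite ℤ X.Mod :=
  Module.Finite.of_injective X.sub.subtype.toIntLinearMap Subtype.val_injective

/-- Stable subgroups of lattices are free. -/
lemma free_stable (X : Stable P L) : Module.Free ℤ X.Mod := by
  have := finite_stable X
  have : Module.IsTorsionFree ℤ X.Mod := by
    refine ⟨fun n hn a b hab => Subtype.ext (sub_eq_zero.mp ?_)⟩
    have h : n • (a.1 - b.1) = 0 := by
      rw [smul_sub]; exact sub_eq_zero.mpr (congrArg Subtype.val hab)
    exact (smul_eq_zero.mp h).resolve_left hn.ne_zero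
  exact Module.free_of_finite_type_torsion_free'

omit [Module.Free ℤ L] in
/-- The reduction of a stable subgroup as a quotient inside the ambient lattice. -/
lemma latVal_eq_quo (X : Stable P L) :
    f.latVal X.Mod = f.val (Quo X (pMul p X)) ∧ Finite (Quo X (pMul p X)) := by
  have := finite_stable X
  have := finite_modp p X.Mod
  let e : Modp p X.Mod →+ Quo X (pMul p X) :=
    QuotientAddGroup.lift _ (Quo.mk X (pMul p X)) fun x hx => by
      obtain ⟨y, rfl⟩ := hx
      exact (Quo.mk_eq_zero_iff X _).mpr (mem_pMul.mpr ⟨y.1, y.2, rfl⟩)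
  have hsurj : Function.Surjective e := fun b => by
    obtain ⟨x, rfl⟩ := Quo.mk_surjective X _ b
    exact ⟨toModp p X.Mod x, rfl⟩
  have : Finite (Quo X (pMul p X)) := Finite.of_surjective e hsurj
  refine ⟨f.val_congr (fun b => ?_) e ⟨(injective_iff_map_eq_zero e).mpr fun a ha => ?_, hsurj⟩
    fun g a => ?_, inferInstance⟩
  · obtain ⟨a, rfl⟩ := hsurj b
    rw [← map_nsmul, nsmul_modp, map_zero]
  · obtain ⟨x, rfl⟩ := toModp_surjective p X.Mod a
    obtain ⟨y, hy, hyx⟩ := mem_pMul.mp ((Quo.mk_eq_zero_iff X _).mp ha)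
    exact (toModp_eq_zero_iff p X.Mod).mpr ⟨⟨y, hy⟩, Subtype.ext hyx⟩
  · obtain ⟨x, rfl⟩ := toModp_surjective p X.Mod a
    rfl

omit [Module.Free ℤ L] [Module.Finite ℤ L] hp in
/-- The multiples of `p` lie in the subgroup. -/
lemma pMul_le (X : Stable P L) : (pMul p X).sub ≤ X.sub := fun x hx => by
  obtain ⟨y, hy, rfl⟩ := mem_pMul.mp hx
  exact nsmul_mem hy p

omit [Module.Finite ℤ L] in
/-- A lattice has no `p`-torsion. -/
lemma nsmul_eq_zero_of_free {x : L} (h : p • x = 0) : x = 0 := by
  rw [← natCast_zsmul, smul_eq_zero] at h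
  exact h.resolve_left (Int.natCast_ne_zero.mpr hp.out.ne_zero)

end AddInv

end FermatAgent.CFT.Euler
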