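import Fermat.Agent.CFT.Euler.Lattice

/-!
An additive invariant of the reduction minus that of the torsion is unchanged on stable subgroups
of finite index; in particular so is the invariant of the reduction of a lattice.
-/

set_option autoImplicit false

noncomputable section

open scoped Classical

namespace FermatAgent.CFT.Euler

open AddInv

variable {P : Type} [Group P] {p : ℕ} {L : Type} [AddCommGroup L] [DistribMulAction P L]

/-- The elements killed by `p`. -/
def torStable (p : ℕ) (X : Stable P L) : Stable P L :=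
  ⟨X.sub ⊓ (nsmulAddMonoidHom p : L →+ L).ker, fun g x hx => ⟨X.smul_mem g x hx.1, by
    show p • g • x = 0
    rw [← DistribSMul.toAddMonoidHom_apply L g x, ← map_nsmul, show p • x = 0 from hx.2, map_zero]⟩⟩

/-- The invariant of the reduction minus that of the torsion. -/
def phi (f : AddInv p P) (X : Stable P L) : ℤ :=
  f.val (Quo X (pMul p X)) - f.val (torStable p X).Mod

/-- The torsion subgroup is killed by `p`. -/
lemma nsmul_torStable (X : Stable P L) (a : (torStable p X).Mod) : p • a = 0 := Subtype.ext a.2.2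

variable [hp : Fact p.Prime]

omit hp in
/-- Quotients by subgroups containing the multiples of `p` are killed by `p`. -/
lemma nsmul_quo {X Y : Stable P L} (h : (pMul p X).sub ≤ Y.sub) (a : Quo X Y) : p • a = 0 := by
  obtain ⟨x, rfl⟩ := Quo.mk_surjective X Y a
  rw [← map_nsmul, Quo.mk_eq_zero_iff]
  exact h (mem_pMul.mpr ⟨x.1, x.2, rfl⟩)

variable (f : AddInv p P)

omit hp in
/-- A subgroup containing the multiples of `p`. -/
lemma phi_eq_of_step (X' X : Stable P L) (hle : X'.sub ≤ X.sub)
    (hp' : (pMul p X).sub ≤ X'.sub) [Finite (Quo X (pMul p X))] [Finite (torStable p X).Mod] :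
    phi f X' = phi f X ∧ Finite (Quo X' (pMul p X')) ∧ Finite (torStable p X').Mod := by
  set T := torStable p X
  set T' := torStable p X'
  have hTT : T'.sub ≤ T.sub := fun x hx => ⟨hle hx.1, hx.2⟩
  have hT' : Finite T'.Mod := Finite.of_injective (fun a => (⟨a.1, hTT a.2⟩ : T.Mod))
    fun a b h => Subtype.ext (congrArg (fun z : T.Mod => z.1) h)
  have hle' : (pMul p X').sub ≤ (pMul p X).sub := AddSubgroup.map_mono hle
  have hXX : Finite (Quo X X') := Quo.finite_of_le X X' hp'
  -- multiplication by `p`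
  let t : X.Mod →+ (pMul p X).Mod :=
    AddMonoidHom.mk' (fun x => ⟨p • x.1, mem_pMul.mpr ⟨x.1, x.2, rfl⟩⟩)
      fun x y => Subtype.ext (nsmul_add x.1 y.1 p)
  let m : Quo X X' →+ Quo (pMul p X) (pMul p X') :=
    QuotientAddGroup.lift _ ((Quo.mk (pMul p X) (pMul p X')).comp t) fun x hx =>
      (Quo.mk_eq_zero_iff _ _).mpr (mem_pMul.mpr ⟨x.1, hx, rfl⟩)
  have hm : Function.Surjective m := fun b => by
    obtain ⟨x, rfl⟩ := Quo.mk_surjective (pMul p X) (pMul p X') b
    obtain ⟨y, hy, hyx⟩ := mem_pMul.mp x.2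
    exact ⟨Quo.mk X X' ⟨y, hy⟩, congrArg (Quo.mk _ _) (Subtype.ext hyx)⟩
  have hpp : Finite (Quo (pMul p X) (pMul p X')) := Finite.of_surjective _ hm
  have hXp : Finite (Quo X' (pMul p X)) := Finite.of_injective _ (Quo.ses X (pMul p X) hp' hle).inj
  set E₁ := Quo.ses X' (pMul p X') hle' hp'
  have hfin : Finite (Quo X' (pMul p X')) := by
    have : Finite E₁.i.range := Finite.of_surjective _ E₁.i.rangeRestrict_surjective
    have hk : E₁.q.ker = E₁.i.range := by ext b; exact E₁.exact b
    exact finite_of_ker_range E₁.q (hk ▸ inferInstance)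
      (Finite.of_injective _ Subtype.val_injective)
  refine ⟨?_, hfin, hT'⟩
  have hsub : ∀ x : T.Mod, (x : L) ∈ X.sub := fun x => x.2.1
  let E₃ : Ses P (Quo T T') (Quo X X') (Quo (pMul p X) (pMul p X')) :=
    { i := QuotientAddGroup.lift _ ((Quo.mk X X').comp (AddMonoidHom.mk'
        (fun x : T.Mod => (⟨x.1, hsub x⟩ : X.Mod)) fun x y => rfl)) fun x hx =>
          (Quo.mk_eq_zero_iff X X').mpr hx.1
      q := m
      i_smul := fun g a => by
        obtain ⟨x, rfl⟩ := Quo.mk_surjective T T' a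
        rfl
      q_smul := fun g a => by
        obtain ⟨x, rfl⟩ := Quo.mk_surjective X X' a
        exact congrArg (Quo.mk _ _)
          (Subtype.ext (map_nsmul (DistribSMul.toAddMonoidHom L g) p x.1).symm)
      inj := by
        refine (injective_iff_map_eq_zero _).mpr fun a ha => ?_
        obtain ⟨x, rfl⟩ := Quo.mk_surjective T T' a
        exact (Quo.mk_eq_zero_iff T T').mpr ⟨(Quo.mk_eq_zero_iff X X').mp ha, x.2.2⟩
      surj := hm
      exact := fun b => by
        obtain ⟨x, rfl⟩ := Quo.mk_surjective X X' b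
        constructor
        · intro h
          obtain ⟨y, hy, hyx⟩ := mem_pMul.mp ((Quo.mk_eq_zero_iff (pMul p X) (pMul p X')).mp h)
          have hxy : x.1 - y ∈ T.sub := ⟨X.sub.sub_mem x.2 (hle hy), by
            show p • (x.1 - y) = 0
            rw [nsmul_sub, sub_eq_zero]; exact hyx.symm⟩
          refine ⟨Quo.mk T T' ⟨x.1 - y, hxy⟩, QuotientAddGroup.eq.mpr ?_⟩
          show -(x.1 - y) + x.1 ∈ X'.sub
          rw [neg_sub, sub_add_cancel]
          exact hy
        · rintro ⟨a, ha⟩
          obtain ⟨z, rfl⟩ := Quo.mk_surjective T T' a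
          rw [← ha]
          exact (Quo.mk_eq_zero_iff (pMul p X) (pMul p X')).mpr
            (mem_pMul.mpr ⟨0, X'.sub.zero_mem, by rw [smul_zero]; exact z.2.2.symm⟩) }
  let E₄ : Ses P T'.Mod T.Mod (Quo T T') :=
    { i := AddSubgroup.inclusion hTT
      q := Quo.mk T T'
      i_smul := fun g a => rfl
      q_smul := fun g a => (Quo.smul_mk T T' g a).symm
      inj := AddSubgroup.inclusion_injective hTT
      surj := Quo.mk_surjective T T'
      exact := fun b => ⟨fun h => ⟨⟨b.1, (Quo.mk_eq_zero_iff T T').mp h⟩, rfl⟩, fun ⟨a, ha⟩ =>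
        ha ▸ (Quo.mk_eq_zero_iff T T').mpr a.2⟩ }
  have s1 := f.add _ _ _ (nsmul_quo le_rfl) E₁
  have s2 := f.add _ _ _ (nsmul_quo le_rfl) (Quo.ses X (pMul p X) hp' hle)
  have s3 := f.add _ _ _ (nsmul_quo hp') E₃
  have s4 := f.add _ _ _ (nsmul_torStable X) E₄
  simp only [phi]
  linarith

omit hp in
/-- A subgroup of index prime to `p`. -/
lemma phi_eq_of_coprime (X' X : Stable P L) (hle : X'.sub ≤ X.sub)
    (hco : (X'.sub.relIndex X.sub).Coprime p) [Finite (Quo X (pMul p X))]
    [Finite (torStable p X).Mod] :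
    phi f X' = phi f X ∧ Finite (Quo X' (pMul p X')) ∧ Finite (torStable p X').Mod := by
  set n := X'.sub.relIndex X.sub
  let incl : Quo X' (pMul p X') →+ Quo X (pMul p X) :=
    QuotientAddGroup.lift _ ((Quo.mk X (pMul p X)).comp (AddSubgroup.inclusion hle)) fun x hx =>
      (Quo.mk_eq_zero_iff _ _).mpr (AddSubgroup.map_mono hle hx)
  have hbez : (n : ℤ) * Nat.gcdA n p + p * Nat.gcdB n p = 1 := by
    rw [← Nat.gcd_eq_gcd_ab, hco.gcd_eq_one]; rfl
  have hn : ∀ y ∈ X.sub, (n : ℤ) • y ∈ X'.sub := fun y hy => by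
    rw [natCast_zsmul]
    exact AddSubgroup.nsmul_relIndex_mem (H := X'.sub) (K := X.sub) hy
  have hsplit : ∀ y : L, y = Nat.gcdA n p • (n : ℤ) • y + Nat.gcdB n p • (p : ℤ) • y := fun y => by
    rw [← mul_smul, ← mul_smul, ← add_smul, mul_comm (Nat.gcdA n p), mul_comm (Nat.gcdB n p), hbez,
      one_smul]
  have hincl : Function.Bijective incl := by
    refine ⟨(injective_iff_map_eq_zero incl).mpr fun a ha => ?_, fun b => ?_⟩
    · obtain ⟨x, rfl⟩ := Quo.mk_surjective X' (pMul p X') a
      obtain ⟨y, hy, hyx⟩ := mem_pMul.mp ((Quo.mk_eq_zero_iff X (pMul p X)).mp ha)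
      refine (Quo.mk_eq_zero_iff X' _).mpr (mem_pMul.mpr ⟨y, ?_, hyx⟩)
      rw [hsplit y]
      refine add_mem (zsmul_mem (hn y hy) _) (zsmul_mem ?_ _)
      rw [natCast_zsmul, show p • y = _ from hyx]
      exact x.2
    · obtain ⟨x, rfl⟩ := Quo.mk_surjective X (pMul p X) b
      refine ⟨Quo.mk X' _ ⟨Nat.gcdA n p • (n : ℤ) • x.1, zsmul_mem (hn _ x.2) _⟩, ?_⟩
      refine (QuotientAddGroup.eq).mpr ?_
      show -(Nat.gcdA n p • (n : ℤ) • x.1) + x.1 ∈ (pMul p X).sub
      rw [show -(Nat.gcdA n p • (n : ℤ) • x.1) + x.1 = Nat.gcdB n p • (p : ℤ) • x.1 from by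
        nth_rw 2 [hsplit x.1]; abel]
      exact zsmul_mem (mem_pMul.mpr ⟨x.1, x.2, (natCast_zsmul _ _).symm⟩) _
  let ti : (torStable p X').Mod →+ (torStable p X).Mod :=
    AddMonoidHom.mk' (fun a => ⟨a.1, hle a.2.1, a.2.2⟩) fun a b => rfl
  have hti : Function.Bijective ti :=
    ⟨fun a b h => Subtype.ext (congrArg (fun z : (torStable p X).Mod => z.1) h), fun b => by
      refine ⟨⟨b.1, ?_, b.2.2⟩, rfl⟩
      show b.1 ∈ X'.sub
      rw [hsplit b.1, natCast_zsmul b.1 p, show p • b.1 = 0 from b.2.2, zsmul_zero, add_zero]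
      exact zsmul_mem (hn _ b.2.1) _⟩
  refine ⟨?_, Finite.of_injective _ hincl.1, Finite.of_injective _ hti.1⟩
  simp only [phi]
  rw [f.val_congr (nsmul_quo le_rfl) incl hincl fun g a => by
      obtain ⟨x, rfl⟩ := Quo.mk_surjective X' (pMul p X') a
      rfl,
    f.val_congr (nsmul_torStable X) ti hti fun g a => rfl]

/-- Stable subgroups of finite index have the same invariant. -/
theorem phi_stable_eq (X' X : Stable P L) (hle : X'.sub ≤ X.sub)
    (hidx : X'.sub.relIndex X.sub ≠ 0) [Finite (Quo X (pMul p X))] [Finite (torStable p X).Mod] :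
    phi f X' = phi f X ∧ Finite (Quo X' (pMul p X')) ∧ Finite (torStable p X').Mod := by
  induction hn : X'.sub.relIndex X.sub using Nat.strong_induction_on generalizing X' X with
  | _ n ih =>
    by_cases hdvd : p ∣ n
    · let Y : Stable P L := ⟨X'.sub ⊔ (pMul p X).sub, fun g x hx => by
        obtain ⟨a, ha, b, hb, rfl⟩ := AddSubgroup.mem_sup.mp hx
        rw [smul_add]
        exact AddSubgroup.add_mem_sup (X'.smul_mem g a ha) ((pMul p X).smul_mem g b hb)⟩
      have hYX : Y.sub ≤ X.sub := sup_le hle (pMul_le X)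
      have h1 : X'.sub.relIndex Y.sub * Y.sub.relIndex X.sub = n :=
        hn ▸ AddSubgroup.relIndex_mul_relIndex _ _ _ le_sup_left hYX
      have hn0 : n ≠ 0 := hn ▸ hidx
      have hY1 : Y.sub.relIndex X.sub ≠ 1 := fun h => by
        have hXY : X.sub ≤ Y.sub := AddSubgroup.relIndex_eq_one.mp h
        set H := X'.sub.addSubgroupOf X.sub
        have : H.FiniteIndex := ⟨hidx⟩
        have : Finite (↥X.sub ⧸ H) := AddSubgroup.finite_quotient_of_finiteIndex
        let m : ↥X.sub ⧸ H →+ ↥X.sub ⧸ H := nsmulAddMonoidHom p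
        have hs : Function.Surjective m := fun a => by
          obtain ⟨x, rfl⟩ := QuotientAddGroup.mk_surjective a
          obtain ⟨u, hu, b, hb, hub⟩ := AddSubgroup.mem_sup.mp (hXY x.2)
          obtain ⟨y, hy, rfl⟩ := mem_pMul.mp hb
          refine ⟨QuotientAddGroup.mk ⟨y, hy⟩, ?_⟩
          show p • (QuotientAddGroup.mk' H ⟨y, hy⟩) = _
          rw [← map_nsmul]
          refine (QuotientAddGroup.eq).mpr ?_
          show (-(p • y) + x.1) ∈ X'.sub
          rw [← hub, add_comm u, ← add_assoc, neg_add_cancel, zero_add]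
          exact hu
        obtain ⟨z, hz⟩ := exists_prime_addOrderOf_dvd_card' (G := ↥X.sub ⧸ H) p (by
          rw [show Nat.card (↥X.sub ⧸ H) = n from hn]; exact hdvd)
        have hz0 : m z = 0 := by
          show p • z = 0
          rw [← hz]; exact addOrderOf_nsmul_eq_zero z
        have := Finite.injective_iff_surjective.mpr hs (hz0.trans (map_zero m).symm)
        rw [this, addOrderOf_zero] at hz
        exact hp.out.ne_one hz.symm
      have hY0 : Y.sub.relIndex X.sub ≠ 0 := fun h => hn0 (by rw [← h1, h, mul_zero])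
      have hX'Y : X'.sub.relIndex Y.sub ≠ 0 := fun h => hn0 (by rw [← h1, h, zero_mul])
      have hlt : X'.sub.relIndex Y.sub < n := by
        rw [← h1]
        exact lt_mul_of_one_lt_right (Nat.pos_of_ne_zero hX'Y) (by omega)
      obtain ⟨e, hY, hTY⟩ := phi_eq_of_step f Y X hYX le_sup_right
      rw [← e]
      exact ih _ hlt X' Y le_sup_left hX'Y rfl
    · exact phi_eq_of_coprime f X' X hle (by
        rw [hn]; exact (hp.out.coprime_iff_not_dvd.mpr hdvd).symm)

/-- Sublattices of finite index have the same invariant. -/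
theorem AddInv.latVal_stable_eq [Module.Free ℤ L] [Module.Finite ℤ L] (X' X : Stable P L)
    (hle : X'.sub ≤ X.sub) (hidx : X'.sub.relIndex X.sub ≠ 0) :
    f.latVal X'.Mod = f.latVal X.Mod := by
  obtain ⟨e', -⟩ := f.latVal_eq_quo X'
  obtain ⟨e, hf⟩ := f.latVal_eq_quo X
  have htor : ∀ Z : Stable P L, Subsingleton (torStable p Z).Mod := fun Z =>
    ⟨fun a b => Subtype.ext ((nsmul_eq_zero_of_free a.2.2).trans
      (nsmul_eq_zero_of_free b.2.2).symm)⟩
  have := htor X
  have := htor X'
  have : Finite (torStable p X).Mod := Finite.of_subsingleton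
  have h := (phi_stable_eq f X' X hle hidx).1
  simp only [phi, f.val_of_subsingleton, sub_zero] at h
  rw [e', e, h]

end FermatAgent.CFT.Euler
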