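import Fermat.Agent.CFT.Global.SInvariants
import Fermat.Agent.CFT.Global.Units
import Fermat.Prelude.Def_GaloisRep_ComplexConjugation
import Mathlib.GroupTheory.DoubleCoset

/-!
Places of a number field inside `ℚ̄` as double cosets, and the rank of its units outside a finite
set.
-/

set_option autoImplicit false
set_option maxSynthPendingDepth 3

noncomputable section

open scoped Classical NumberField
open IntermediateField NumberField

namespace FermatAgent.CFT.Euler

open Coh Local GaloisBasic Global

/-- The double cosets of two subgroups. -/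
abbrev DC {Γ : Type} [Group Γ] (H C : Subgroup Γ) : Type :=
  DoubleCoset.Quotient (H : Set Γ) (C : Set Γ)

lemma finite_DC {Γ : Type} [Group Γ] (H C : Subgroup Γ) [H.FiniteIndex] : Finite (DC H C) := by
  have : Finite (Γ ⧸ H) := Subgroup.finite_quotient_of_finiteIndex
  refine Finite.of_surjective (fun x : Γ ⧸ H => DoubleCoset.mk H C x.out⁻¹) fun z => ?_
  refine ⟨((z.out⁻¹ : Γ) : Γ ⧸ H), ?_⟩
  obtain ⟨h, hh⟩ := QuotientGroup.mk_out_eq_mul H z.out⁻¹
  conv_rhs => rw [← DoubleCoset.out_eq' H C z]
  show DoubleCoset.mk H C (((z.out⁻¹ : Γ) : Γ ⧸ H)).out⁻¹ = _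
  rw [hh, DoubleCoset.eq]
  exact ⟨h, h.2, 1, one_mem _, by group⟩

variable (S : Finset Nat.Primes)

/-- The decomposition groups at the infinite place and at the chosen primes. -/
def decomp : Option S → Subgroup GQ
  | none => Subgroup.zpowers complexConjugation
  | some q => haveI : Fact ((q : Nat.Primes) : ℕ).Prime := ⟨q.1.2⟩
    (localGaloisToGlobal ((q : Nat.Primes) : ℕ)).range

/-- The places above the chosen set and infinity, as double cosets. -/
abbrev Plc (H : Subgroup GQ) : Type := Σ v : Option S, DC H (decomp S v)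

instance finite_plc (H : Subgroup GQ) [H.FiniteIndex] : Finite (Plc S H) := by
  have : ∀ v : Option S, Finite (DC H (decomp S v)) := fun v => finite_DC H _
  infer_instance

variable {S} (K : IntermediateField ℚ Qbar) [FiniteDimensional ℚ K]

/-- The prime of a double coset. -/
def primeOfDC (q : S) : DC K.fixingSubgroup (decomp S (some q)) → (above K S : Finset (PK K)) :=
  haveI : Fact ((q : Nat.Primes) : ℕ).Prime := ⟨q.1.2⟩
  Quotient.lift (fun x => ⟨primeAt K ((q : Nat.Primes) : ℕ) x⁻¹, mem_above.mpr (by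
      have e : qP (primeAt K ((q : Nat.Primes) : ℕ) x⁻¹) = q.1 :=
        Subtype.ext ((isPoint_primeAt (K := K)).prime_eq (isPoint_gOf _))
      rw [e]; exact q.2)⟩) fun x y h => by
    obtain ⟨u, hu, b, ⟨d, rfl⟩, rfl⟩ := DoubleCoset.rel_iff.mp h
    refine Subtype.ext (IsDedekindDomain.HeightOneSpectrum.ext (Ideal.ext fun a => ?_))
    show ‖emb _ x⁻¹ ((a : K) : Qbar)‖ < 1 ↔
      ‖emb _ (u * x * localGaloisToGlobal _ d)⁻¹ ((a : K) : Qbar)‖ < 1
    rw [← norm_emb_decomp (q := ((q : Nat.Primes) : ℕ)) x⁻¹ d⁻¹ ((a : K) : Qbar)]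
    have hfix : u⁻¹ ((a : K) : Qbar) = ((a : K) : Qbar) :=
      (IntermediateField.mem_fixingSubgroup_iff K u⁻¹).mp (inv_mem hu) _ (a : K).2
    have e : emb ((q : Nat.Primes) : ℕ) (u * x * localGaloisToGlobal _ d)⁻¹ ((a : K) : Qbar) =
        emb ((q : Nat.Primes) : ℕ) (localGaloisToGlobal _ d⁻¹ * x⁻¹) ((a : K) : Qbar) := by
      show padicEmbedding _ _ = padicEmbedding _ _
      rw [mul_inv_rev, mul_inv_rev, ← map_inv, ← mul_assoc]
      exact congrArg (padicEmbedding _) (congrArg (localGaloisToGlobal _ d⁻¹ * x⁻¹ : GQ) hfix)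
    rw [e]
where
  norm_emb_decomp {q : ℕ} [Fact q.Prime] (g : GQ) (d : Gal' q) (x : Qbar) :
      ‖emb q (localGaloisToGlobal q d * g) x‖ = ‖emb q g x‖ := by
    have h := emb_locHom g d x
    rw [locHom_apply] at h
    have e : emb q g ((g⁻¹ * localGaloisToGlobal q d * g) x) =
        emb q (localGaloisToGlobal q d * g) x := by
      show padicEmbedding q (g ((g⁻¹ * localGaloisToGlobal q d * g) x)) = _
      rw [← AlgEquiv.mul_apply, ← mul_assoc, ← mul_assoc, mul_inv_cancel, one_mul]
      rfl
    rw [← e, h, norm_apply]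

/-- The primes above the set as double cosets. -/
theorem card_above : Nat.card (Σ q : S, DC K.fixingSubgroup (decomp S (some q))) =
    (above K S).card := by
  rw [← Fintype.card_coe, ← Nat.card_eq_fintype_card]
  refine Nat.card_congr (Equiv.ofBijective (fun z => primeOfDC K z.1 z.2) ⟨?_, fun ⟨P, hP⟩ => ?_⟩)
  · rintro ⟨q, z⟩ ⟨q', z'⟩ h
    induction z using Quotient.inductionOn with
    | _ x =>
      induction z' using Quotient.inductionOn with
      | _ x' =>
        have : Fact ((q : Nat.Primes) : ℕ).Prime := ⟨q.1.2⟩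
        have : Fact ((q' : Nat.Primes) : ℕ).Prime := ⟨q'.1.2⟩
        have h1 : primeAt K ((q : Nat.Primes) : ℕ) x⁻¹ = primeAt K ((q' : Nat.Primes) : ℕ) x'⁻¹ :=
          congrArg Subtype.val h
        have h2 : IsPoint (primeAt K ((q : Nat.Primes) : ℕ) x⁻¹) ((q' : Nat.Primes) : ℕ) x'⁻¹ :=
          h1 ▸ isPoint_primeAt
        obtain rfl : q = q' := Subtype.ext (Subtype.ext (isPoint_primeAt.prime_eq h2).symm)
        obtain ⟨d, w, hw, he⟩ := (isPoint_primeAt (K := K)).exists_mul h2
        refine Sigma.ext rfl (heq_of_eq (Quotient.sound (DoubleCoset.rel_iff.mpr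
          ⟨w⁻¹, inv_mem hw, localGaloisToGlobal _ d⁻¹, ⟨d⁻¹, rfl⟩, ?_⟩)))
        rw [← inv_inv x', he, locHom_apply, map_inv]
        group
  · refine ⟨⟨⟨qP P, mem_above.mp hP⟩, DoubleCoset.mk _ _ (gOf P)⁻¹⟩, Subtype.ext ?_⟩
    show @primeAt K _ (qOf P) (fact_qOf P) (gOf P)⁻¹⁻¹ = P
    rw [inv_inv]
    exact (isPoint_gOf P).eq_primeAt.symm

/-- The archimedean place of a double coset. -/
def infOfDC : DC K.fixingSubgroup (decomp S none) → InfinitePlace K :=
  Quotient.lift (fun x => InfinitePlace.mk
      ((complexEmbedding.comp (x⁻¹ : GQ).toAlgHom).toRingHom.comp (algebraMap K Qbar)))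
        fun x y h => by
    obtain ⟨u, hu, b, hb, rfl⟩ := DoubleCoset.rel_iff.mp h
    have hfix : ∀ a : K, u⁻¹ (a : Qbar) = (a : Qbar) := fun a =>
      (IntermediateField.mem_fixingSubgroup_iff K u⁻¹).mp (inv_mem hu) _ a.2
    rw [InfinitePlace.mk_eq_iff]
    rcases zpow_complexConjugation hb with rfl | rfl
    · left
      refine RingHom.ext fun a => ?_
      show complexEmbedding (x⁻¹ (a : Qbar)) = complexEmbedding ((u * x * 1)⁻¹ (a : Qbar))
      rw [mul_one, mul_inv_rev, AlgEquiv.mul_apply, hfix]
    · right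
      refine RingHom.ext fun a => ?_
      show starRingEnd ℂ (complexEmbedding (x⁻¹ (a : Qbar))) =
        complexEmbedding ((u * x * complexConjugation)⁻¹ (a : Qbar))
      rw [mul_inv_rev, mul_inv_rev, complexConjugation_inv, AlgEquiv.mul_apply, AlgEquiv.mul_apply,
        hfix, complexEmbedding_complexConjugation]
where
  zpow_complexConjugation {b : GQ} (hb : b ∈ Subgroup.zpowers complexConjugation) :
      b = 1 ∨ b = complexConjugation := by
    obtain ⟨i, rfl⟩ := Subgroup.mem_zpowers_iff.mp hb
    rcases Int.even_or_odd' i with ⟨k, rfl | rfl⟩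
    · left; rw [zpow_mul, zpow_two, complexConjugation_mul_self, one_zpow]
    · right; rw [zpow_add_one, zpow_mul, zpow_two, complexConjugation_mul_self, one_zpow, one_mul]

/-- The archimedean places as double cosets. -/
theorem card_infinitePlace :
    Nat.card (DC K.fixingSubgroup (decomp S none)) = Fintype.card (InfinitePlace K) := by
  rw [← Nat.card_eq_fintype_card]
  refine Nat.card_congr (Equiv.ofBijective (infOfDC K) ⟨?_, fun w => ?_⟩)
  · intro z z' h
    induction z using Quotient.inductionOn with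
    | _ x =>
      induction z' using Quotient.inductionOn with
      | _ x' =>
        rcases InfinitePlace.mk_eq_iff.mp (h : InfinitePlace.mk _ = InfinitePlace.mk _) with h1 | h1
        · refine Quotient.sound (DoubleCoset.rel_iff.mpr ⟨x' * x⁻¹, ?_, 1, one_mem _, by group⟩)
          refine (IntermediateField.mem_fixingSubgroup_iff K _).mpr fun a ha => ?_
          have h2 := complexEmbedding.toRingHom.injective (DFunLike.congr_fun h1 ⟨a, ha⟩)
          change x⁻¹ a = x'⁻¹ a at h2
          rw [AlgEquiv.mul_apply, h2, ← AlgEquiv.mul_apply, mul_inv_cancel, AlgEquiv.one_apply]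
        · refine Quotient.sound (DoubleCoset.rel_iff.mpr ⟨x' * complexConjugation * x⁻¹, ?_,
            complexConjugation, Subgroup.mem_zpowers _, ?_⟩)
          · refine (IntermediateField.mem_fixingSubgroup_iff K _).mpr fun a ha => ?_
            have h2 := DFunLike.congr_fun h1 ⟨a, ha⟩
            change starRingEnd ℂ (complexEmbedding (x⁻¹ a)) = complexEmbedding (x'⁻¹ a) at h2
            rw [← complexEmbedding_complexConjugation] at h2
            have h3 : complexConjugation (x⁻¹ a) = x'⁻¹ a := complexEmbedding.toRingHom.injective h2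
            rw [AlgEquiv.mul_apply, AlgEquiv.mul_apply, h3, ← AlgEquiv.mul_apply, mul_inv_cancel,
              AlgEquiv.one_apply]
          · rw [mul_assoc (x' * complexConjugation), inv_mul_cancel, mul_one, mul_assoc,
              complexConjugation_mul_self, mul_one]
  · let : Algebra K ℂ := w.embedding.toAlgebra
    set ψ : Qbar →ₐ[K] ℂ := IsAlgClosed.lift
    let ψ₀ : Qbar →ₐ[ℚ] ℂ :=
      { ψ.toRingHom with commutes' := fun r => by simp }
    let : Algebra Qbar ℂ := complexEmbedding.toRingHom.toAlgebra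
    have : IsScalarTower ℚ Qbar ℂ := IsScalarTower.of_algebraMap_eq' (Subsingleton.elim _ _)
    set σ : GQ := AlgEquiv.ofBijective (ψ₀.restrictNormal' Qbar).toAlgHom
      (ψ₀.restrictNormal' Qbar).bijective
    refine ⟨DoubleCoset.mk _ _ σ⁻¹, ?_⟩
    rw [← InfinitePlace.mk_embedding w]
    refine congrArg InfinitePlace.mk (RingHom.ext fun a => ?_)
    show complexEmbedding (σ⁻¹⁻¹ (a : Qbar)) = w.embedding a
    rw [inv_inv]
    exact (AlgHom.restrictNormal_commutes ψ₀ Qbar (a : Qbar)).trans (ψ.commutes a)

lemma card_plc :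
    Nat.card (Plc S K.fixingSubgroup) = Fintype.card (InfinitePlace K) + (above K S).card := by
  have : K.fixingSubgroup.FiniteIndex := LQ.finiteIndex (fixingSubgroup_mem_galLevels K)
  have : ∀ v : Option S, Finite (DC K.fixingSubgroup (decomp S v)) := fun v => finite_DC _ _
  rw [← card_above K, ← card_infinitePlace (S := S) K, Nat.card_sigma, Nat.card_sigma,
    Fintype.sum_option]

variable (S)

/-- The units outside the set form a finitely generated group of the expected rank. -/
theorem finrank_tUnits :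
    Module.Finite ℤ (tUnits K (above K S : Set (PK K))) ∧
      Module.finrank ℤ (tUnits K (above K S : Set (PK K))) + 1 =
        Nat.card (Plc S K.fixingSubgroup) := by
  set T := above K S
  set U := tUnits K (T : Set (PK K))
  let π : U →ₗ[ℤ] (T → ℤ) := ((AddMonoidHom.pi fun P : T =>
    (Pi.evalAddMonoidHom (fun _ : PK K => ℤ) P.1).comp (ordHom K)).comp
      (AddSubgroup.inclusion (tUnits_le K _))).toIntLinearMap
  let ι : Additive (𝓞 K)ˣ →ₗ[ℤ] U := ((unitEmb K).codRestrict U fun u => by
    have h : unitEmb K u ∈ tUnits K ∅ := range_unitEmb K ▸ ⟨u, rfl⟩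
    exact mem_tUnits.mpr ⟨(mem_tUnits.mp h).1, fun P _ => (mem_tUnits.mp h).2 P id⟩).toIntLinearMap
  have hι : LinearMap.range ι = LinearMap.ker π := by
    ext x
    constructor
    · rintro ⟨u, rfl⟩
      refine funext fun P => ?_
      exact (mem_tUnits.mp (range_unitEmb K ▸ ⟨u, rfl⟩ : unitEmb K u ∈ tUnits K ∅)).2 P.1 id
    · intro hx
      have : x.1 ∈ tUnits K ∅ := mem_tUnits.mpr ⟨(mem_tUnits.mp x.2).1, fun P _ => by
        by_cases hP : P ∈ T
        · exact congrFun hx ⟨P, hP⟩
        · exact (mem_tUnits.mp x.2).2 P (by exact_mod_cast hP)⟩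
      rw [← range_unitEmb] at this
      obtain ⟨u, hu⟩ := this
      exact ⟨u, Subtype.ext hu⟩
  have hιinj : Function.Injective ι := fun u v h => unitEmb_injective K (congrArg Subtype.val h)
  have hfin : Module.Finite ℤ U := by
    refine ⟨Submodule.fg_of_fg_map_of_fg_inf_ker π (IsNoetherian.noetherian _) ?_⟩
    rw [top_inf_eq, ← hι, LinearMap.range_eq_map]
    exact Module.Finite.fg_top.map ι
  refine ⟨hfin, ?_⟩
  have hker : Module.finrank ℤ (LinearMap.ker π) = NumberField.Units.rank K := by
    rw [← hι, LinearMap.finrank_range_of_inj hιinj, NumberField.Units.finrank_eq]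
  have hrange : Module.finrank ℤ (LinearMap.range π) = T.card := by
    choose c hc hc0 hpos hne using fun P : T => exists_pos_ordP P.1
    have hcU : ∀ P : T, Ux.mk (c P) (hc0 P) ∈ U := fun P =>
      mem_tUnits.mpr ⟨mem_starK_of_mem K (a := Ux.mk (c P) (hc0 P)) (hc P), fun P' hP' =>
        hne P P' fun he => hP' (by rw [he]; exact_mod_cast P.2)⟩
    have hli : LinearIndependent ℤ fun P : T => π ⟨_, hcU P⟩ := by
      rw [Fintype.linearIndependent_iff]
      intro k hk Q
      have h := congrFun hk Q
      rw [Finset.sum_apply, Finset.sum_eq_single Q] at h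
      · have h' : k Q * ordP Q.1 (c Q) = 0 := h
        exact (mul_eq_zero.mp h').resolve_right (hpos Q).ne'
      · intro P _ hPQ
        show k P * ordP Q.1 (c P) = 0
        rw [hne P Q.1 fun he => hPQ (Subtype.ext he).symm, mul_zero]
      · simp
    refine le_antisymm ((Submodule.finrank_le _).trans (by rw [Module.finrank_fintype_fun_eq_card,
      Fintype.card_coe])) ?_
    have h := (hli.of_comp (LinearMap.range π).subtype (v := fun P : T =>
      (⟨π ⟨_, hcU P⟩, LinearMap.mem_range_self _ _⟩ : LinearMap.range π))).fintype_card_le_finrank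
    rwa [Fintype.card_coe] at h
  have h := Submodule.finrank_quotient_add_finrank (LinearMap.ker π)
  rw [π.quotKerEquivRange.finrank_eq] at h
  rw [hker, hrange] at h
  have hpos : 0 < Fintype.card (InfinitePlace K) := Fintype.card_pos
  rw [card_plc, ← h, show (above K S).card = T.card from rfl]
  simp only [NumberField.Units.rank]
  omega

end FermatAgent.CFT.Euler
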