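import Fermat.Agent.CFT.Euler.Setting
import Fermat.Agent.CFT.Euler.Compare
import Fermat.Agent.CFT.Euler.Burnside

/-!
Reduction of the Euler characteristic to modules induced from subgroups cyclic over the level.

An additive characteristic (`IsAdditive`) turns a permutation lattice into an invariant depending
only on its character, and the reduction of the lattice on `P/D` gives an induced module
(`permToInd`). The trivial permutation character is a rational combination of those of the cosets
of cyclic subgroups, so vanishing on modules induced from subgroups cyclic over the level gives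
vanishing on all modules killed by `p` (`eq_zero_of_cyclic`).
-/

set_option autoImplicit false

noncomputable section

open scoped Classical

namespace FermatAgent.CFT.Euler

open Coh Local GaloisBasic Global

section Hom

variable {Γ P : Type} [Group Γ] [Group P] (π : Γ →* P) (V M : Type) [AddCommGroup V]
  [DistribMulAction P V] [AddCommGroup M] [DistribMulAction Γ M]

/-- Additive maps from a module over a quotient, with the action by conjugation. -/
def HomTw (_ : Γ →* P) (V M : Type) [AddCommGroup V] [AddCommGroup M] : Type := V →+ M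

instance : AddCommGroup (HomTw π V M) := inferInstanceAs (AddCommGroup (V →+ M))
instance [Finite V] [Finite M] : Finite (HomTw π V M) :=
  (Finite.of_injective (fun f : V →+ M => (f : V → M)) DFunLike.coe_injective : Finite (V →+ M))

/-- The underlying map. -/
def HomTw.hom : HomTw π V M →+ (V →+ M) := AddMonoidHom.id _

/-- From a map. -/
def HomTw.mk : (V →+ M) →+ HomTw π V M := AddMonoidHom.id _

instance : DistribMulAction Γ (HomTw π V M) where
  smul g φ := HomTw.mk π V M ((DistribSMul.toAddMonoidHom M g).comp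
    ((HomTw.hom π V M φ).comp (DistribSMul.toAddMonoidHom V (π g)⁻¹)))
  one_smul φ := AddMonoidHom.ext fun v => by
    show (1 : Γ) • HomTw.hom π V M φ ((π 1)⁻¹ • v) = HomTw.hom π V M φ v
    simp
  mul_smul g h φ := AddMonoidHom.ext fun v => by
    show (g * h) • HomTw.hom π V M φ ((π (g * h))⁻¹ • v) =
      g • h • HomTw.hom π V M φ ((π h)⁻¹ • (π g)⁻¹ • v)
    rw [map_mul, mul_inv_rev, mul_smul, mul_smul]
  smul_zero g := AddMonoidHom.ext fun v => smul_zero g
  smul_add g φ ψ := AddMonoidHom.ext fun v => smul_add g _ _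

variable {V M}

/-- Precomposition. -/
def HomTw.precomp {W : Type} [AddCommGroup W] [DistribMulAction P W] (f : W →+ V) :
    HomTw π V M →+ HomTw π W M :=
  AddMonoidHom.mk' (fun φ => HomTw.mk π W M ((HomTw.hom π V M φ).comp f)) fun _ _ => rfl

lemma HomTw.precomp_smul {W : Type} [AddCommGroup W] [DistribMulAction P W] (f : W →+ V)
    (hf : ∀ (g : P) w, f (g • w) = g • f w) (g : Γ) (φ : HomTw π V M) :
    HomTw.precomp π f (g • φ) = g • HomTw.precomp π f φ :=
  AddMonoidHom.ext fun w => by
    show g • HomTw.hom π V M φ ((π g)⁻¹ • f w) = g • HomTw.hom π V M φ (f ((π g)⁻¹ • w))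
    rw [hf]

end Hom

variable {p : ℕ} [hp : Fact p.Prime] {Γ : Type} [Group Γ] {U : Subgroup Γ}

/-- Cyclicity over the level. -/
def IsCyclicOver (U W : Subgroup Γ) : Prop :=
  U ≤ W ∧ ∃ g ∈ W, ∀ w ∈ W, ∃ i : ℤ, (g ^ i)⁻¹ * w ∈ U

variable {P : Type} [Group P] (π : Γ →* P)

omit hp in
lemma homTw_good {V M : Type} [AddCommGroup V] [DistribMulAction P V] [AddCommGroup M]
    [DistribMulAction Γ M] (hT : ∀ g ∈ U, ∀ m : M, g • m = m) (hK : ∀ m : M, p • m = 0)
    (hπ : U ≤ π.ker) :
    (∀ g ∈ U, ∀ φ : HomTw π V M, g • φ = φ) ∧ ∀ φ : HomTw π V M, p • φ = 0 :=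
  ⟨fun g hg φ => AddMonoidHom.ext fun v => by
    show g • HomTw.hom π V M φ ((π g)⁻¹ • v) = HomTw.hom π V M φ v
    rw [show π g = 1 from hπ hg, inv_one, one_smul, hT g hg],
  fun φ => AddMonoidHom.ext fun v => hK _⟩

/-- Sequences of modules over the quotient give sequences of twisted maps. -/
def homSes {M A B C : Type} [AddCommGroup M] [DistribMulAction Γ M] [Module (ZMod p) M]
    [AddCommGroup A] [DistribMulAction P A] [AddCommGroup B] [DistribMulAction P B]
    [AddCommGroup C] [DistribMulAction P C] (hB : ∀ b : B, p • b = 0) (E : Ses P A B C) :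
    Ses Γ (HomTw π C M) (HomTw π B M) (HomTw π A M) where
  i := HomTw.precomp π E.q
  q := HomTw.precomp π E.i
  i_smul := HomTw.precomp_smul π E.q E.q_smul
  q_smul := HomTw.precomp_smul π E.i E.i_smul
  inj φ ψ h := AddMonoidHom.ext fun c => by
    obtain ⟨b, rfl⟩ := E.surj c
    exact DFunLike.congr_fun (F := B →+ M) h b
  surj φ := by
    let : Module (ZMod p) B := AddCommGroup.zmodModule hB
    let : Module (ZMod p) A := AddCommGroup.zmodModule fun a => E.inj (by
      rw [map_nsmul, hB, map_zero])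
    obtain ⟨r, hr⟩ := (E.i.toZModLinearMap p).exists_leftInverse_of_injective
      (LinearMap.ker_eq_bot.mpr E.inj)
    exact ⟨HomTw.mk π B M ((HomTw.hom π A M φ).comp r.toAddMonoidHom), AddMonoidHom.ext fun a => by
      show HomTw.hom π A M φ (r (E.i a)) = _
      rw [show r (E.i a) = a from LinearMap.congr_fun hr a]
      rfl⟩
  exact φ := by
    constructor
    · intro h
      refine
        ⟨HomTw.mk π C M (AddMonoidHom.mk' (fun c => HomTw.hom π B M φ (E.lift c)) fun c c' => ?_),
        AddMonoidHom.ext fun b => ?_⟩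
      · rw [← map_add]
        refine sub_eq_zero.mp ?_
        rw [← map_sub]
        obtain ⟨a, ha⟩ := (E.exact (E.lift (c + c') - (E.lift c + E.lift c'))).mp (by
          rw [map_sub, map_add, E.q_lift, E.q_lift, E.q_lift, sub_self])
        rw [← ha]
        exact DFunLike.congr_fun (F := A →+ M) h a
      · show HomTw.hom π B M φ (E.lift (E.q b)) = HomTw.hom π B M φ b
        refine sub_eq_zero.mp ?_
        rw [← map_sub]
        obtain ⟨a, ha⟩ := (E.exact (E.lift (E.q b) - b)).mp (by rw [map_sub, E.q_lift, sub_self])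
        rw [← ha]
        exact DFunLike.congr_fun (F := A →+ M) h a
    · rintro ⟨ψ, rfl⟩
      exact AddMonoidHom.ext fun a => by
        show HomTw.hom π C M ψ (E.q (E.i a)) = 0
        rw [E.q_i, map_zero]

/-- What the reduction uses of a characteristic of modules trivial on a level and killed by `p`. -/
structure IsAdditive (p : ℕ) (U : Subgroup Γ)
    (e : ∀ (M : Type) [AddCommGroup M] [DistribMulAction Γ M], ℤ) : Prop where
  normal : U.Normal
  finiteIndex : U.FiniteIndex
  add : ∀ {A B C : Type} [AddCommGroup A] [DistribMulAction Γ A] [AddCommGroup B]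
    [DistribMulAction Γ B] [AddCommGroup C] [DistribMulAction Γ C] [Finite B],
    (∀ g ∈ U, ∀ b : B, g • b = b) → (∀ b : B, p • b = 0) → Ses Γ A B C → e B = e A + e C

omit hp in
/-- An additive characteristic only depends on the isomorphism class. -/
theorem IsAdditive.congr {e : ∀ (M : Type) [AddCommGroup M] [DistribMulAction Γ M], ℤ}
    (T : IsAdditive p U e) {A B : Type} [AddCommGroup A] [DistribMulAction Γ A] [AddCommGroup B]
    [DistribMulAction Γ B] [Finite B] (hB : ∀ g ∈ U, ∀ b : B, g • b = b) (hBp : ∀ b : B, p • b = 0)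
    (f : A →+ B) (hf : Function.Bijective f) (hs : ∀ (g : Γ) a, f (g • a) = g • f a) :
    e A = e B := by
  let : DistribMulAction Γ PUnit.{1} :=
    { smul := fun _ _ => PUnit.unit, one_smul := fun _ => rfl,
      mul_smul := fun _ _ _ => rfl, smul_zero := fun _ => rfl, smul_add := fun _ _ _ => rfl }
  have h := T.add hB hBp (⟨f, 0, hs, fun _ _ => rfl, hf.1, fun c => ⟨0, rfl⟩,
    fun b => ⟨fun _ => hf.2 b, fun _ => rfl⟩⟩ : Ses Γ A B PUnit.{1})
  have h0 := T.add (fun _ _ _ => rfl) (fun _ => rfl) (⟨AddMonoidHom.id _, AddMonoidHom.id _,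
    fun _ _ => rfl, fun _ _ => rfl, fun _ _ h => h, fun c => ⟨c, rfl⟩,
    fun b => ⟨fun _ => ⟨b, rfl⟩, fun _ => rfl⟩⟩ : Ses Γ PUnit.{1} PUnit.{1} PUnit.{1})
  linarith

/-- The additive invariant attached to a module. -/
def homInv {e : ∀ (M : Type) [AddCommGroup M] [DistribMulAction Γ M], ℤ} (T : IsAdditive p U e)
    (hπ : U ≤ π.ker) (M : Type) [AddCommGroup M] [DistribMulAction Γ M] [Finite M]
    (hT : ∀ g ∈ U, ∀ m : M, g • m = m) (hK : ∀ m : M, p • m = 0) : AddInv p P where
  val A _ _ := e (HomTw π A M)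
  add A B C _ _ _ _ _ _ _ hB E := by
    let : Module (ZMod p) M := AddCommGroup.zmodModule hK
    rw [T.add (homTw_good π hT hK hπ).1 (homTw_good π hT hK hπ).2 (homSes π hB E), add_comm]

/-- The lattice of functions on a set. -/
def PermLat (X : Type) : Type := X → ℤ

namespace PermLat

variable (X : Type) [MulAction P X]

instance : AddCommGroup (PermLat X) := inferInstanceAs (AddCommGroup (X → ℤ))
instance [Finite X] : Module.Free ℤ (PermLat X) :=
  (inferInstance : Module.Free ℤ (X → ℤ))
instance [Finite X] : Module.Finite ℤ (PermLat X) :=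
  (inferInstance : Module.Finite ℤ (X → ℤ))
instance : DistribMulAction P (PermLat X) where
  smul g v := fun x => (v : X → ℤ) (g⁻¹ • x)
  one_smul v := funext fun x => by show (v : X → ℤ) ((1 : P)⁻¹ • x) = _; rw [inv_one, one_smul]
  mul_smul g h v := funext fun x => by
    show (v : X → ℤ) ((g * h)⁻¹ • x) = (v : X → ℤ) (h⁻¹ • g⁻¹ • x)
    rw [mul_inv_rev, mul_smul]
  smul_zero g := rfl
  smul_add g v w := rfl

/-- The basis of points. -/
def basis [Finite X] : Module.Basis X ℤ (PermLat X) := Pi.basisFun ℤ X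

/-- The character of a permutation lattice counts fixed points. -/
lemma latChar_eq [Fintype X] (g : P) :
    latChar (PermLat X) g = (Finset.univ.filter fun x : X => g • x = x).card := by
  rw [latChar, LinearMap.trace_eq_matrix_trace ℤ (basis X), Matrix.trace, Finset.card_filter,
    Nat.cast_sum]
  refine Finset.sum_congr rfl fun x _ => ?_
  rw [Matrix.diag_apply, LinearMap.toMatrix_apply]
  show (Pi.basisFun ℤ X).repr (fun y => Pi.basisFun ℤ X x (g⁻¹ • y)) x = _
  rw [Pi.basisFun_repr, Pi.basisFun_apply, Pi.single_apply]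
  by_cases h : g • x = x
  · rw [if_pos (inv_smul_eq_iff.mpr h.symm), if_pos h, Nat.cast_one]
  · rw [if_neg fun e => h (inv_smul_eq_iff.mp e).symm, if_neg h, Nat.cast_zero]

end PermLat

/-- Realisations of a character and a value by a lattice. -/
def Realised (f : AddInv p P) (c : (P → ℤ) × ℤ) : Prop :=
  ∃ (L : Type) (_ : AddCommGroup L) (_ : DistribMulAction P L) (_ : Module.Free ℤ L)
    (_ : Module.Finite ℤ L), (∀ g, latChar L g = c.1 g) ∧ f.latVal L = c.2

lemma realised_add (f : AddInv p P) {c c' : (P → ℤ) × ℤ} (h : Realised f c)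
    (h' : Realised f c') : Realised f (c + c') := by
  obtain ⟨L, _, _, _, _, hc, hv⟩ := h
  obtain ⟨L', _, _, _, _, hc', hv'⟩ := h'
  obtain ⟨v, k⟩ := latVal_add f (⟨AddMonoidHom.inl L L', AddMonoidHom.snd L L',
    fun g a => Prod.ext rfl (smul_zero g).symm, fun _ _ => rfl,
    fun a b h => congrArg Prod.fst h, fun y => ⟨(0, y), rfl⟩,
    fun b => ⟨fun hb => ⟨b.1, Prod.ext rfl hb.symm⟩, fun ⟨a, ha⟩ => ha ▸ rfl⟩⟩ :
      Ses P L (L × L') L')
  exact ⟨L × L', inferInstance, inferInstance, inferInstance, inferInstance,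
    fun g => by rw [k g, hc g, hc' g]; rfl, by rw [v, hv, hv']; rfl⟩

omit hp in
lemma realised_zero (f : AddInv p P) : Realised f 0 := by
  let : MulAction P PEmpty :=
    { smul := fun _ e => e, one_smul := fun _ => rfl, mul_smul := fun _ _ _ => rfl }
  refine ⟨PermLat PEmpty, inferInstance, inferInstance, inferInstance, inferInstance,
    fun g => ?_, ?_⟩
  · rw [PermLat.latChar_eq]; simp
  · have : Subsingleton (PermLat PEmpty) := inferInstanceAs (Subsingleton (PEmpty → ℤ))
    have : Subsingleton (Modp p (PermLat PEmpty)) := (toModp_surjective p _).subsingleton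
    exact f.val_of_subsingleton

lemma realised_nsmul (f : AddInv p P) [Finite P] {c : (P → ℤ) × ℤ} (h : Realised f c) :
    ∀ n : ℕ, Realised f (n • c)
  | 0 => by rw [zero_smul]; exact realised_zero f
  | n + 1 => by rw [succ_nsmul]; exact realised_add f (realised_nsmul f h n) h

variable [Fintype P]

/-- The module of maps from the reduced coset lattice is induced. -/
def permToInd (D : Subgroup P) (M : Type) [AddCommGroup M]
    [DistribMulAction Γ M] :
    HomTw π (Modp p (PermLat (P ⧸ D))) M →+ Ind (D.comap π) M :=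
  AddMonoidHom.mk' (fun φ => Ind.mk _ fun c => HomTw.hom π _ M φ (toModp p _
    ((PermLat.basis (P ⧸ D)) (Quotient.liftOn' c (fun g => ((π g : P) : P ⧸ D)) fun a b h => by
      rw [QuotientGroup.leftRel_apply, Subgroup.mem_comap, map_mul, map_inv] at h
      exact QuotientGroup.eq.mpr h))))
    fun φ ψ => Ind.ext fun c => rfl

omit hp in
lemma permToInd_bijective (D : Subgroup P) (hπs : Function.Surjective π) {M : Type} [AddCommGroup M]
    [DistribMulAction Γ M] (hM : ∀ m : M, p • m = 0) :
    Function.Bijective (permToInd (p := p) π D M) := by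
  let j : Γ ⧸ D.comap π → P ⧸ D := fun c =>
    Quotient.liftOn' c (fun g => ((π g : P) : P ⧸ D)) fun a b h => by
      rw [QuotientGroup.leftRel_apply, Subgroup.mem_comap, map_mul, map_inv] at h
      exact QuotientGroup.eq.mpr h
  have hj : Function.Bijective j := by
    refine ⟨fun a b hab => ?_, fun x => ?_⟩
    · obtain ⟨a, rfl⟩ := QuotientGroup.mk_surjective a
      obtain ⟨b, rfl⟩ := QuotientGroup.mk_surjective b
      have h := QuotientGroup.eq.mp hab
      rw [← map_inv, ← map_mul] at h
      exact QuotientGroup.eq.mpr h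
    · obtain ⟨y, rfl⟩ := QuotientGroup.mk_surjective x
      obtain ⟨g, rfl⟩ := hπs y
      exact ⟨g, rfl⟩
  let e := Equiv.ofBijective j hj
  refine ⟨(injective_iff_map_eq_zero _).mpr fun φ hφ => ?_, fun ψ => ?_⟩
  · refine AddMonoidHom.ext fun a => ?_
    show HomTw.hom π _ M φ a = 0
    obtain ⟨v, rfl⟩ := toModp_surjective p _ a
    rw [← (PermLat.basis (P ⧸ D)).sum_repr v, map_sum, map_sum]
    refine Finset.sum_eq_zero fun x _ => ?_
    obtain ⟨c, rfl⟩ := hj.2 x
    have : HomTw.hom π _ M φ (toModp p _ (PermLat.basis (P ⧸ D) (j c))) = 0 :=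
      (congrArg (fun ξ => Ind.eval c ξ) hφ).trans (map_zero _)
    rw [map_zsmul, map_zsmul, this, smul_zero]
  · let F : PermLat (P ⧸ D) →+ M := AddMonoidHom.mk'
      (fun v => ∑ x, (v : P ⧸ D → ℤ) x • ψ (e.symm x)) fun v w => by
        rw [← Finset.sum_add_distrib]
        exact Finset.sum_congr rfl fun x _ => add_smul _ _ _
    refine ⟨HomTw.mk π _ M (QuotientAddGroup.lift _ F fun v hv => by
      obtain ⟨w, rfl⟩ := hv
      show F (p • w) = 0
      rw [map_nsmul, hM]), Ind.ext fun c => ?_⟩
    show F (Pi.basisFun ℤ (P ⧸ D) (j c)) = ψ c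
    show (∑ x, (Pi.basisFun ℤ (P ⧸ D) (j c)) x • ψ (e.symm x)) = ψ c
    rw [Finset.sum_eq_single (j c)]
    · rw [Pi.basisFun_apply, Pi.single_eq_same, one_smul,
        show e.symm (j c) = c from e.symm_apply_apply c]
    · intro x _ hx
      rw [Pi.basisFun_apply, Pi.single_eq_of_ne hx, zero_smul]
    · simp

omit hp in
lemma permToInd_smul (D : Subgroup P) {M : Type} [AddCommGroup M]
    [DistribMulAction Γ M] (g : Γ) (φ : HomTw π (Modp p (PermLat (P ⧸ D))) M) :
    permToInd (p := p) π D M (g • φ) = g • permToInd (p := p) π D M φ := by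
  refine Ind.ext fun c => ?_
  obtain ⟨x, rfl⟩ := QuotientGroup.mk_surjective c
  rw [Ind.smul_apply]
  show g • HomTw.hom π _ M φ ((π g)⁻¹ • toModp p _ (PermLat.basis (P ⧸ D) ((π x : P) : P ⧸ D))) =
    g • HomTw.hom π _ M φ (toModp p _ (PermLat.basis (P ⧸ D) ((π (g⁻¹ * x) : P) : P ⧸ D)))
  rw [smul_toModp]
  refine congrArg (fun v => g • HomTw.hom π _ M φ (toModp p _ v)) (funext fun y => ?_)
  show Pi.basisFun ℤ (P ⧸ D) _ ((π g)⁻¹⁻¹ • y) = Pi.basisFun ℤ (P ⧸ D) _ y
  rw [inv_inv, Pi.basisFun_apply, Pi.basisFun_apply, Pi.single_apply, Pi.single_apply]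
  refine if_congr ?_ rfl rfl
  rw [map_mul, map_inv, smul_eq_iff_eq_inv_smul]
  rfl

include hp in
/-- Reduction to induced modules from subgroups cyclic over the level. -/
theorem eq_zero_of_cyclic {e : ∀ (M : Type) [AddCommGroup M] [DistribMulAction Γ M], ℤ}
    (T : IsAdditive p U e)
    (hcyc : ∀ (W : Subgroup Γ) [W.FiniteIndex], IsCyclicOver U W → ∀ (M : Type) [AddCommGroup M]
      [DistribMulAction Γ M] [Finite M], (∀ g ∈ U, ∀ m : M, g • m = m) → (∀ m : M, p • m = 0) →
        e (Ind W M) = 0)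
    (M : Type) [AddCommGroup M] [DistribMulAction Γ M] [Finite M]
    (hT : ∀ g ∈ U, ∀ m : M, g • m = m) (hK : ∀ m : M, p • m = 0) :
    e M = 0 := by
  have := T.finiteIndex
  have := T.normal
  have : Finite (Γ ⧸ U) := Subgroup.finite_quotient_of_finiteIndex
  let : Fintype (Γ ⧸ U) := Fintype.ofFinite _
  let π : Γ →* Γ ⧸ U := QuotientGroup.mk' U
  have hπs : Function.Surjective π := QuotientGroup.mk'_surjective U
  have hπ : U ≤ π.ker := (QuotientGroup.ker_mk' U).ge
  set f := homInv π T hπ M hT hK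
  have hgoodI : ∀ D : Subgroup (Γ ⧸ U), (∀ g ∈ U, ∀ φ : Ind (D.comap π) M, g • φ = φ) ∧
      ∀ φ : Ind (D.comap π) M, p • φ = 0 := fun D =>
    ⟨fun g hg φ => Ind.ext fun c => by
        obtain ⟨x, rfl⟩ := QuotientGroup.mk_surjective c
        rw [Ind.smul_apply, hT g hg]
        refine congrArg (fun z => φ z) (?_ : g⁻¹ • ((x : Γ) : Γ ⧸ D.comap π) = x)
        rw [MulAction.Quotient.smul_coe, smul_eq_mul, QuotientGroup.eq, Subgroup.mem_comap, map_mul,
          map_inv, map_mul, map_inv, show π g = 1 from hπ hg]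
        simp,
      fun φ => Ind.ext fun c => by
        show p • φ c = 0
        exact hK _⟩
  have hfi : ∀ D : Subgroup (Γ ⧸ U), (D.comap π).FiniteIndex := fun D =>
    Subgroup.finiteIndex_of_le (hπ.trans (MonoidHom.ker_le_comap π D))
  have hval : ∀ D : Subgroup (Γ ⧸ U),
      f.latVal (PermLat ((Γ ⧸ U) ⧸ D)) = e (Ind (D.comap π) M) := fun D => by
    have := hfi D
    have : Finite (Γ ⧸ D.comap π) := Subgroup.finite_quotient_of_finiteIndex
    exact T.congr (hgoodI D).1 (hgoodI D).2 (permToInd π D M) (permToInd_bijective π D hπs hK)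
      (permToInd_smul π D)
  -- the point
  have hpoint : e (Ind ((⊤ : Subgroup (Γ ⧸ U)).comap π) M) = e M := by
    have := hfi ⊤
    have : Finite (Γ ⧸ (⊤ : Subgroup (Γ ⧸ U)).comap π) := Subgroup.finite_quotient_of_finiteIndex
    have : Subsingleton (Γ ⧸ (⊤ : Subgroup (Γ ⧸ U)).comap π) := ⟨fun a b => by
      obtain ⟨a, rfl⟩ := QuotientGroup.mk_surjective a
      obtain ⟨b, rfl⟩ := QuotientGroup.mk_surjective b
      exact QuotientGroup.eq.mpr trivial⟩
    refine T.congr hT hK (Ind.total) ⟨fun a b h => Ind.ext fun c => ?_, Ind.total_surjective⟩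
      Ind.total_smul
    rw [Ind.total_apply, Ind.total_apply] at h
    exact (Fintype.sum_subsingleton (fun x => a x) c).symm.trans
      (h.trans (Fintype.sum_subsingleton (fun x => b x) c))
  obtain ⟨N, a, b, hN, hrel⟩ := exists_perm_relation (Γ ⧸ U)
  let cz : Γ ⧸ U → ((Γ ⧸ U → ℤ) × ℤ) := fun g =>
    (fun h => (fixCount (Subgroup.zpowers g) h : ℤ),
      e (Ind ((Subgroup.zpowers g).comap π) M))
  have hcz : ∀ g, Realised f (cz g) := fun g =>
    ⟨PermLat ((Γ ⧸ U) ⧸ Subgroup.zpowers g), inferInstance, inferInstance, inferInstance,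
      inferInstance, fun h => by
        rw [PermLat.latChar_eq]
        show _ = ((fixCount (Subgroup.zpowers g) h : ℕ) : ℤ)
        unfold fixCount
        congr!, hval _⟩
  have hone : Realised f (fun _ => 1, e M) :=
    ⟨PermLat ((Γ ⧸ U) ⧸ (⊤ : Subgroup (Γ ⧸ U))), inferInstance, inferInstance, inferInstance,
      inferInstance, fun h => by
        rw [PermLat.latChar_eq]
        have : Subsingleton ((Γ ⧸ U) ⧸ (⊤ : Subgroup (Γ ⧸ U))) :=
          QuotientGroup.subsingleton_quotient_top
        refine Nat.cast_eq_one.mpr (Finset.card_eq_one.mpr ⟨((1 : Γ ⧸ U) : _ ⧸ _), ?_⟩)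
        ext y
        simp only [Finset.mem_filter, Finset.mem_univ, true_and, Finset.mem_singleton]
        exact iff_of_true (Subsingleton.elim _ _) (Subsingleton.elim _ _), by rw [hval ⊤, hpoint]⟩
  have hsum : ∀ k : Γ ⧸ U → ℕ, Realised f (∑ g, k g • cz g) := fun k =>
    Finset.sum_induction _ (Realised f) (fun _ _ => realised_add f) (realised_zero f)
      fun g _ => realised_nsmul f (hcz g) (k g)
  obtain ⟨L, _, _, _, _, hc, hv⟩ := realised_add f (realised_nsmul f hone N) (hsum b)
  obtain ⟨L', _, _, _, _, hc', hv'⟩ := hsum a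
  have hchar : ∀ h, latChar L h = latChar L' h := fun h => by
    rw [hc h, hc' h]
    simp only [cz, Prod.fst_add, Prod.smul_fst, Prod.fst_sum, Pi.add_apply, Pi.smul_apply,
      Finset.sum_apply]
    simp only [nsmul_eq_mul, mul_one]
    exact_mod_cast hrel h
  have h := latVal_eq_of_latChar f _ L L' rfl hchar
  rw [hv, hv'] at h
  have hz : ∀ g : Γ ⧸ U, e (Ind ((Subgroup.zpowers g).comap π) M) = 0 := fun g => by
    have := hfi (Subgroup.zpowers g)
    obtain ⟨g₀, rfl⟩ := hπs g
    refine hcyc _ ⟨hπ.trans (MonoidHom.ker_le_comap π _), g₀, Subgroup.mem_zpowers _,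
      fun w hw => ?_⟩ M hT hK
    obtain ⟨i, hi⟩ := Subgroup.mem_zpowers_iff.mp (Subgroup.mem_comap.mp hw)
    refine ⟨i, ?_⟩
    rw [← QuotientGroup.ker_mk' U, MonoidHom.mem_ker, map_mul, map_inv, map_zpow]
    exact inv_mul_eq_one.mpr hi
  simp only [Prod.snd_add, Prod.smul_snd, Prod.snd_sum, cz, hz, smul_zero, Finset.sum_const_zero,
    add_zero] at h
  rw [nsmul_eq_mul, mul_eq_zero] at h
  exact h.resolve_left (Nat.cast_ne_zero.mpr hN.ne')

end FermatAgent.CFT.Euler
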