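import Fermat.Agent.CFT.Euler.Formula
import Fermat.Agent.CFT.Euler.Reduce
import Fermat.Agent.CFT.Global.SDuality

/-!
A quotient of two subgroups, modules trivial on the smaller one, and averaging.
-/

set_option autoImplicit false

noncomputable section

open scoped Classical

namespace FermatAgent.CFT.Euler

open Coh

variable {Γ : Type} [Group Γ] (W V : Subgroup Γ)

/-- The quotient of two subgroups. -/
abbrev QG : Type := ↥W ⧸ V.subgroupOf W

variable [hn : (V.subgroupOf W).Normal]

/-- The class of an element. -/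
abbrev qg : ↥W →* QG W V := QuotientGroup.mk' (V.subgroupOf W)

/-- The intersection is stable under conjugation by the larger group. -/
lemma conj_mem_inter (w : W) {v : Γ} (hv : v ∈ V ⊓ W) :
    (w : Γ) * v * (w : Γ)⁻¹ ∈ V ⊓ W :=
  ⟨hn.conj_mem ⟨v, hv.2⟩ hv.1 w, W.mul_mem (W.mul_mem w.2 hv.2) (W.inv_mem w.2)⟩

/-- The intersection is stable under inverse conjugation by the larger group. -/
lemma conj_mem_inter' (w : W) {v : Γ} (hv : v ∈ V ⊓ W) :
    (w : Γ)⁻¹ * v * (w : Γ) ∈ V ⊓ W := by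
  simpa using conj_mem_inter W V w⁻¹ hv

/-- The smaller subgroup acts trivially. -/
def TrivG (A : Type) [AddCommGroup A] [DistribMulAction W A] : Prop :=
  ∀ v : W, (v : Γ) ∈ V → ∀ a : A, v • a = a

variable {W V}

/-- Trivial actions factor through the quotient. -/
lemma trivG_congr {A : Type} [AddCommGroup A] [DistribMulAction W A] (hA : TrivG W V A) {w w' : W}
    (h : qg W V w = qg W V w') (a : A) : w • a = w' • a := by
  have h1 : w⁻¹ * w' ∈ V.subgroupOf W := QuotientGroup.eq.mp h
  rw [← hA (w⁻¹ * w') h1 a, ← mul_smul, mul_inv_cancel_left, hA (w⁻¹ * w') h1 a]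

/-- An action of the quotient from one of the larger group, trivial on the smaller one. -/
@[reducible] def quoLift {A : Type} [AddCommGroup A] (act : W → A →+ A) (h1 : ∀ a, act 1 a = a)
    (hmul : ∀ w w' a, act (w * w') a = act w (act w' a))
    (hV : ∀ v : W, (v : Γ) ∈ V → ∀ a, act v a = a) : DistribMulAction (QG W V) A :=
  DistribMulAction.compHom A (QuotientGroup.lift (V.subgroupOf W)
    ({ toFun := act
       map_one' := AddMonoidHom.ext h1
       map_mul' := fun w w' => AddMonoidHom.ext (hmul w w') } : W →* AddMonoid.End A)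
    fun v hv => AddMonoidHom.ext (hV v hv))

/-- The action of the quotient. -/
@[reducible] def quoActG (A : Type) [AddCommGroup A] [DistribMulAction W A] (hA : TrivG W V A) :
    DistribMulAction (QG W V) A :=
  quoLift (DistribSMul.toAddMonoidHom A) (one_smul W) mul_smul hA

/-- The quotient action of a class. -/
lemma quoActG_smul {A : Type} [AddCommGroup A] [DistribMulAction W A] (hA : TrivG W V A) (w : W)
    (a : A) :
    letI := quoActG A hA
    qg W V w • a = w • a :=
  rfl

/-- Invariants of the quotient action have the same exponent. -/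
lemma ldim_h0_quoActG (p : ℕ) {A : Type} [AddCommGroup A] [DistribMulAction W A]
    (hA : TrivG W V A) :
    letI := quoActG A hA
    ldim p (h0Sub (QG W V) A) = ldim p (h0Sub W A) :=
  letI := quoActG A hA
  ldim_congr p (Equiv.subtypeEquivRight fun n =>
    ⟨fun h w => (quoActG_smul hA w n).symm.trans (h _), fun h γ => by
      obtain ⟨w, rfl⟩ := QuotientGroup.mk'_surjective (V.subgroupOf W) γ
      exact (quoActG_smul hA w n).trans (h w)⟩)

variable {p : ℕ} [hp : Fact p.Prime] [Fintype (QG W V)] {L : Levels Γ}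

/-- A cocycle vanishing on the smaller subgroup is a coboundary. -/
lemma mem_B1_of_zero_onG (hcop : ¬ p ∣ Fintype.card (QG W V)) {N : Type} [AddCommGroup N]
    [DistribMulAction W N] (hN : ∀ n : N, p • n = 0) {c : W → N}
    (hc : c ∈ (L.comap W.subtype).Z1 ⊤ N) (hzero : ∀ v : W, (v : Γ) ∈ V → c v = 0) :
    c ∈ Levels.B1 (⊤ : Subgroup W) N := by
  let : Module (ZMod p) N := AddCommGroup.zmodModule hN
  have hcl : ∀ w w' : W, qg W V w = qg W V w' → c w = c w' := fun w w' h => by
    have h1 : w⁻¹ * w' ∈ V.subgroupOf W := QuotientGroup.eq.mp h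
    rw [← mul_inv_cancel_left w w',
      Levels.Z1_apply_mul hc (Subgroup.mem_top _) (Subgroup.mem_top _),
      hzero (w⁻¹ * w') h1, smul_zero,
      zero_add]
  set sc : N := ∑ x : QG W V, c (Quotient.out x)
  have hsum : ∀ w : W, sc = w • sc + Fintype.card (QG W V) • c w := fun w => by
    rw [Finset.smul_sum, ← Finset.card_univ, ← Finset.sum_const, ← Finset.sum_add_distrib]
    refine (Fintype.sum_equiv (Equiv.mulLeft (qg W V w)) _ _ fun x => ?_).symm
    rw [← Levels.Z1_apply_mul hc (Subgroup.mem_top _) (Subgroup.mem_top _)]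
    refine hcl _ _ ?_
    rw [map_mul]
    show qg W V w * QuotientGroup.mk (Quotient.out x) =
      QuotientGroup.mk (Quotient.out (qg W V w * x))
    rw [QuotientGroup.out_eq', QuotientGroup.out_eq']
  have hcard : (Fintype.card (QG W V) : ZMod p) ≠ 0 := by
    rw [Ne, ZMod.natCast_eq_zero_iff]; exact hcop
  refine ⟨-((Fintype.card (QG W V) : ZMod p)⁻¹ • sc), fun w _ => ?_⟩
  rw [d0, smul_neg, smul_zmod_comm, sub_neg_eq_add, add_comm, ← sub_eq_add_neg, ← smul_sub,
    show sc - w • sc = Fintype.card (QG W V) • c w by rw [sub_eq_iff_eq_add']; exact hsum w,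
    ← Nat.cast_smul_eq_nsmul (ZMod p), ← mul_smul, inv_mul_cancel₀ hcard, one_smul]

variable {χ : Γ →* (ZMod p)ˣ}

omit [Fintype (QG W V)] hn in
/-- The dual is trivial on the smaller subgroup. -/
lemma trivG_dual (hVχ : V ≤ χ.ker) {N : Type} [AddCommGroup N] [DistribMulAction W N]
    (hV : TrivG W V N) : TrivG W V (Dual (χ.comp W.subtype) N) := fun v hv f =>
  AddMonoidHom.ext fun n => by
    show (χ (v : Γ) : ZMod p) * Dual.hom _ N f (v⁻¹ • n) = Dual.hom _ N f n
    rw [show χ (v : Γ) = 1 from hVχ hv, Units.val_one, one_mul, hV v⁻¹ (by exact V.inv_mem hv)]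

/-- The character on the quotient. -/
def chiG (hVχ : V ≤ χ.ker) : QG W V →* (ZMod p)ˣ :=
  QuotientGroup.lift (V.subgroupOf W) (χ.comp W.subtype) fun _ hv => hVχ hv

omit [Fintype (QG W V)] in
/-- The character on the quotient. -/
lemma chiG_qg (hVχ : V ≤ χ.ker) (w : W) : chiG hVχ (qg W V w) = χ (w : Γ) := rfl

omit [Fintype (QG W V)] in
/-- Equivariant maps from the dual into roots of unity are fixed elements. -/
lemma ldim_hom_mu (hVχ : V ≤ χ.ker) {N : Type} [AddCommGroup N] [DistribMulAction W N] [Finite N]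
    (hV : TrivG W V N) (hN : ∀ n : N, p • n = 0) :
    letI := quoActG (Dual (χ.comp W.subtype) N) (trivG_dual hVχ hV)
    ldim p (h0Sub (QG W V) (HomTw (MonoidHom.id (QG W V)) (Dual (χ.comp W.subtype) N)
      (Mu (chiG (W := W) hVχ)))) = ldim p (h0Sub W N) := by
  set χ' := χ.comp W.subtype
  set N' := Dual χ' N
  have hN' : TrivG W V N' := trivG_dual hVχ hV
  let := quoActG N' hN'
  have : Finite N' := DFunLike.finite (N →+ ZMod p)
  let ev : N → HomTw (MonoidHom.id (QG W V)) N' (Mu (chiG (W := W) hVχ)) := fun n =>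
    HomTw.mk (MonoidHom.id (QG W V)) N' _
      (AddMonoidHom.mk' (fun f => Mu.of _ (Dual.hom χ' N f n)) fun f f' => rfl)
  have hev : Function.Bijective ev := by
    have := DFunLike.finite (N' →+ ZMod p)
    refine (Nat.bijective_iff_injective_and_card ev).mpr ⟨fun a b h => ?_, ?_⟩
    · by_contra hne
      obtain ⟨ψ, hψ⟩ := Global.exists_hom_ne_zero (p := p) hN (sub_ne_zero.mpr hne)
      refine hψ ?_
      rw [map_sub, sub_eq_zero]
      exact congrArg (Mu.val _) (DFunLike.congr_fun (F := N' →+ Mu (chiG (W := W) hVχ)) h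
        (Dual.mk χ' N ψ))
    · rw [← card_homZMod hN]
      exact (card_homZMod (A := N') fun f => AddMonoidHom.ext fun m => by
        show p • Dual.hom χ' N f m = 0
        rw [nsmul_eq_mul, ZMod.natCast_self, zero_mul]).symm
  have key : ∀ (w : W) (n : N),
      qg W V w • ev n = ev (w • n) := fun w n => AddMonoidHom.ext fun f => by
    show qg W V w • Mu.of (chiG (W := W) hVχ) (Dual.hom χ' N ((qg W V w)⁻¹ • f) n) =
      Mu.of _ (Dual.hom χ' N f (w • n))
    rw [← map_inv, quoActG_smul hN']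
    refine Mu.ext _ ?_
    rw [Mu.val_smul, Mu.val_of, Mu.val_of, chiG_qg]
    show (χ (w : Γ) : ZMod p) * ((χ ((w⁻¹ : W) : Γ) : ZMod p) *
      Dual.hom χ' N f ((w⁻¹)⁻¹ • n)) = _
    rw [Subgroup.coe_inv, map_inv, ← mul_assoc, Units.mul_inv, one_mul, inv_inv]
  have hfix : ∀ n : N, ev n ∈ h0Sub (QG W V) (HomTw (MonoidHom.id (QG W V)) N'
      (Mu (chiG (W := W) hVχ))) ↔ ∀ w : W, w • n = n := fun n => by
    constructor
    · intro h w
      exact hev.1 ((key w n).symm.trans (h (qg W V w)))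
    · intro h γ
      obtain ⟨w, rfl⟩ := QuotientGroup.mk'_surjective (V.subgroupOf W) γ
      exact (key w n).trans (congrArg ev (h w))
  refine (ldim_congr p (Equiv.ofBijective (fun n : h0Sub W N => (⟨ev n.1, (hfix n.1).mpr n.2⟩ :
    h0Sub (QG W V) (HomTw (MonoidHom.id (QG W V)) N' (Mu (chiG (W := W) hVχ)))))
    ⟨fun a b h => Subtype.ext (hev.1 (congrArg Subtype.val h)), fun φ => ?_⟩)).symm
  obtain ⟨n, hn'⟩ := hev.2 φ.1
  exact ⟨⟨n, (hfix n).mp (hn' ▸ φ.2)⟩, Subtype.ext hn'⟩

section FixedModule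

variable {k Ω : Type} [Field k] [Field Ω] [Algebra k Ω] (W V : Subgroup (Ω ≃ₐ[k] Ω))
  [hn : (V.subgroupOf W).Normal]

/-- The multiplicative group of the field of the sublevel. -/
def Fx (W V : Subgroup (Ω ≃ₐ[k] Ω)) : Type := ↥(fixedUx (V ⊓ W : Subgroup (Ω ≃ₐ[k] Ω)))

instance : AddCommGroup (Fx W V) :=
  inferInstanceAs (AddCommGroup ↥(fixedUx (V ⊓ W : Subgroup (Ω ≃ₐ[k] Ω))))

/-- The underlying element. -/
def Fx.val : Fx W V →+ Ux Ω := (fixedUx (V ⊓ W)).subtype

omit hn in
/-- The value map of fixed units is injective. -/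
lemma Fx.val_injective : Function.Injective (Fx.val W V) := Subtype.val_injective

omit hn in
/-- Values of fixed units are fixed. -/
lemma Fx.val_mem (x : Fx W V) : Fx.val W V x ∈ fixedUx (V ⊓ W) := x.2

/-- From an element. -/
def Fx.mk (a : Ux Ω) (ha : a ∈ fixedUx (V ⊓ W)) : Fx W V := ⟨a, ha⟩

omit hn in
/-- The value of a fixed unit. -/
@[simp] lemma Fx.val_mk (a : Ux Ω) (ha : a ∈ fixedUx (V ⊓ W)) : Fx.val W V (Fx.mk W V a ha) = a :=
  rfl

/-- The action of an element. -/
def Fx.act (w : W) : Fx W V →+ Fx W V :=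
  AddMonoidHom.mk' (fun x => ⟨(w : Ω ≃ₐ[k] Ω) • x.1, fun v hv => by
    have h := x.2 _ (conj_mem_inter' W V w hv)
    conv_rhs => rw [← h]
    rw [← mul_smul, ← mul_smul, mul_assoc, mul_inv_cancel_left]⟩) fun x y =>
      Subtype.ext (smul_add (w : Ω ≃ₐ[k] Ω) x.1 y.1)

instance : DistribMulAction (QG W V) (Fx W V) :=
  quoLift (Fx.act W V) (fun x => Subtype.ext (one_smul (Ω ≃ₐ[k] Ω) x.1))
    (fun _ _ x => Subtype.ext (mul_smul (α := Ω ≃ₐ[k] Ω) _ _ x.1))
    fun v hv x => Subtype.ext (x.2 _ ⟨hv, v.2⟩)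

/-- The value map is equivariant. -/
lemma Fx.val_smul (w : W) (x : Fx W V) :
    Fx.val W V (qg W V w • x) = (w : Ω ≃ₐ[k] Ω) • Fx.val W V x := rfl

end FixedModule

end FermatAgent.CFT.Euler
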