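import Fermat.Agent.CFT.Euler.UnitChar
import Fermat.Agent.CFT.Euler.Formula
import Fermat.Agent.CFT.Euler.CoInd
import Fermat.Agent.CFT.Euler.Good
import Fermat.Agent.CFT.Global.SDatum
import Fermat.Agent.CFT.Global.ShaBridge

/-!
The global Euler characteristic of modules trivial on a fixed normal level, and its additivity.
-/

set_option autoImplicit false

noncomputable section

open scoped Classical
open IntermediateField

namespace FermatAgent.CFT.Euler

open Coh Local GaloisBasic Global

/-- The fixed hypotheses: a finite set of primes containing `p`, a normal level inside the kernel of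
the cyclotomic character, and class groups generated above the set below that level. -/
structure Setting (p : ℕ) [Fact p.Prime] (S : Finset Nat.Primes) (U : Subgroup GQ) : Prop where
  hp2 : p ≠ 2
  hpS : ExtCitation.pPrime p ∈ S
  normal : U.Normal
  level : U ∈ LS S
  le_ker : U ≤ (chiQ p).ker
  gen : ∀ (K : IntermediateField ℚ Qbar) [FiniteDimensional ℚ K], U ≤ K.fixingSubgroup →
    PrincipalOutside (above K S)

variable {p : ℕ} [hp : Fact p.Prime] {S : Finset Nat.Primes} {U : Subgroup GQ}

variable (T : Setting p S U)

include T in
/-- Good modules are smooth. -/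
lemma Setting.smooth {M : Type} [AddCommGroup M] [DistribMulAction GQ M] (hM : Good p U M) :
    (LS S).Smooth M := fun m => ⟨U, T.level, fun g hg => hM.triv g hg m⟩

include T in
/-- The subgroup has finite index. -/
lemma Setting.finiteIndex : U.FiniteIndex := (LS S).finiteIndex T.level

include T in
lemma Setting.field : ∃ K : IntermediateField ℚ Qbar, FiniteDimensional ℚ K ∧ K.fixingSubgroup = U ∧
    K.IsUnramifiedOutside S ∧ zet p ∈ K := by
  have hK := isUnramifiedOutside_of_mem T.level
  have := hK.1
  have hfix := fixingSubgroup_fixedField_of_mem (LS_le T.level)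
  refine ⟨fixedField U, hK.1, hfix, hK, fun g => ?_⟩
  show (g : GQ) • zet p = zet p
  have := apply_zet p (g : GQ)
  rw [show chiQ p (g : GQ) = 1 from T.le_ker g.2, Units.val_one, ZMod.val_one, pow_one] at this
  exact this

include T in
/-- The first cohomology of a finite good module is finite. -/
lemma Setting.finite_H1 {M : Type} [AddCommGroup M] [DistribMulAction GQ M] [Finite M]
    (hM : Good p U M) : Finite (H1 (LS S) M) := by
  obtain ⟨K, hfd, hfix, hK, hζ⟩ := T.field
  have := finite_Z1 T.hpS hK hζ (T.gen K hfix.ge) (fun g hg => hM.triv g (hfix ▸ hg)) hM.killed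
  exact Finite.of_surjective _ cls1_surjective

include T in
/-- Finiteness and size of the second cohomology. -/
theorem Setting.h2 {M : Type} [AddCommGroup M] [DistribMulAction GQ M] [Finite M]
    (hM : Good p U M) :
    Finite (H2 (LS S) M) ∧
      ldim p (H2 (LS S) M) + ldim p (eqHom (chiQ p) (MonoidHom.id GQ) M) =
        (∑ v : S, ldim p (eqHom (chiQ p) (localGaloisToGlobal ((v : Nat.Primes) : ℕ)) M)) +
          ldim p (shaH1 (sDatum T.hp2 T.hpS) M) := by
  let : Module (ZMod p) M := AddCommGroup.zmodModule hM.killed
  have : Finite (Dual (chiQ p) M) := inferInstance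
  have := T.finite_H1 (hM.dual T.le_ker)
  exact finite_H2_and_ldim (sDatum T.hp2 T.hpS) T.normal T.level T.le_ker hM.triv

/-- The fixed elements of complex conjugation. -/
def infFixed (M : Type) [AddCommGroup M] [DistribMulAction GQ M] : AddSubgroup M where
  carrier := {m | complexConjugation • m = m}
  zero_mem' := smul_zero _
  add_mem' {a b} ha hb := by
    show complexConjugation • (a + b) = a + b
    rw [smul_add, show complexConjugation • a = a from ha, show complexConjugation • b = b from hb]
  neg_mem' {a} ha := by
    show complexConjugation • (-a) = -a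
    rw [smul_neg, show complexConjugation • a = a from ha]

/-- The global Euler characteristic, corrected at infinity. -/
def euler (p : ℕ) (S : Finset Nat.Primes) (M : Type) [AddCommGroup M] [DistribMulAction GQ M] : ℤ :=
  (ldim p (H1 (LS S) M) : ℤ) - ldim p (H2 (LS S) M) - ldim p (h0Sub GQ M) -
    ((ldim p M : ℤ) - ldim p (infFixed M))

include T in
/-- The Euler characteristic is additive. -/
theorem Setting.euler_add {A B C : Type} [AddCommGroup A] [DistribMulAction GQ A] [AddCommGroup B]
    [DistribMulAction GQ B] [AddCommGroup C] [DistribMulAction GQ C] [Finite B] (hB : Good p U B)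
    (E : Ses GQ A B C) : euler p S B = euler p S A + euler p S C := by
  have : Finite A := Finite.of_injective _ E.inj
  have : Finite C := Finite.of_surjective _ E.surj
  have hA := hB.of_injective E.i E.inj E.i_smul
  have hC := hB.of_surjective E.q E.surj E.q_smul
  have := T.finite_H1 hA
  have := T.finite_H1 hB
  have := T.finite_H1 hC
  have := (T.h2 hA).1
  have := (T.h2 hB).1
  have := (T.h2 hC).1
  let : Module (ZMod p) B := AddCommGroup.zmodModule hB.killed
  let : Module (ZMod p) C := AddCommGroup.zmodModule hC.killed
  have := T.finiteIndex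
  have h := E.euler_add (T.smooth hB) p (h2Map_surjective (p := p) E.q E.q_smul E.surj hB.triv
    ((sDatum T.hp2 T.hpS).corSurj U T.normal T.level T.le_ker C))
  have hd := ldim_short p E.i E.q E.inj E.surj (by
    ext b
    exact ((E.exact b).symm))
  let iI : infFixed A →+ infFixed B := (E.i.comp (infFixed A).subtype).codRestrict _ fun a => by
    show complexConjugation • E.i a.1 = E.i a.1
    rw [← E.i_smul, a.2]
  let qI : infFixed B →+ infFixed C := (E.q.comp (infFixed B).subtype).codRestrict _ fun a => by
    show complexConjugation • E.q a.1 = E.q a.1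
    rw [← E.q_smul, a.2]
  have hI := ldim_short p iI qI (fun a b hab => Subtype.ext (E.inj (congrArg Subtype.val hab)))
    (fun c => by
      obtain ⟨b, hb⟩ := E.surj (((2 : ZMod p)⁻¹) • c.1)
      refine ⟨⟨b + complexConjugation • b, ?_⟩, Subtype.ext ?_⟩
      · show complexConjugation • (b + complexConjugation • b) = b + complexConjugation • b
        rw [smul_add, ← mul_smul, complexConjugation_mul_self, one_smul, add_comm]
      · show E.q (b + complexConjugation • b) = c.1
        rw [map_add, E.q_smul, hb, smul_zmod_comm, c.2, ← smul_add, half_add T.hp2])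
    (by
      ext b
      constructor
      · rintro ⟨a, rfl⟩; exact Subtype.ext (E.q_i a.1)
      · intro hb
        obtain ⟨a, ha⟩ := (E.exact b.1).mp (congrArg Subtype.val hb)
        exact ⟨⟨a, E.inj (by rw [E.i_smul, ha, b.2])⟩, Subtype.ext ha⟩)
  simp only [euler]
  omega

end FermatAgent.CFT.Euler
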