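import Fermat.Agent.CFT.Euler.Average
import Fermat.Agent.CFT.Euler.Places
import Fermat.Agent.CFT.Euler.Quo

/-!
Units outside a set of primes, modulo a prime, as a module over a finite group of order prime to it.

A `Layer` is a sublevel of index prime to `p` over which the class groups are generated above the
set. The units and the functions on the places above the set are lattices with comparable
characters (`finrank_latFixed_plc` and the unit ranks), so the equivariant maps of a module into
units modulo `p` are counted by those into roots of unity and functions on places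
(`ldim_hom_units`).
-/

set_option autoImplicit false
set_option maxSynthPendingDepth 3

noncomputable section

open scoped Classical NumberField
open IntermediateField

namespace FermatAgent.CFT.Euler

open Coh Local GaloisBasic Global

/-- A normal sublevel of index prime to `p` with class groups generated above the set. -/
structure Layer (p : ℕ) [Fact p.Prime] (S : Finset Nat.Primes) (W V : Subgroup GQ) : Prop where
  hp2 : p ≠ 2
  hpS : ExtCitation.pPrime p ∈ S
  le : V ≤ W
  level : V ∈ LS S
  le_ker : V ≤ (chiQ p).ker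
  coprime : ¬ p ∣ V.relIndex W
  gen : ∀ (K : IntermediateField ℚ Qbar) [FiniteDimensional ℚ K], V ≤ K.fixingSubgroup →
    PrincipalOutside (above K S)

variable {p : ℕ} [hp : Fact p.Prime] {S : Finset Nat.Primes} (W V : Subgroup GQ)

variable [hn : (V.subgroupOf W).Normal]

omit hn in
/-- Units outside `S` are detected by absolute values at all embeddings. -/
lemma mem_tUnits_above_iff {K : IntermediateField ℚ Qbar} [FiniteDimensional ℚ K] {a : GM} :
    a ∈ tUnits K (above K S : Set (PK K)) ↔ a ∈ starK K ∧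
      ∀ q : Nat.Primes, q ∉ S → ∀ g : GQ, haveI : Fact (q : ℕ).Prime := ⟨q.2⟩
        ‖emb (q : ℕ) g a.val‖ = 1 := by
  rw [mem_tUnits]
  refine and_congr_right fun ha => ⟨fun h q hq g => ?_, fun h P hP => ?_⟩
  · have : Fact (q : ℕ).Prime := ⟨q.2⟩
    refine ((isPoint_primeAt (K := K)).norm_eq_one_iff
      (val_mem_of_mem_starK K ha) a.val_ne_zero).mpr
      (h _ fun hm => hq ?_)
    have e : qP (primeAt K (q : ℕ) g) = q :=
      Subtype.ext ((isPoint_primeAt (K := K)).prime_eq (isPoint_gOf _))
    exact e ▸ mem_above.mp (by exact_mod_cast hm)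
  · exact ((isPoint_gOf P).norm_eq_one_iff (val_mem_of_mem_starK K ha) a.val_ne_zero).mp
      (h (qP P) (fun hm => hP (by exact_mod_cast mem_above.mpr hm)) (gOf P))

/-- The units outside `S` as a stable subgroup. -/
def uStable (S : Finset Nat.Primes) : Stable (QG W V) (Fx W V) where
  sub :=
    { carrier := {x | ∀ q : Nat.Primes, q ∉ S → ∀ g : GQ, haveI : Fact (q : ℕ).Prime := ⟨q.2⟩
        ‖emb (q : ℕ) g (Fx.val W V x).val‖ = 1}
      zero_mem' := fun q _ g => by
        have : Fact (q : ℕ).Prime := ⟨q.2⟩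
        rw [map_zero, Ux.val_zero, map_one, norm_one]
      add_mem' := fun {a b} ha hb q hq g => by
        have : Fact (q : ℕ).Prime := ⟨q.2⟩
        rw [map_add, Ux.val_add, map_mul, norm_mul, ha q hq g, hb q hq g, mul_one]
      neg_mem' := fun {a} ha q hq g => by
        have : Fact (q : ℕ).Prime := ⟨q.2⟩
        rw [map_neg, Ux.val_neg, map_inv₀, norm_inv, ha q hq g, inv_one] }
  smul_mem g x hx q hq t := by
    have : Fact (q : ℕ).Prime := ⟨q.2⟩
    obtain ⟨w, rfl⟩ := QuotientGroup.mk'_surjective (V.subgroupOf W) g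
    rw [Fx.val_smul, Ux.val_smul]
    exact hx q hq (t * w)

variable {W V}

/-- Membership in the units above `S`. -/
lemma mem_uStable {K : IntermediateField ℚ Qbar} [FiniteDimensional ℚ K]
    (hK : K.fixingSubgroup = V ⊓ W) {x : Fx W V} :
    x ∈ (uStable W V S).sub ↔ Fx.val W V x ∈ tUnits K (above K S : Set (PK K)) := by
  rw [mem_tUnits_above_iff]
  exact (and_iff_right (a := Fx.val W V x ∈ starK K) (by rw [starK, hK]; exact x.2)).symm

/-- A generator of the roots of unity of a number field. -/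
lemma exists_torsion_gen (K : IntermediateField ℚ Qbar) [FiniteDimensional ℚ K] :
    ∃ (m : ℕ) (t₀ : GM), m ≠ 0 ∧ t₀ ∈ tUnits K ∅ ∧ addOrderOf t₀ = m ∧
      ∀ x ∈ starK K, ∀ n : ℕ, n ≠ 0 → n • x = 0 → ∃ k : ℕ, x = k • t₀ := by
  obtain ⟨⟨g, hg⟩, hgen⟩ := IsCyclic.exists_generator (α := NumberField.Units.torsion K)
  have hfin : IsOfFinOrder g := (CommGroup.mem_torsion g).mp hg
  refine ⟨orderOf g, unitEmb K (Additive.ofMul g), hfin.orderOf_pos.ne',
    range_unitEmb K ▸ ⟨_, rfl⟩, ?_, fun x hx n hn0 hnx => ?_⟩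
  · rw [addOrderOf_injective (unitEmb K) (unitEmb_injective K), addOrderOf_ofMul_eq_orderOf]
  · have hxu : x ∈ tUnits K ∅ := mem_tUnits.mpr ⟨hx, fun P _ => by
      have h := congrFun (map_nsmul (ordHom K) n ⟨x, hx⟩) P
      rw [show n • (⟨x, hx⟩ : ↥(starK K)) = 0 from Subtype.ext hnx, map_zero, Pi.smul_apply,
        ordHom_apply, Pi.zero_apply, nsmul_eq_mul] at h
      exact (mul_eq_zero.mp h.symm).resolve_left (Nat.cast_ne_zero.mpr hn0)⟩
    rw [← range_unitEmb] at hxu
    obtain ⟨u, rfl⟩ := hxu
    have hu : IsOfFinOrder (Additive.toMul u) := by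
      refine isOfFinOrder_iff_pow_eq_one.mpr ⟨n, Nat.pos_of_ne_zero hn0, ?_⟩
      have h1 : n • u = 0 := unitEmb_injective K (by rw [map_nsmul, hnx, map_zero])
      exact congrArg Additive.toMul h1
    obtain ⟨k, hk⟩ := (IsOfFinOrder.mem_powers_iff_mem_zpowers
      (x := (⟨g, hg⟩ : NumberField.Units.torsion K)) (isOfFinOrder_of_finite _)).mpr
        (hgen ⟨Additive.toMul u, (CommGroup.mem_torsion _).mpr hu⟩)
    refine ⟨k, ?_⟩
    rw [← map_nsmul]
    exact congrArg (unitEmb K) (congrArg (fun t : NumberField.Units.torsion K =>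
      Additive.ofMul (t : (𝓞 K)ˣ)) hk).symm

namespace Layer

variable (T : Layer p S W V)

include T
omit hn

/-- The smaller subgroup lies in the larger. -/
lemma inf_eq : V ⊓ W = V := inf_eq_left.mpr T.le

/-- The subgroup has finite index. -/
lemma finiteIndex : V.FiniteIndex := (LS S).finiteIndex T.level

/-- The field of the subgroup is unramified outside `S` and contains the roots of unity. -/
lemma field : ∃ K : IntermediateField ℚ Qbar, FiniteDimensional ℚ K ∧ K.fixingSubgroup = V ∧
    K.IsUnramifiedOutside S ∧ zet p ∈ K := by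
  have hK := isUnramifiedOutside_of_mem T.level
  have := hK.1
  refine ⟨fixedField V, hK.1, fixingSubgroup_fixedField_of_mem (LS_le T.level), hK, fun g => ?_⟩
  show (g : GQ) • zet p = zet p
  have := apply_zet p (g : GQ)
  rw [show chiQ p (g : GQ) = 1 from T.le_ker g.2, Units.val_one, ZMod.val_one, pow_one] at this
  exact this

/-- The quotient group is finite. -/
lemma finite_qg : Finite (QG W V) := by
  have := T.finiteIndex
  exact Subgroup.finite_quotient_of_finiteIndex (H := V.subgroupOf W)

/-- The order of the quotient is prime to `p`. -/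
lemma not_dvd_card [Fintype (QG W V)] :
    ¬ p ∣ Fintype.card (QG W V) := by
  rw [← Nat.card_eq_fintype_card]
  exact T.coprime

end Layer

/-- The projection of double cosets. -/
def dcProj {Γ : Type} [Group Γ] {H H' C : Subgroup Γ} (h : H ≤ H') : DC H C → DC H' C :=
  Quotient.map id fun x y hxy => by
    obtain ⟨a, ha, b, hb, rfl⟩ := DoubleCoset.rel_iff.mp hxy
    exact DoubleCoset.rel_iff.mpr ⟨a, h ha, b, hb, rfl⟩

@[simp] lemma dcProj_mk {Γ : Type} [Group Γ] {H H' C : Subgroup Γ} (h : H ≤ H') (x : Γ) :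
    dcProj h (DoubleCoset.mk H C x) = DoubleCoset.mk H' C x := rfl

variable (W V) in
/-- Translation of a double coset. -/
def dcAct (C : Subgroup GQ) (w : W) : DC (V ⊓ W) C → DC (V ⊓ W) C :=
  Quotient.map (fun x => (w : GQ) * x) fun x y h => by
    obtain ⟨a, ha, b, hb, rfl⟩ := DoubleCoset.rel_iff.mp h
    exact DoubleCoset.rel_iff.mpr ⟨_, conj_mem_inter W V w ha, b, hb, by group⟩

instance (C : Subgroup GQ) : MulAction (QG W V) (DC (V ⊓ W) C) :=
  MulAction.compHom _ (QuotientGroup.lift (V.subgroupOf W)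
    ({ toFun := dcAct W V C
       map_one' := funext fun z => z.inductionOn fun x => congrArg Quotient.mk'' (one_mul x)
       map_mul' := fun w w' => funext fun z =>
         z.inductionOn fun x => congrArg Quotient.mk'' (mul_assoc _ _ x) } :
      W →* Function.End (DC (V ⊓ W) C))
    fun v hv => funext fun z => z.inductionOn fun x =>
      Quotient.sound (DoubleCoset.rel_iff.mpr
        ⟨(v : GQ)⁻¹, inv_mem ⟨hv, v.2⟩, 1, one_mem _, by group⟩))

/-- The action on double cosets. -/
lemma qg_smul_mk (C : Subgroup GQ) (w : W) (x : GQ) :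
    qg W V w • DoubleCoset.mk (V ⊓ W) C x = DoubleCoset.mk (V ⊓ W) C ((w : GQ) * x) :=
  rfl

instance : MulAction (QG W V) (Plc S (V ⊓ W)) where
  smul g z := ⟨z.1, g • z.2⟩
  one_smul z := Sigma.ext rfl (heq_of_eq (one_smul (QG W V) z.2))
  mul_smul g h z := Sigma.ext rfl (heq_of_eq (mul_smul g h z.2))

/-- The trivial action on the point. -/
instance {P : Type} [Group P] : MulAction P Unit where
  smul _ _ := ()
  one_smul _ := rfl
  mul_smul _ _ _ := rfl

/-- The permutation lattice of a finite set has the orbit count as fixed rank. -/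
lemma finrank_latFixed_permLat {P Z O : Type} [Group P] [MulAction P Z] [Finite Z] (D : Subgroup P)
    (π : Z → O) (hs : Function.Surjective π) (h1 : ∀ g ∈ D, ∀ z, π (g • z) = π z)
    (h2 : ∀ z z', π z = π z' → ∃ g ∈ D, g • z = z') :
    Module.finrank ℤ (latFixed (PermLat Z) D) = Nat.card O := by
  have : Finite O := Finite.of_surjective π hs
  let : Fintype O := Fintype.ofFinite O
  let e : (O → ℤ) →+ latFixed (PermLat Z) D := AddMonoidHom.mk'
    (fun f => ⟨(fun z => f (π z) : Z → ℤ), fun g hg => funext fun z => by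
      show f (π (g⁻¹ • z)) = f (π z)
      rw [h1 g⁻¹ (inv_mem hg)]⟩) fun f f' => rfl
  have he : Function.Bijective e := by
    refine ⟨fun f f' h => funext fun o => ?_, fun v => ?_⟩
    · obtain ⟨z, rfl⟩ := hs o
      exact congrFun (congrArg Subtype.val h) z
    · choose s hsec using hs
      refine ⟨fun o => (v.1 : Z → ℤ) (s o), Subtype.ext (funext fun z => ?_)⟩
      obtain ⟨g, hg, hgz⟩ := h2 z (s (π z)) (hsec _).symm
      show (v.1 : Z → ℤ) (s (π z)) = (v.1 : Z → ℤ) z
      have h3 : (v.1 : Z → ℤ) (g⁻¹ • (s (π z))) = (v.1 : Z → ℤ) (s (π z)) :=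
        congrFun (v.2 g hg) (s (π z))
      rw [← h3, ← hgz, inv_smul_smul]
  rw [← LinearEquiv.finrank_eq (AddEquiv.ofBijective e he).toIntLinearEquiv,
    Module.finrank_fintype_fun_eq_card, Nat.card_eq_fintype_card]

/-- The preimage of a subgroup of the quotient. -/
def preim (D : Subgroup (QG W V)) : Subgroup GQ := (D.comap (qg W V)).map W.subtype

lemma le_preim (D : Subgroup (QG W V)) : V ⊓ W ≤ preim D := fun v hv =>
  ⟨⟨v, hv.2⟩, by
    rw [SetLike.mem_coe, Subgroup.mem_comap, show qg W V ⟨v, hv.2⟩ = 1 from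
      (QuotientGroup.eq_one_iff _).mpr hv.1]
    exact one_mem D, rfl⟩

/-- The orbits on places. -/
lemma finrank_latFixed_plc (T : Layer p S W V) (D : Subgroup (QG W V)) :
    Module.finrank ℤ (latFixed (PermLat (Plc S (V ⊓ W))) D) = Nat.card (Plc S (preim D)) := by
  have := T.finiteIndex
  have : (V ⊓ W).FiniteIndex := by rw [T.inf_eq]; infer_instance
  refine finrank_latFixed_permLat D
    (fun z : Plc S (V ⊓ W) => (⟨z.1, dcProj (le_preim D) z.2⟩ : Plc S (preim D))) ?_ ?_ ?_
  · rintro ⟨v, z⟩
    induction z using Quotient.inductionOn with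
    | _ x => exact ⟨⟨v, DoubleCoset.mk _ _ x⟩, rfl⟩
  · rintro g hg ⟨v, z⟩
    obtain ⟨w, rfl⟩ := QuotientGroup.mk'_surjective (V.subgroupOf W) g
    induction z using Quotient.inductionOn with
    | _ x =>
      refine Sigma.ext rfl (heq_of_eq ?_)
      show dcProj (le_preim D) (qg W V w • DoubleCoset.mk (V ⊓ W) (decomp S v) x) =
        dcProj (le_preim D) (DoubleCoset.mk (V ⊓ W) (decomp S v) x)
      rw [qg_smul_mk, dcProj_mk, dcProj_mk, DoubleCoset.eq]
      exact ⟨(w : GQ)⁻¹, inv_mem ⟨w, hg, rfl⟩, 1, one_mem _, by group⟩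
  · rintro ⟨v, z⟩ ⟨v', z'⟩ h
    obtain rfl : v = v' := congrArg Sigma.fst h
    induction z using Quotient.inductionOn with
    | _ x =>
      induction z' using Quotient.inductionOn with
      | _ x' =>
        obtain ⟨u, ⟨w, hw, rfl⟩, c, hc, rfl⟩ :=
          (DoubleCoset.eq (preim D) (decomp S v) x x').mp (eq_of_heq (Sigma.mk.inj h).2)
        refine ⟨qg W V w, hw, Sigma.ext rfl (heq_of_eq ?_)⟩
        show qg W V w • DoubleCoset.mk (V ⊓ W) (decomp S v) x =
          DoubleCoset.mk (V ⊓ W) (decomp S v) ((w : GQ) * x * c)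
        rw [qg_smul_mk, DoubleCoset.eq]
        exact ⟨1, one_mem _, c, hc, by simp⟩

/-- Multiples of an element killed by `p` depend on the coefficient modulo `p` only. -/
private lemma nsmul_congr_zmod {B : Type} [AddCommGroup B] {x : B} (hx : p • x = 0) {a b : ℕ}
    (h : (a : ZMod p) = b) : a • x = b • x :=
  nsmul_eq_nsmul_iff_modEq.mpr
    (((ZMod.natCast_eq_natCast_iff a b p).mp h).of_dvd (addOrderOf_dvd_of_nsmul_eq_zero hx))

/-- The units outside `S` of the sublevel have cyclic torsion of order divisible by `p`, on which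
the group acts through the cyclotomic character modulo `p`. -/
private lemma exists_torsion_gen_uStable (T : Layer p S W V) {K : IntermediateField ℚ Qbar}
    [FiniteDimensional ℚ K] (hK : K.fixingSubgroup = V ⊓ W) (hζ : zet p ∈ K) :
    ∃ (m : ℕ) (t : (uStable W V S).Mod), m ≠ 0 ∧ addOrderOf t = m ∧ p ∣ m ∧
      (∀ x : (uStable W V S).Mod, ∀ n : ℕ, n ≠ 0 → n • x = 0 → ∃ k : ℕ, x = k • t) ∧
      ∀ (g : QG W V) (a : ℕ), g • t = a • t →
        (a : ZMod p) = (chiG (p := p) (W := W) T.le_ker g : ZMod p) := by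
  obtain ⟨m, t₀, hm, ht₀, hord, hgen⟩ := exists_torsion_gen K
  let t : (uStable W V S).Mod := ⟨⟨t₀, by rw [← hK]; exact tUnits_le K _ ht₀⟩,
    (mem_uStable hK).mpr (tUnits_mono (Set.empty_subset _) ht₀)⟩
  -- the root of unity of order `p`
  have : NeZero p := ⟨hp.out.ne_zero⟩
  set ζ := zetaUx (zet_spec p)
  obtain ⟨k₀, hk₀⟩ := hgen ζ (zetaUx_mem_starK (zet_spec p) hζ) p hp.out.ne_zero (nsmul_zetaUx _)
  have hζ0 : ζ ≠ 0 := fun h => zero_ne_one (zetaUx_val_injective (zet_spec p) (i := (0 : ZMod p))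
    (j := 1) (show (0 : ZMod p).val • ζ = (1 : ZMod p).val • ζ by rw [h, smul_zero, smul_zero]))
  have hζord : addOrderOf ζ = p := addOrderOf_eq_prime (nsmul_zetaUx _) hζ0
  have hpm : p ∣ m := hζord ▸ addOrderOf_dvd_iff_nsmul_eq_zero.mpr (by
      rw [hk₀, ← mul_smul, mul_comm, mul_smul, ← hord, addOrderOf_nsmul_eq_zero, smul_zero])
  refine ⟨m, t, hm, ?_, hpm, fun x n hn0 hx => ?_, fun g a ha => ?_⟩
  · rw [← hord]
    exact (addOrderOf_injective ((Fx.val W V).comp (uStable W V S).sub.subtype)
      (fun x y h => Subtype.ext (Fx.val_injective W V h)) t).symm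
  · obtain ⟨k, hk⟩ := hgen (Fx.val W V x.1) (tUnits_le K _ ((mem_uStable hK).mp x.2)) n hn0
      (congrArg (fun y : (uStable W V S).Mod => Fx.val W V y.1) hx)
    exact ⟨k, Subtype.ext (Fx.val_injective W V hk)⟩
  · obtain ⟨w, rfl⟩ := QuotientGroup.mk'_surjective (V.subgroupOf W) g
    have h1 : (w : GQ) • t₀ = a • t₀ := (Fx.val_smul W V w t.1).symm.trans
      (congrArg (fun y : (uStable W V S).Mod => Fx.val W V y.1) ha)
    have h2 : (w : GQ) • ζ = a • ζ := by
      rw [hk₀, smul_nsmul', h1, smul_comm]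
    have h3 : (w : GQ) • ζ = ((chiQ p (w : GQ) : ZMod p)).val • ζ :=
      Ux.ext (by
        rw [Ux.val_smul, Ux.val_nsmul]
        exact (apply_zet p (w : GQ)))
    rw [h3, ← nsmul_congr_zmod (nsmul_zetaUx (zet_spec p)) (ZMod.natCast_zmod_val (a : ZMod p))]
      at h2
    rw [chiG_qg]
    exact (zetaUx_val_injective (zet_spec p) h2).symm

/-- The units outside `S` of the sublevel are finitely generated. -/
private lemma finite_uStable {K : IntermediateField ℚ Qbar} [FiniteDimensional ℚ K]
    (hK : K.fixingSubgroup = V ⊓ W) : Module.Finite ℤ (uStable W V S).Mod := by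
  let toK : (uStable W V S).Mod →+ tUnits K (above K S : Set (PK K)) :=
    ((Fx.val W V).comp (uStable W V S).sub.subtype).codRestrict _ fun x => (mem_uStable hK).mp x.2
  have htoK : Function.Bijective toK := by
    refine ⟨fun x y h => Subtype.ext (Fx.val_injective W V
      (congrArg (fun z : ↥(tUnits K (above K S : Set (PK K))) => (z : GM)) h)), fun a => ?_⟩
    let b : Fx W V := ⟨a.1, by rw [← hK]; exact tUnits_le K _ a.2⟩
    exact ⟨⟨b, (mem_uStable hK).mpr a.2⟩, rfl⟩
  have := (finrank_tUnits S K).1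
  exact Module.Finite.equiv (AddEquiv.ofBijective toK htoK).symm.toIntLinearEquiv

section Reduction

variable {P M : Type} [Group P] [AddCommGroup M] [DistribMulAction P M] {t : M} {m : ℕ}

omit hp in
/-- When `t` generates the torsion, of order `m`, the multiples of `m` are free. -/
private lemma free_of_nsmul_range (hm : m ≠ 0) (hord : addOrderOf t = m)
    (htors : ∀ x : M, ∀ n : ℕ, n ≠ 0 → n • x = 0 → ∃ k : ℕ, x = k • t) (Lat : Stable P M)
    (hLat : ∀ x, x ∈ Lat.sub ↔ ∃ y, m • y = x) [Module.Finite ℤ Lat.Mod] :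
    Module.Free ℤ Lat.Mod := by
  have htf : ∀ (n : ℕ) (x : Lat.Mod), n ≠ 0 → n • x = 0 → x = 0 := fun n x hn0 hx => by
    obtain ⟨y, hy⟩ := (hLat _).mp x.2
    obtain ⟨k, hk⟩ := htors y (n * m) (mul_ne_zero hn0 hm) (by
      rw [mul_smul, show m • y = x.1 from hy, ← AddSubgroupClass.coe_nsmul, hx]; rfl)
    refine Subtype.ext ?_
    rw [← hy, hk, ← mul_smul, mul_comm, mul_smul, ← hord, addOrderOf_nsmul_eq_zero, smul_zero]
    rfl
  have : Module.IsTorsionFree ℤ Lat.Mod := by
    refine ⟨fun n hn a b hab => sub_eq_zero.mp ?_⟩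
    have h : n • (a - b) = 0 := by rw [smul_sub]; exact sub_eq_zero.mpr hab
    refine htf n.natAbs _ (Int.natAbs_ne_zero.mpr hn.ne_zero) ?_
    rw [← natCast_zsmul]
    rcases Int.natAbs_eq n with e | e
    · rw [← e, h]
    · rw [show (n.natAbs : ℤ) = -n by omega, neg_smul, h, neg_zero]
  exact Module.free_of_finite_type_torsion_free'

/-- Reduction modulo `p` of a module with torsion generated by `t`, of order `m` divisible by `p`,
is an extension of that of the multiples of `m` by the character of `t`. -/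
private lemma exists_ses_modp (χ : P →* (ZMod p)ˣ) (hm : m ≠ 0) (hord : addOrderOf t = m)
    (hpm : p ∣ m) (htors : ∀ x : M, ∀ n : ℕ, n ≠ 0 → n • x = 0 → ∃ k : ℕ, x = k • t)
    (hχ : ∀ (g : P) (a : ℕ), g • t = a • t → (a : ZMod p) = χ g) (Lat : Stable P M)
    (hLat : ∀ x, x ∈ Lat.sub ↔ ∃ y, m • y = x) :
    Nonempty (Ses P (Mu χ) (Modp p M) (Modp p Lat.Mod)) := by
  have : NeZero p := ⟨hp.out.ne_zero⟩
  have htord : m • t = 0 := hord ▸ addOrderOf_nsmul_eq_zero t
  let mr : M →+ Lat.Mod :=
    (nsmulAddMonoidHom m : M →+ M).codRestrict Lat.sub fun y => (hLat _).mpr ⟨y, rfl⟩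
  let i : Mu χ →+ Modp p M := AddMonoidHom.mk'
    (fun a => (Mu.val _ a).val • toModp p M t) fun a b => by
      rw [map_add, ← add_smul]
      exact nsmul_congr_zmod (nsmul_modp p M _) (by simp)
  let q : Modp p M →+ Modp p Lat.Mod :=
    QuotientAddGroup.lift _ ((toModp p Lat.Mod).comp mr) fun x hx => by
      obtain ⟨y, rfl⟩ := hx
      refine (toModp_eq_zero_iff p Lat.Mod).mpr ⟨mr y, ?_⟩
      rw [← map_nsmul]; rfl
  exact ⟨
    { i := i
      q := q
      i_smul := fun g a => by
        show (Mu.val _ (g • a)).val • toModp p M t = g • ((Mu.val _ a).val • toModp p M t)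
        obtain ⟨k, hk⟩ := htors (g • t) m hm (by
          rw [← smul_nsmul', htord, smul_zero])
        rw [smul_nsmul', smul_toModp, hk, map_nsmul, ← mul_smul]
        refine nsmul_congr_zmod (nsmul_modp p M _) ?_
        rw [ZMod.natCast_zmod_val, Nat.cast_mul, ZMod.natCast_zmod_val, Mu.val_smul, hχ g k hk]
        ring
      q_smul := fun g b => by
        obtain ⟨x, rfl⟩ := toModp_surjective p M b
        refine congrArg (toModp p Lat.Mod) (Subtype.ext ?_)
        exact (map_nsmul (DistribSMul.toAddMonoidHom M g) m x).symm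
      inj := (injective_iff_map_eq_zero i).mpr fun a ha => by
        obtain ⟨y, hy⟩ := (toModp_eq_zero_iff p M).mp
          ((map_nsmul (toModp p M) (Mu.val _ a).val t).trans ha)
        obtain ⟨k, rfl⟩ := htors y (m * p) (mul_ne_zero hm hp.out.ne_zero) (by
          rw [mul_smul, hy, ← mul_smul, mul_comm, mul_smul, htord, smul_zero])
        rw [← mul_smul] at hy
        have h := (ZMod.natCast_eq_natCast_iff _ _ p).mpr
          ((nsmul_eq_nsmul_iff_modEq.mp hy).of_dvd (hord ▸ hpm))
        rw [Nat.cast_mul, ZMod.natCast_self, zero_mul, ZMod.natCast_zmod_val] at h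
        exact Mu.ext _ (h.symm.trans (map_zero _).symm)
      surj := fun b => by
        obtain ⟨x, rfl⟩ := toModp_surjective p Lat.Mod b
        obtain ⟨y, hy⟩ := (hLat _).mp x.2
        exact ⟨toModp p M y, congrArg (toModp p Lat.Mod) (Subtype.ext hy)⟩
      exact := fun b => by
        obtain ⟨x, rfl⟩ := toModp_surjective p M b
        constructor
        · intro hx
          obtain ⟨y, hy⟩ := (toModp_eq_zero_iff p Lat.Mod).mp hx
          obtain ⟨z, hz⟩ := (hLat _).mp y.2
          obtain ⟨k, hk⟩ := htors (x - p • z) m hm (by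
            rw [nsmul_sub, ← mul_smul, mul_comm, mul_smul, hz, ← AddSubgroupClass.coe_nsmul, hy]
            exact sub_self _)
          refine ⟨Mu.of _ (k : ZMod p), ?_⟩
          show (Mu.val _ (Mu.of _ (k : ZMod p))).val • toModp p M t = toModp p M x
          rw [Mu.val_of, nsmul_congr_zmod (nsmul_modp p M _) (ZMod.natCast_zmod_val (k : ZMod p)),
            ← map_nsmul, ← hk, map_sub, map_nsmul, nsmul_modp, sub_zero]
        · rintro ⟨a, ha⟩
          rw [← ha]
          show q ((Mu.val _ a).val • toModp p M t) = 0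
          rw [map_nsmul, show q (toModp p M t) = toModp p Lat.Mod (mr t) from rfl,
            show mr t = 0 from Subtype.ext htord, map_zero, smul_zero] }⟩

end Reduction

/-- The fixed multiples of `m` among the units have the rank of the units of the fixed field. -/
private lemma finrank_latFixed_units_add_one (T : Layer p S W V) {m : ℕ} (hm : m ≠ 0)
    (Lat : Stable (QG W V) (uStable W V S).Mod) (hLat : ∀ x, x ∈ Lat.sub ↔ ∃ y, m • y = x)
    [Module.Finite ℤ Lat.Mod] (D : Subgroup (QG W V)) :
    Module.finrank ℤ (latFixed Lat.Mod D) + 1 = Nat.card (Plc S (preim D)) := by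
  -- the fixed field
  set H := preim D
  have hVH : V ≤ H := T.inf_eq.symm.le.trans (le_preim D)
  have hH : H ∈ LS S := (LS S).mem_of_le T.level hVH
  set F := fixedField H
  have hFu := isUnramifiedOutside_of_mem hH
  have := hFu.1
  have hF : F.fixingSubgroup = H := fixingSubgroup_fixedField_of_mem (LS_le hH)
  have := (finrank_tUnits S F).1
  rw [← hF, ← (finrank_tUnits S F).2]
  congr 1
  -- both directions
  have hfixed : ∀ x : (uStable W V S).Mod, (∀ d ∈ D, d • x = x) →
      Fx.val W V x.1 ∈ tUnits F (above F S : Set (PK F)) := fun x hx => by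
    refine mem_tUnits_above_iff.mpr ⟨fun u hu => ?_, x.2⟩
    obtain ⟨w, hw, rfl⟩ := (hF ▸ hu : u ∈ H)
    have := congrArg (fun y : (uStable W V S).Mod => Fx.val W V y.1) (hx _ hw)
    exact (Fx.val_smul W V w x.1).symm.trans this
  let toF : latFixed Lat.Mod D →+ tUnits F (above F S : Set (PK F)) := AddMonoidHom.mk'
    (fun x => ⟨Fx.val W V x.1.1.1, hfixed x.1.1 fun d hd => congrArg Subtype.val (x.2 d hd)⟩)
    fun x y => rfl
  have htoF : Function.Injective toF := fun x y h =>
    Subtype.ext (Subtype.ext (Subtype.ext (Fx.val_injective W V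
      (congrArg (fun z : ↥(tUnits F (above F S : Set (PK F))) => (z : GM)) h))))
  have hlift : ∀ a : tUnits F (above F S : Set (PK F)), a.1 ∈ fixedUx (V ⊓ W : Subgroup GQ) :=
    fun a v hv => tUnits_le F _ a.2 v (hF.symm ▸ le_preim D hv)
  let up : tUnits F (above F S : Set (PK F)) →+ (uStable W V S).Mod := AddMonoidHom.mk'
    (fun a => ⟨⟨a.1, hlift a⟩, (mem_tUnits_above_iff.mp a.2).2⟩) fun a b => rfl
  let mr : (uStable W V S).Mod →+ Lat.Mod :=
    (nsmulAddMonoidHom m : (uStable W V S).Mod →+ _).codRestrict Lat.sub fun y =>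
      (hLat _).mpr ⟨y, rfl⟩
  let ofF : tUnits F (above F S : Set (PK F)) →+ latFixed Lat.Mod D :=
    (mr.comp up).codRestrict (latFixed Lat.Mod D) fun a d hd => by
      refine Subtype.ext ?_
      show d • (m • _ : (uStable W V S).Mod) = m • _
      rw [smul_nsmul']
      refine congrArg (m • ·) (Subtype.ext (Fx.val_injective W V ?_))
      obtain ⟨w, rfl⟩ := QuotientGroup.mk'_surjective (V.subgroupOf W) d
      exact (Fx.val_smul W V w _).trans (tUnits_le F _ a.2 (w : GQ) (hF.symm ▸ ⟨w, hd, rfl⟩))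
  have : Module.Finite ℤ (latFixed Lat.Mod D) :=
    Module.Finite.of_injective (latFixed Lat.Mod D).subtype.toIntLinearMap Subtype.val_injective
  refine le_antisymm (LinearMap.finrank_le_finrank_of_injective (f := toF.toIntLinearMap) htoF) ?_
  have hk : Module.finrank ℤ (LinearMap.ker ofF.toIntLinearMap) = 0 := by
    rw [Module.finrank_eq_zero_iff]
    intro x
    refine ⟨(m : ℤ), by exact_mod_cast hm, Subtype.ext ?_⟩
    have hx := congrArg (fun z : latFixed Lat.Mod D => Fx.val W V z.1.1.1) x.2
    refine Subtype.ext ?_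
    rw [natCast_zsmul]
    exact hx
  have hsum := Submodule.finrank_quotient_add_finrank (LinearMap.ker ofF.toIntLinearMap)
  rw [hk, add_zero, ofF.toIntLinearMap.quotKerEquivRange.finrank_eq] at hsum
  rw [← hsum]
  exact Submodule.finrank_le _

/-- The equivariant maps into units modulo `p`, counted by those into roots of unity and functions
on places. -/
theorem ldim_hom_units (T : Layer p S W V) {A : Type} [AddCommGroup A]
    [DistribMulAction (QG W V) A] [Finite A] [Fintype (QG W V)] (hA : ∀ a : A, p • a = 0) :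
    ldim p (h0Sub (QG W V) (HomTw (MonoidHom.id (QG W V)) A (Modp p (uStable W V S).Mod))) +
        ldim p (h0Sub (QG W V) A) =
      ldim p (h0Sub (QG W V)
          (HomTw (MonoidHom.id (QG W V)) A (Mu (chiG (p := p) (W := W) T.le_ker)))) +
        ldim p (h0Sub (QG W V) (FunMod (Plc S (V ⊓ W)) A)) := by
  have := T.finiteIndex
  have : (V ⊓ W).FiniteIndex := by rw [T.inf_eq]; infer_instance
  obtain ⟨K, hfd, hfix, hKu, hζ⟩ := T.field
  have hK : K.fixingSubgroup = V ⊓ W := by rw [hfix, T.inf_eq]
  set U := uStable W V S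
  have : Module.Finite ℤ U.Mod := finite_uStable hK
  obtain ⟨m, t, hm, hord, hpm, htors, hchi⟩ := exists_torsion_gen_uStable T hK hζ
  -- the lattice
  obtain ⟨Lat, hLat⟩ : ∃ L : Stable (QG W V) U.Mod, ∀ x, x ∈ L.sub ↔ ∃ y, m • y = x :=
    ⟨⟨(nsmulAddMonoidHom m : U.Mod →+ U.Mod).range, fun g x hx => by
      obtain ⟨y, rfl⟩ := hx
      exact ⟨g • y, (map_nsmul (DistribSMul.toAddMonoidHom U.Mod g) m y).symm⟩⟩, fun x => Iff.rfl⟩
  have : Module.Finite ℤ Lat.Mod :=
    Module.Finite.of_surjective ((nsmulAddMonoidHom m : U.Mod →+ U.Mod).codRestrict Lat.sub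
      fun y => (hLat _).mpr ⟨y, rfl⟩).toIntLinearMap fun x => by
        obtain ⟨y, hy⟩ := (hLat _).mp x.2
        exact ⟨y, Subtype.ext hy⟩
  have : Module.Free ℤ Lat.Mod := free_of_nsmul_range hm hord htors Lat hLat
  -- the sequence of reductions
  set f := invHom (p := p) (P := QG W V) A T.not_dvd_card hA
  have hfinE : Finite (Modp p U.Mod) := finite_modp p U.Mod
  obtain ⟨E⟩ := exists_ses_modp (chiG (p := p) (W := W) T.le_ker) hm hord hpm htors hchi Lat hLat
  have hE := f.add _ _ _ (nsmul_modp p U.Mod) E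
  -- the characters
  let : Fintype (Plc S (V ⊓ W)) := Fintype.ofFinite _
  have : Module.Free ℤ (Lat.Mod × PermLat Unit) := inferInstance
  let E2 : Ses (QG W V) Lat.Mod (Lat.Mod × PermLat Unit) (PermLat Unit) :=
    { i := AddMonoidHom.inl _ _
      q := AddMonoidHom.snd _ _
      i_smul := fun g a => Prod.ext rfl (smul_zero g).symm
      q_smul := fun _ _ => rfl
      inj := fun a b h => congrArg Prod.fst h
      surj := fun y => ⟨(0, y), rfl⟩
      exact := fun b => ⟨fun hb => ⟨b.1, Prod.ext rfl hb.symm⟩, fun ⟨a, ha⟩ => ha ▸ rfl⟩ }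
  obtain ⟨v2, c2⟩ := latVal_add f E2
  have hunit : ∀ g : QG W V, latChar (PermLat Unit) g = 1 := fun g => by
    rw [PermLat.latChar_eq]
    refine Nat.cast_eq_one.mpr (Finset.card_eq_one.mpr ⟨(), ?_⟩)
    ext y
    simp
  have hchar : ∀ g : QG W V,
      latChar (Lat.Mod × PermLat Unit) g = latChar (PermLat (Plc S (V ⊓ W))) g := by
    refine latChar_eq_of_finrank fun g => ?_
    set D := Subgroup.zpowers g
    let : Fintype D := Fintype.ofFinite _
    have hD : (Fintype.card D : ℤ) ≠ 0 := by exact_mod_cast Fintype.card_ne_zero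
    have h := sum_latChar (L := Lat.Mod × PermLat Unit) D
    simp only [c2, hunit, Finset.sum_add_distrib, sum_latChar, Finset.sum_const, Finset.card_univ,
      nsmul_eq_mul, mul_one] at h
    rw [← mul_add_one] at h
    have h' : Module.finrank ℤ (latFixed Lat.Mod D) + 1 =
        Module.finrank ℤ (latFixed (Lat.Mod × PermLat Unit) D) := by
      exact_mod_cast mul_left_cancel₀ hD h
    rw [← h', finrank_latFixed_plc T D, finrank_latFixed_units_add_one T hm Lat hLat D]
  have hv := latVal_eq_of_latChar f _ (Lat.Mod × PermLat Unit) (PermLat (Plc S (V ⊓ W))) rfl hchar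
  rw [v2, invHom_permLat, invHom_permLat] at hv
  have hUnit : ldim p (h0Sub (QG W V) (FunMod Unit A)) = ldim p (h0Sub (QG W V) A) :=
    ldim_congr p
      { toFun := fun φ => ⟨(φ.1 : Unit → A) (), fun g => congrFun (φ.2 g) ()⟩
        invFun := fun a => ⟨(fun _ => a.1 : Unit → A), fun g => funext fun _ => a.2 g⟩
        left_inv := fun φ => Subtype.ext (funext fun _ => rfl)
        right_inv := fun a => rfl }
  rw [hUnit] at hv
  simp only [f, invHom, AddInv.latVal] at hE hv
  omega

end FermatAgent.CFT.Euler
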