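import Fermat.Agent.CFT.Euler.Cyclic
import Fermat.Agent.CFT.Euler.Layer

/-!
The vanishing of the corrected global Euler characteristic.
-/

set_option autoImplicit false
set_option maxSynthPendingDepth 3

noncomputable section

open scoped Classical

namespace FermatAgent.CFT.Euler

open Coh Local GaloisBasic Global

variable {p : ℕ} [hp : Fact p.Prime] {S : Finset Nat.Primes} {U : Subgroup GQ}

/-- The corrected global Euler characteristic vanishes. -/
theorem Setting.euler_eq_zero (T₀ : Setting p S U) (M : Type) [AddCommGroup M]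
    [DistribMulAction GQ M] [Finite M] (hM : Good p U M) : euler p S M = 0 :=
  eq_zero_of_coInd_layer (e := fun M _ _ => euler p S M)
    ⟨T₀.normal, T₀.finiteIndex, fun h h' E => T₀.euler_add ⟨h, h'⟩ E⟩ T₀.le_ker
    (fun _ _ _ _ hUV hVW hVχ hco _ _ _ _ hV hN =>
      euler_coInd_eq_zero ⟨T₀.hp2, T₀.hpS, hVW, (LS S).mem_of_le T₀.level hUV, hVχ, hco,
        fun K _ hK => T₀.gen K (hUV.trans hK)⟩ T₀ hUV hV hN) M hM.triv hM.killed

end FermatAgent.CFT.Euler
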